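/-
LR / node [PD-ADAPT]: from the general (pair-level) statements about the cup form to the
`gh_H`-level API consumed by [TOP].

A *pair* is a group `Γ` with a homomorphism `ι : Γ →* SL(2,ℤ)`; it is admissible (`lrpd_ad_Adm`) if
`ι` is injective, its range has finite index and contains `-1`.  `lrpd_ad_PE ι F` are the characters
`Γ → F` killing every `γ` with `tr(ι γ)² ≤ 4` (`= gh_parEllHoms M F` for `Γ = Γ₀(M)`).

`lrpd_ad_Theory F Om` packages what node [PD] proves about a family of forms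
`Om Γ ι : Hom(Γ,F) → Hom(Γ,F) → F`:
additivity, skew-symmetry, nondegeneracy on `PE`, TRANSPORT along trace- and positivity-preserving
isomorphisms, and ADJOINTNESS of restriction and transfer (`lrt_cor` of `LR/MTX/Transfer.lean`)
for point stabilisers.

From it we derive, for `F = ZMod p`:
* `lrpd_ad_adjA`, `lrpd_ad_adjB` : adjointness for `lrm_resA / lrm_corA`, `lrm_resB / lrm_corB`;
* `lrpd_ad_Om Om p M : (gh_H M →+ ZMod p) →ₗ[ZMod p] (gh_H M →+ ZMod p) →ₗ[ZMod p] ZMod p` with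
  `lrpd_ad_Om_nondeg`, `lrpd_ad_Om_skew`, `lrpd_ad_Om_adj_A`, `lrpd_ad_Om_adj_B` in the exact shape
  of the consumer.
Prefix `lrpd_ad_`.
-/
import Mathlib
import Fermat.Agent.LR.MTX.Homology

set_option autoImplicit false

noncomputable section

open CongruenceSubgroup Matrix.SpecialLinearGroup
open scoped MatrixGroups OnePoint
open Fermat.Agent.JT3

namespace Fermat.Agent.LR

/-! ### Pairs `(Γ, ι : Γ →* SL(2,ℤ))` -/

section pairs

variable {Γ : Type*} [Group Γ]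

/-- `tr(ι γ)² ≤ 4` : `γ` is parabolic, elliptic or `±1` -/
def lrpd_ad_IsParEll (ι : Γ →* SL(2, ℤ)) (γ : Γ) : Prop :=
  ((ι γ : SL(2, ℤ)) : Matrix (Fin 2) (Fin 2) ℤ).trace ^ 2 ≤ 4

/-- the characters killing the parabolic and the elliptic elements -/
def lrpd_ad_PE (ι : Γ →* SL(2, ℤ)) (F : Type*) [AddCommGroup F] :
    AddSubgroup (Additive Γ →+ F) where
  carrier := {x | ∀ γ : Γ, lrpd_ad_IsParEll ι γ → x (Additive.ofMul γ) = 0}
  zero_mem' := fun _ _ => rfl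
  add_mem' := by
    intro x y hx hy γ hγ
    rw [AddMonoidHom.add_apply, hx γ hγ, hy γ hγ, add_zero]
  neg_mem' := by
    intro x hx γ hγ
    rw [AddMonoidHom.neg_apply, hx γ hγ, neg_zero]

theorem lrpd_ad_mem_PE {ι : Γ →* SL(2, ℤ)} {F : Type*} [AddCommGroup F] {x : Additive Γ →+ F} :
    x ∈ lrpd_ad_PE ι F ↔ ∀ γ : Γ, lrpd_ad_IsParEll ι γ → x (Additive.ofMul γ) = 0 := Iff.rfl

/-- admissible pairs: `ι` injective, range of finite index containing `-1` -/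
structure lrpd_ad_Adm (ι : Γ →* SL(2, ℤ)) : Prop where
  inj : Function.Injective ι
  fin : ι.range.FiniteIndex
  neg : (-1 : SL(2, ℤ)) ∈ ι.range

/-- positivity of a (trace `2`) matrix: `0 < b - c` -/
def lrpd_ad_Pos (g : SL(2, ℤ)) : Prop := 0 < g 0 1 - g 1 0

/-- pull-back of a `PE`-character along a trace-preserving homomorphism is `PE` -/
theorem lrpd_ad_pull_mem {Γ' : Type*} [Group Γ'] {ι : Γ →* SL(2, ℤ)} {ι' : Γ' →* SL(2, ℤ)}
    (θ : Γ' →* Γ)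
    (htr : ∀ g, ((ι (θ g) : SL(2, ℤ)) : Matrix (Fin 2) (Fin 2) ℤ).trace =
      ((ι' g : SL(2, ℤ)) : Matrix (Fin 2) (Fin 2) ℤ).trace)
    {F : Type*} [AddCommGroup F] {x : Additive Γ →+ F} (hx : x ∈ lrpd_ad_PE ι F) :
    lrm_pull θ x ∈ lrpd_ad_PE ι' F := by
  intro γ hγ
  refine hx (θ γ) ?_
  unfold lrpd_ad_IsParEll at hγ ⊢
  rw [htr]
  exact hγ

/-- stabilisers of a right action on a finite set have finite index -/
theorem lrpd_ad_stab_finiteIndex {X : Type*} [Finite X] (D : lrt_Data Γ X) (x₀ : X) :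
    (lrt_stab D x₀).FiniteIndex := by
  have hinj : Function.Injective (fun c : Γ ⧸ lrt_stab D x₀ =>
      Quotient.liftOn' c (fun g => D.act g⁻¹ x₀) (by
        intro a b hab
        have h : a⁻¹ * b ∈ lrt_stab D x₀ := QuotientGroup.leftRel_apply.mp hab
        have h1 : D.act (a⁻¹ * b) x₀ = x₀ := h
        show D.act a⁻¹ x₀ = D.act b⁻¹ x₀
        rw [D.act_mul] at h1
        have h2 := congrArg (D.act b⁻¹) h1
        rw [lrt_act_inv] at h2
        exact h2)) := by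
    intro c c'
    induction c using Quotient.inductionOn' with
    | h a =>
      induction c' using Quotient.inductionOn' with
      | h b =>
        intro h
        have h0 : D.act a⁻¹ x₀ = D.act b⁻¹ x₀ := h
        apply Quotient.sound'
        rw [QuotientGroup.leftRel_apply]
        show D.act (a⁻¹ * b) x₀ = x₀
        rw [D.act_mul, h0, lrt_act_inv']
  have : Finite (Γ ⧸ lrt_stab D x₀) := Finite.of_injective _ hinj
  exact Subgroup.finiteIndex_of_finite_quotient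

/-- the stabiliser pair is admissible as soon as some preimage of `-1` fixes the base point -/
theorem lrpd_ad_Adm_stab {X : Type*} [Finite X] {ι : Γ →* SL(2, ℤ)} (hι : lrpd_ad_Adm ι)
    (D : lrt_Data Γ X) (x₀ : X) (hneg : ∀ g : Γ, ι g = -1 → D.act g x₀ = x₀) :
    lrpd_ad_Adm (ι.comp (lrt_stab D x₀).subtype) := by
  refine ⟨hι.inj.comp Subtype.val_injective, ?_, ?_⟩
  · have h1 : (ι.comp (lrt_stab D x₀).subtype).range = (lrt_stab D x₀).map ι := by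
      rw [MonoidHom.range_comp, Subgroup.range_subtype]
    have := lrpd_ad_stab_finiteIndex D x₀
    have := hι.fin
    rw [h1]
    constructor
    rw [Subgroup.index_map_of_injective _ hι.inj]
    exact mul_ne_zero Subgroup.FiniteIndex.index_ne_zero Subgroup.FiniteIndex.index_ne_zero
  · obtain ⟨g, hg⟩ := hι.neg
    exact ⟨⟨g, hneg g hg⟩, hg⟩

end pairs

/-! ### The package of general statements -/

/-- a family of forms, one for every pair -/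
abbrev lrpd_ad_Form (F : Type) [AddCommGroup F] : Type 1 :=
  ∀ (Γ : Type) [Group Γ], (Γ →* SL(2, ℤ)) → (Additive Γ →+ F) → (Additive Γ →+ F) → F

/-- what node [PD] proves about the family of forms -/
structure lrpd_ad_Theory (F : Type) [AddCommGroup F] (Om : lrpd_ad_Form F) : Prop where
  add_left : ∀ (Γ : Type) [Group Γ] (ι : Γ →* SL(2, ℤ)), lrpd_ad_Adm ι →
    ∀ x x' y : Additive Γ →+ F, x ∈ lrpd_ad_PE ι F → x' ∈ lrpd_ad_PE ι F → y ∈ lrpd_ad_PE ι F →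
      Om Γ ι (x + x') y = Om Γ ι x y + Om Γ ι x' y
  skew : ∀ (Γ : Type) [Group Γ] (ι : Γ →* SL(2, ℤ)), lrpd_ad_Adm ι →
    ∀ x y : Additive Γ →+ F, x ∈ lrpd_ad_PE ι F → y ∈ lrpd_ad_PE ι F →
      Om Γ ι x y = - Om Γ ι y x
  nondeg : ∀ (Γ : Type) [Group Γ] (ι : Γ →* SL(2, ℤ)), lrpd_ad_Adm ι →
    ∀ x : Additive Γ →+ F, x ∈ lrpd_ad_PE ι F →
      (∀ y : Additive Γ →+ F, y ∈ lrpd_ad_PE ι F → Om Γ ι x y = 0) → x = 0
  transport : ∀ (Γ₁ Γ₂ : Type) [Group Γ₁] [Group Γ₂] (ι₁ : Γ₁ →* SL(2, ℤ)) (ι₂ : Γ₂ →* SL(2, ℤ))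
    (θ : Γ₁ ≃* Γ₂), lrpd_ad_Adm ι₁ → lrpd_ad_Adm ι₂ →
    (∀ g, ((ι₂ (θ g) : SL(2, ℤ)) : Matrix (Fin 2) (Fin 2) ℤ).trace =
      ((ι₁ g : SL(2, ℤ)) : Matrix (Fin 2) (Fin 2) ℤ).trace) →
    (∀ g, ((ι₁ g : SL(2, ℤ)) : Matrix (Fin 2) (Fin 2) ℤ).trace = 2 →
      (lrpd_ad_Pos (ι₁ g) ↔ lrpd_ad_Pos (ι₂ (θ g)))) →
    ∀ x y : Additive Γ₂ →+ F, x ∈ lrpd_ad_PE ι₂ F → y ∈ lrpd_ad_PE ι₂ F →
      Om Γ₁ ι₁ (lrm_pull θ.toMonoidHom x) (lrm_pull θ.toMonoidHom y) = Om Γ₂ ι₂ x y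
  adj : ∀ (Γ X : Type) [Group Γ] [Fintype X] (ι : Γ →* SL(2, ℤ)) (D : lrt_Data Γ X) (x₀ : X)
    (r : X → Γ) (hr : ∀ x, D.act (r x) x₀ = x),
    lrpd_ad_Adm ι → lrpd_ad_Adm (ι.comp (lrt_stab D x₀).subtype) →
    ∀ (x : Additive Γ →+ F) (z : Additive (lrt_stab D x₀) →+ F), x ∈ lrpd_ad_PE ι F →
      z ∈ lrpd_ad_PE (ι.comp (lrt_stab D x₀).subtype) F →
      Om (lrt_stab D x₀) (ι.comp (lrt_stab D x₀).subtype) (lrm_pull (lrt_stab D x₀).subtype x) z =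
        Om Γ ι x (lrt_cor D x₀ r hr z)

/-! ### The pairs `Γ₀(M)` -/

theorem lrpd_ad_PE_Gamma0 (M : ℕ) (F : Type*) [AddCommGroup F] :
    lrpd_ad_PE (Gamma0 M).subtype F = gh_parEllHoms M F := rfl

theorem lrpd_ad_Adm_Gamma0 (M : ℕ) [NeZero M] : lrpd_ad_Adm (Gamma0 M).subtype := by
  refine ⟨Subtype.val_injective, ?_, ?_⟩
  · rw [Subgroup.range_subtype]
    infer_instance
  · rw [Subgroup.range_subtype, Gamma0_mem]
    simp

variable {N : ℕ} {q : ℕ} [Fact q.Prime]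

/-! ### The two isomorphisms `Stab(∞) ≃ Γ₀(Nq)`, `Stab(0) ≃ Γ₀(Nq)` -/

/-- `Stab(∞) ≃* Γ₀(Nq)` (the identity on matrices) -/
def lrpd_ad_equivInf (hqN : ¬ q ∣ N) : lrt_stab (lrm_data hqN) ∞ ≃* Gamma0 (N * q) where
  toFun := lrm_gamInf hqN
  invFun := lrm_toStabInf hqN
  left_inv _ := Subtype.ext (Subtype.ext rfl)
  right_inv _ := Subtype.ext rfl
  map_mul' := map_mul _

theorem lrpd_ad_equivInf_toMonoidHom (hqN : ¬ q ∣ N) :
    (lrpd_ad_equivInf hqN).toMonoidHom = lrm_gamInf hqN := rfl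

theorem lrpd_ad_beta_mem_stabZero (hqN : ¬ q ∣ N) (g : Gamma0 (N * q)) :
    lrm_beta hqN g ∈ lrt_stab (lrm_data hqN) ((0 : ZMod q) : OnePoint (ZMod q)) := by
  show t2c_act ((lrm_beta hqN g : Gamma0 N) : SL(2, ℤ)) ((0 : ZMod q) : OnePoint (ZMod q)) = _
  rw [lrm_act_zero, (lrm_beta_entries hqN g).2.1]
  exact dvd_mul_right _ _

/-- `Γ₀(Nq) → Stab(0)`, `[[a, b], [c, d]] ↦ [[a, q b], [c / q, d]]` -/
def lrpd_ad_toStabZero (hqN : ¬ q ∣ N) :
    Gamma0 (N * q) →* lrt_stab (lrm_data hqN) ((0 : ZMod q) : OnePoint (ZMod q)) :=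
  (lrm_beta hqN).codRestrict _ (lrpd_ad_beta_mem_stabZero hqN)

theorem lrpd_ad_gamZero_toStabZero (hqN : ¬ q ∣ N) (g : Gamma0 (N * q)) :
    lrm_gamZero hqN (lrpd_ad_toStabZero hqN g) = g := by
  have hq : (q : ℤ) ≠ 0 := by exact_mod_cast (Fact.out : q.Prime).ne_zero
  obtain ⟨a1, a2, a3, a4⟩ := lrm_gamZero_entries hqN (lrpd_ad_toStabZero hqN g)
  obtain ⟨b1, b2, b3, b4⟩ := lrm_beta_entries hqN g
  have e : ((lrpd_ad_toStabZero hqN g : lrt_stab (lrm_data hqN) _) : Gamma0 N) = lrm_beta hqN g := rfl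
  rw [e] at a1 a2 a3 a4
  apply Subtype.ext
  apply Subtype.ext
  ext i j
  fin_cases i <;> fin_cases j
  · exact a1.trans b1
  · exact mul_left_cancel₀ hq (a2.trans b2)
  · show ((lrm_gamZero hqN (lrpd_ad_toStabZero hqN g) : Gamma0 (N * q)) : SL(2, ℤ)) 1 0 =
      (g : SL(2, ℤ)) 1 0
    rw [a3, b3]
  · exact a4.trans b4

/-- `Stab(0) ≃* Γ₀(Nq)`, `[[a, b], [c, d]] ↦ [[a, b / q], [q c, d]]` (`= Ad diag(1, q)`) -/
def lrpd_ad_equivZero (hqN : ¬ q ∣ N) :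
    lrt_stab (lrm_data hqN) ((0 : ZMod q) : OnePoint (ZMod q)) ≃* Gamma0 (N * q) where
  toFun := lrm_gamZero hqN
  invFun := lrpd_ad_toStabZero hqN
  left_inv g := Subtype.ext (lrm_beta_gamZero hqN g)
  right_inv g := lrpd_ad_gamZero_toStabZero hqN g
  map_mul' := map_mul _

theorem lrpd_ad_equivZero_toMonoidHom (hqN : ¬ q ∣ N) :
    (lrpd_ad_equivZero hqN).toMonoidHom = lrm_gamZero hqN := rfl

/-! ### Positivity under `Ad diag(1, q)` -/

/-- for `u v ≥ 0`, `q > 0`: `0 < q u + v ↔ 0 < u + q v` -/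
theorem lrpd_ad_pos_aux (q u v : ℤ) (hq : 0 < q) (huv : 0 ≤ u * v) :
    0 < q * u + v ↔ 0 < u + q * v := by
  rcases mul_nonneg_iff.mp huv with ⟨hu, hv⟩ | ⟨hu, hv⟩
  · have h1 : 0 ≤ q * u := mul_nonneg hq.le hu
    have h2 : 0 ≤ q * v := mul_nonneg hq.le hv
    constructor
    · intro h
      by_contra hcon
      have hu0 : u = 0 := by linarith
      have hv0 : q * v = 0 := by linarith
      rcases mul_eq_zero.mp hv0 with h3 | h3
      · exact hq.ne' h3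
      · rw [hu0, h3] at h
        simp at h
    · intro h
      by_contra hcon
      have hv0 : v = 0 := by linarith
      have hu0 : q * u = 0 := by linarith
      rcases mul_eq_zero.mp hu0 with h3 | h3
      · exact hq.ne' h3
      · rw [hv0, h3] at h
        simp at h
  · have h1 : q * u ≤ 0 := mul_nonpos_of_nonneg_of_nonpos hq.le hu
    have h2 : q * v ≤ 0 := mul_nonpos_of_nonneg_of_nonpos hq.le hv
    constructor
    · intro h
      linarith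
    · intro h
      linarith

/-- a trace-`2` matrix of determinant `1` has `b c ≤ 0` -/
theorem lrpd_ad_bc_nonpos (g : SL(2, ℤ)) (htr : g 0 0 + g 1 1 = 2) : g 0 1 * g 1 0 ≤ 0 := by
  have hdet : g 0 0 * g 1 1 - g 0 1 * g 1 0 = 1 := by
    have := g.det_coe
    rwa [Matrix.det_fin_two] at this
  have hd : g 1 1 = 2 - g 0 0 := by linarith
  rw [hd] at hdet
  nlinarith [sq_nonneg (g 0 0 - 1)]

/-- positivity is preserved by `[[a, b], [c, d]] ↦ [[a, b / q], [q c, d]]` on trace-`2` matrices -/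
theorem lrpd_ad_pos_scale (g g' : SL(2, ℤ)) (k : ℤ) (hk : 0 < k) (htr : g 0 0 + g 1 1 = 2)
    (h01 : k * g' 0 1 = g 0 1) (h10 : g' 1 0 = k * g 1 0) :
    lrpd_ad_Pos g ↔ lrpd_ad_Pos g' := by
  unfold lrpd_ad_Pos
  have hbc := lrpd_ad_bc_nonpos g htr
  rw [← h01] at hbc
  have huv : 0 ≤ g' 0 1 * (- g 1 0) := by
    have : k * (g' 0 1 * g 1 0) ≤ 0 := by linarith [mul_assoc k (g' 0 1) (g 1 0)]
    have h2 : g' 0 1 * g 1 0 ≤ 0 := by
      by_contra hcon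
      rw [not_le] at hcon
      have := mul_pos hk hcon
      linarith
    linarith
  have := lrpd_ad_pos_aux k (g' 0 1) (- g 1 0) hk huv
  rw [← h01, h10]
  constructor
  · intro h
    have h1 : 0 < k * g' 0 1 + - g 1 0 := by linarith
    have h2 := this.mp h1
    linarith
  · intro h
    have h1 : 0 < g' 0 1 + k * - g 1 0 := by linarith
    have h2 := this.mpr h1
    linarith


/-! ### Admissibility of the two stabilisers -/

theorem lrpd_ad_Adm_stabInf [NeZero N] (hqN : ¬ q ∣ N) :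
    lrpd_ad_Adm ((Gamma0 N).subtype.comp (lrt_stab (lrm_data hqN) ∞).subtype) := by
  refine lrpd_ad_Adm_stab (lrpd_ad_Adm_Gamma0 N) (lrm_data hqN) ∞ ?_
  intro g hg
  show t2c_act ((g : Gamma0 N) : SL(2, ℤ)) (∞ : OnePoint (ZMod q)) = ∞
  have hg' : ((g : Gamma0 N) : SL(2, ℤ)) = -1 := hg
  rw [lrm_act_infty, hg']
  simp

theorem lrpd_ad_Adm_stabZero [NeZero N] (hqN : ¬ q ∣ N) :
    lrpd_ad_Adm ((Gamma0 N).subtype.comp
      (lrt_stab (lrm_data hqN) ((0 : ZMod q) : OnePoint (ZMod q))).subtype) := by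
  refine lrpd_ad_Adm_stab (lrpd_ad_Adm_Gamma0 N) (lrm_data hqN) _ ?_
  intro g hg
  show t2c_act ((g : Gamma0 N) : SL(2, ℤ)) ((0 : ZMod q) : OnePoint (ZMod q)) = _
  have hg' : ((g : Gamma0 N) : SL(2, ℤ)) = -1 := hg
  rw [lrm_act_zero, hg']
  simp

/-! ### Adjointness for `A` and `B` from the general statements -/

section adjoint

variable {F : Type} [AddCommGroup F] {Om : lrpd_ad_Form F} (hOm : lrpd_ad_Theory F Om)
include hOm

/-- **ADJ-A** : `Om_{Nq}(A^* x, z) = Om_N(x, A_* z)` -/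
theorem lrpd_ad_adjA [NeZero N] (hqN : ¬ q ∣ N) (x : Additive (Gamma0 N) →+ F)
    (z : Additive (Gamma0 (N * q)) →+ F) (hx : x ∈ gh_parEllHoms N F)
    (hz : z ∈ gh_parEllHoms (N * q) F) :
    Om (Gamma0 (N * q)) (Gamma0 (N * q)).subtype (lrm_resA N q x) z =
      Om (Gamma0 N) (Gamma0 N).subtype x (lrm_corA hqN z) := by
  have hq0 : q ≠ 0 := (Fact.out : q.Prime).ne_zero
  have : NeZero (N * q) := ⟨mul_ne_zero (NeZero.ne N) hq0⟩
  have hAS := lrpd_ad_Adm_stabInf (N := N) hqN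
  have htr : ∀ g : lrt_stab (lrm_data hqN) ∞,
      ((((Gamma0 (N * q)).subtype ((lrpd_ad_equivInf hqN) g)) : SL(2, ℤ)) :
        Matrix (Fin 2) (Fin 2) ℤ).trace =
      (((((Gamma0 N).subtype.comp (lrt_stab (lrm_data hqN) ∞).subtype) g) : SL(2, ℤ)) :
        Matrix (Fin 2) (Fin 2) ℤ).trace := fun g => rfl
  have hz' : lrm_pull (lrm_gamInf hqN) z ∈
      lrpd_ad_PE ((Gamma0 N).subtype.comp (lrt_stab (lrm_data hqN) ∞).subtype) F :=
    lrpd_ad_pull_mem (ι := (Gamma0 (N * q)).subtype) (lrm_gamInf hqN) htr hz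
  have h1 := hOm.adj (Gamma0 N) (OnePoint (ZMod q)) (Gamma0 N).subtype (lrm_data hqN) ∞
    (lrm_rInf hqN) (lrm_rInf_spec hqN) (lrpd_ad_Adm_Gamma0 N) hAS x
    (lrm_pull (lrm_gamInf hqN) z) hx hz'
  have h2 := hOm.transport _ _ ((Gamma0 N).subtype.comp (lrt_stab (lrm_data hqN) ∞).subtype)
    (Gamma0 (N * q)).subtype (lrpd_ad_equivInf hqN) hAS (lrpd_ad_Adm_Gamma0 (N * q)) htr
    (fun g _ => Iff.rfl) (lrm_resA N q x) z (lrh_resA_mem hx) hz
  rw [← h2]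
  exact h1

/-- **ADJ-B** : `Om_{Nq}(B^* x, z) = Om_N(x, B_* z)` -/
theorem lrpd_ad_adjB [NeZero N] (hqN : ¬ q ∣ N) (x : Additive (Gamma0 N) →+ F)
    (z : Additive (Gamma0 (N * q)) →+ F) (hx : x ∈ gh_parEllHoms N F)
    (hz : z ∈ gh_parEllHoms (N * q) F) :
    Om (Gamma0 (N * q)) (Gamma0 (N * q)).subtype (lrm_resB hqN x) z =
      Om (Gamma0 N) (Gamma0 N).subtype x (lrm_corB hqN z) := by
  have hq0 : q ≠ 0 := (Fact.out : q.Prime).ne_zero
  have hqpos : (0 : ℤ) < q := by exact_mod_cast (Fact.out : q.Prime).pos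
  have : NeZero (N * q) := ⟨mul_ne_zero (NeZero.ne N) hq0⟩
  have hAS := lrpd_ad_Adm_stabZero (N := N) hqN
  have htr : ∀ g : lrt_stab (lrm_data hqN) ((0 : ZMod q) : OnePoint (ZMod q)),
      ((((Gamma0 (N * q)).subtype ((lrpd_ad_equivZero hqN) g)) : SL(2, ℤ)) :
        Matrix (Fin 2) (Fin 2) ℤ).trace =
      (((((Gamma0 N).subtype.comp
        (lrt_stab (lrm_data hqN) ((0 : ZMod q) : OnePoint (ZMod q))).subtype) g) : SL(2, ℤ)) :
        Matrix (Fin 2) (Fin 2) ℤ).trace := fun g => lrh_trace_gamZero hqN g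
  have hpos : ∀ g : lrt_stab (lrm_data hqN) ((0 : ZMod q) : OnePoint (ZMod q)),
      (((((Gamma0 N).subtype.comp
        (lrt_stab (lrm_data hqN) ((0 : ZMod q) : OnePoint (ZMod q))).subtype) g) : SL(2, ℤ)) :
        Matrix (Fin 2) (Fin 2) ℤ).trace = 2 →
      (lrpd_ad_Pos (((Gamma0 N).subtype.comp
        (lrt_stab (lrm_data hqN) ((0 : ZMod q) : OnePoint (ZMod q))).subtype) g) ↔
       lrpd_ad_Pos ((Gamma0 (N * q)).subtype ((lrpd_ad_equivZero hqN) g))) := by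
    intro g hg
    obtain ⟨-, b2, b3, -⟩ := lrm_gamZero_entries hqN g
    rw [Matrix.trace_fin_two] at hg
    exact lrpd_ad_pos_scale _ _ (q : ℤ) hqpos hg b2 b3
  have hz' : lrm_pull (lrm_gamZero hqN) z ∈
      lrpd_ad_PE ((Gamma0 N).subtype.comp
        (lrt_stab (lrm_data hqN) ((0 : ZMod q) : OnePoint (ZMod q))).subtype) F :=
    lrpd_ad_pull_mem (ι := (Gamma0 (N * q)).subtype) (lrm_gamZero hqN) htr hz
  have h1 := hOm.adj (Gamma0 N) (OnePoint (ZMod q)) (Gamma0 N).subtype (lrm_data hqN)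
    ((0 : ZMod q) : OnePoint (ZMod q))
    (lrm_rZero hqN) (lrm_rZero_spec hqN) (lrpd_ad_Adm_Gamma0 N) hAS x
    (lrm_pull (lrm_gamZero hqN) z) hx hz'
  have h2 := hOm.transport _ _ ((Gamma0 N).subtype.comp
      (lrt_stab (lrm_data hqN) ((0 : ZMod q) : OnePoint (ZMod q))).subtype)
    (Gamma0 (N * q)).subtype (lrpd_ad_equivZero hqN) hAS (lrpd_ad_Adm_Gamma0 (N * q)) htr
    hpos (lrm_resB hqN x) z (lrh_resB_mem hqN hx) hz
  have h3 : lrm_pull (lrpd_ad_equivZero hqN).toMonoidHom (lrm_resB hqN x) =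
      lrm_pull (lrt_stab (lrm_data hqN) ((0 : ZMod q) : OnePoint (ZMod q))).subtype x := by
    refine lrt_ext fun g => ?_
    show lrt_ev x (lrm_beta hqN (lrm_gamZero hqN g)) = lrt_ev x (g : Gamma0 N)
    rw [lrm_beta_gamZero]
  rw [← h2, h3]
  exact h1

end adjoint

/-! ### The form on `Hom(gh_H M, ZMod p)` -/

/-- `Γ₀(0) = ±⟨T⟩` consists of parabolic elements: `gh_H 0` has no nonzero characters -/
theorem lrpd_ad_parEll_zero (γ : Gamma0 0) : gh_IsParEll 0 γ := by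
  unfold gh_IsParEll
  have h10 : (γ : SL(2, ℤ)) 1 0 = 0 := by
    have h := (Gamma0_mem (N := 0)).mp γ.2
    simpa using h
  have hdet : (γ : SL(2, ℤ)) 0 0 * (γ : SL(2, ℤ)) 1 1 -
      (γ : SL(2, ℤ)) 0 1 * (γ : SL(2, ℤ)) 1 0 = 1 := by
    have := (γ : SL(2, ℤ)).det_coe
    rwa [Matrix.det_fin_two] at this
  rw [h10, mul_zero, sub_zero] at hdet
  rw [Matrix.trace_fin_two]
  rcases Int.eq_one_or_neg_one_of_mul_eq_one' hdet with ⟨h1, h2⟩ | ⟨h1, h2⟩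
  · rw [h1, h2]; norm_num
  · rw [h1, h2]; norm_num

theorem lrpd_ad_hom_zero {A : Type*} [AddCommGroup A] (ψ : gh_H 0 →+ A) : ψ = 0 := by
  refine gh_hom_ext fun x => ?_
  obtain ⟨γ, rfl⟩ := Additive.ofMul.surjective x
  rw [gh_mk_parEll 0 γ (lrpd_ad_parEll_zero γ), map_zero, map_zero]

section final

variable {p : ℕ} {Om : lrpd_ad_Form (ZMod p)}

/-- the form on `Hom(gh_H M, ZMod p)`, as a function -/
def lrpd_ad_omFun (Om : lrpd_ad_Form (ZMod p)) (M : ℕ) (ψ φ : gh_H M →+ ZMod p) : ZMod p :=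
  Om (Gamma0 M) (Gamma0 M).subtype (ψ.comp (gh_mk M)) (φ.comp (gh_mk M))

theorem lrpd_ad_comp_mk_mem {M : ℕ} {A : Type*} [AddCommGroup A] (ψ : gh_H M →+ A) :
    ψ.comp (gh_mk M) ∈ gh_parEllHoms M A := gh_comp_mk_parEll ψ

variable (hOm : lrpd_ad_Theory (ZMod p) Om)
include hOm

theorem lrpd_ad_omFun_add_left (M : ℕ) [NeZero M] (ψ ψ' φ : gh_H M →+ ZMod p) :
    lrpd_ad_omFun Om M (ψ + ψ') φ = lrpd_ad_omFun Om M ψ φ + lrpd_ad_omFun Om M ψ' φ := by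
  unfold lrpd_ad_omFun
  rw [AddMonoidHom.add_comp]
  exact hOm.add_left _ _ (lrpd_ad_Adm_Gamma0 M) _ _ _ (lrpd_ad_comp_mk_mem ψ)
    (lrpd_ad_comp_mk_mem ψ') (lrpd_ad_comp_mk_mem φ)

theorem lrpd_ad_omFun_skew (M : ℕ) [NeZero M] (ψ φ : gh_H M →+ ZMod p) :
    lrpd_ad_omFun Om M ψ φ = - lrpd_ad_omFun Om M φ ψ := by
  unfold lrpd_ad_omFun
  exact hOm.skew _ _ (lrpd_ad_Adm_Gamma0 M) _ _ (lrpd_ad_comp_mk_mem ψ) (lrpd_ad_comp_mk_mem φ)

theorem lrpd_ad_omFun_add_right (M : ℕ) [NeZero M] (ψ φ φ' : gh_H M →+ ZMod p) :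
    lrpd_ad_omFun Om M ψ (φ + φ') = lrpd_ad_omFun Om M ψ φ + lrpd_ad_omFun Om M ψ φ' := by
  rw [lrpd_ad_omFun_skew hOm M ψ (φ + φ'), lrpd_ad_omFun_add_left hOm M φ φ' ψ,
    lrpd_ad_omFun_skew hOm M ψ φ, lrpd_ad_omFun_skew hOm M ψ φ', neg_add]

theorem lrpd_ad_omFun_smul_left (M : ℕ) [NeZero M] (c : ZMod p) (ψ φ : gh_H M →+ ZMod p) :
    lrpd_ad_omFun Om M (c • ψ) φ = c • lrpd_ad_omFun Om M ψ φ :=
  ZMod.map_smul (AddMonoidHom.mk' (fun ψ => lrpd_ad_omFun Om M ψ φ)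
    (fun a b => lrpd_ad_omFun_add_left hOm M a b φ)) c ψ

theorem lrpd_ad_omFun_smul_right (M : ℕ) [NeZero M] (c : ZMod p) (ψ φ : gh_H M →+ ZMod p) :
    lrpd_ad_omFun Om M ψ (c • φ) = c • lrpd_ad_omFun Om M ψ φ :=
  ZMod.map_smul (AddMonoidHom.mk' (fun φ => lrpd_ad_omFun Om M ψ φ)
    (fun a b => lrpd_ad_omFun_add_right hOm M ψ a b)) c φ

/-- **the form** `Ω_M` on `Hom(gh_H M, ZMod p)`, bilinear over `ZMod p` (zero for `M = 0`, where
`gh_H 0` has no nonzero characters) -/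
def lrpd_ad_Om (M : ℕ) :
    (gh_H M →+ ZMod p) →ₗ[ZMod p] (gh_H M →+ ZMod p) →ₗ[ZMod p] ZMod p :=
  if h : M = 0 then 0 else
    haveI : NeZero M := ⟨h⟩
    LinearMap.mk₂ (ZMod p) (lrpd_ad_omFun Om M) (lrpd_ad_omFun_add_left hOm M)
      (lrpd_ad_omFun_smul_left hOm M) (lrpd_ad_omFun_add_right hOm M)
      (lrpd_ad_omFun_smul_right hOm M)

theorem lrpd_ad_Om_apply (M : ℕ) [hM : NeZero M] (ψ φ : gh_H M →+ ZMod p) :
    lrpd_ad_Om hOm M ψ φ = lrpd_ad_omFun Om M ψ φ := by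
  unfold lrpd_ad_Om
  rw [dif_neg hM.ne]
  rfl

/-- **(b) skew-symmetry** -/
theorem lrpd_ad_Om_skew (M : ℕ) (ψ φ : gh_H M →+ ZMod p) :
    lrpd_ad_Om hOm M ψ φ = - lrpd_ad_Om hOm M φ ψ := by
  by_cases h : M = 0
  · subst h
    rw [lrpd_ad_hom_zero ψ]
    simp
  · have : NeZero M := ⟨h⟩
    rw [lrpd_ad_Om_apply, lrpd_ad_Om_apply]
    exact lrpd_ad_omFun_skew hOm M ψ φ

/-- **(a) left nondegeneracy** -/
theorem lrpd_ad_Om_nondeg (M : ℕ) (ψ : gh_H M →+ ZMod p)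
    (h : ∀ φ : gh_H M →+ ZMod p, lrpd_ad_Om hOm M ψ φ = 0) : ψ = 0 := by
  by_cases hM : M = 0
  · subst hM
    exact lrpd_ad_hom_zero ψ
  · have : NeZero M := ⟨hM⟩
    have h1 : ψ.comp (gh_mk M) = 0 := by
      refine hOm.nondeg _ _ (lrpd_ad_Adm_Gamma0 M) _ (lrpd_ad_comp_mk_mem ψ) ?_
      intro y hy
      have h2 := h (gh_lift y hy)
      rw [lrpd_ad_Om_apply] at h2
      have h3 : (gh_lift y hy).comp (gh_mk M) = y := by
        refine AddMonoidHom.ext fun x => ?_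
        exact gh_lift_mk y hy x
      unfold lrpd_ad_omFun at h2
      rw [h3] at h2
      exact h2
    refine gh_hom_ext fun x => ?_
    have := DFunLike.congr_fun h1 x
    simpa using this

/-- **(c) ADJ-A** in the shape consumed by [TOP] -/
theorem lrpd_ad_Om_adj_A (M r : ℕ) [Fact r.Prime] (hrM : ¬ r ∣ M) (ψ : gh_H M →+ ZMod p)
    (z : gh_H (M * r) →+ ZMod p) :
    lrpd_ad_Om hOm (M * r) (ψ.comp (lrh_A M r)) z = lrpd_ad_Om hOm M ψ (z.comp (lrh_At hrM)) := by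
  have hM : M ≠ 0 := fun h => hrM (h ▸ dvd_zero r)
  have : NeZero M := ⟨hM⟩
  have : NeZero (M * r) := ⟨mul_ne_zero hM (Fact.out : r.Prime).ne_zero⟩
  rw [lrpd_ad_Om_apply, lrpd_ad_Om_apply]
  unfold lrpd_ad_omFun
  rw [lrh_pull_A, lrh_pull_At]
  exact lrpd_ad_adjA hOm hrM _ _ (lrpd_ad_comp_mk_mem ψ) (lrpd_ad_comp_mk_mem z)

/-- **(c) ADJ-B** in the shape consumed by [TOP] -/
theorem lrpd_ad_Om_adj_B (M r : ℕ) [Fact r.Prime] (hrM : ¬ r ∣ M) (ψ : gh_H M →+ ZMod p)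
    (z : gh_H (M * r) →+ ZMod p) :
    lrpd_ad_Om hOm (M * r) (ψ.comp (lrh_B hrM)) z = lrpd_ad_Om hOm M ψ (z.comp (lrh_Bt hrM)) := by
  have hM : M ≠ 0 := fun h => hrM (h ▸ dvd_zero r)
  have : NeZero M := ⟨hM⟩
  have : NeZero (M * r) := ⟨mul_ne_zero hM (Fact.out : r.Prime).ne_zero⟩
  rw [lrpd_ad_Om_apply, lrpd_ad_Om_apply]
  unfold lrpd_ad_omFun
  rw [lrh_pull_B, lrh_pull_Bt]
  exact lrpd_ad_adjB hOm hrM _ _ (lrpd_ad_comp_mk_mem ψ) (lrpd_ad_comp_mk_mem z)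

end final

end Fermat.Agent.LR
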