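/-
LR / cell [PD-CUSP] (helper9), deliverables of finding #2784 (3): the cusps of a finite-index
subgroup `Γ ≤ SL(2,ℤ)` as an intrinsic set.

LEFT cosets `X = SL(2,ℤ) ⧸ Γ`; the `T`-orbits on `X` are in bijection with the `Γ`-conjugacy classes
of primitive positive parabolic elements of `Γ`:
the orbit through `h Γ`, of width `w`, corresponds to `h⁻¹ T ^ w h`.

* `lrpc_IsPPP Γ π` : `π` is a primitive positive parabolic element of `Γ`.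
* `lrpc_IsSys Γ π` : `π : ι → SL(2,ℤ)` is a system of representatives of the `Γ`-classes of those.
* (C1) `lrpc_sum_eq` : sums of class functions over two systems agree.
* (C2) `lrpc_widthAt`, `lrpc_genAt`, `lrpc_rep`, `lrpc_width`, `lrpc_gen`; `lrpc_widthAt_pos`,
  `lrpc_genAt_mem`, `lrpc_conj_mem_iff`; the orbit system is in `CuspSys.lean`.
* (C3) `lrpc_sum_orbits_of_rep`, `lrpc_sum_orbits` : orbit decomposition of a sum over `X`.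
* (C4) `lrpc_transport` : transport of a system along a trace- and positivity-preserving
  isomorphism.
Mathlib only.  Prefix `lrpc_`.
-/
import Mathlib

set_option autoImplicit false

namespace Fermat.Agent.LR

open ModularGroup
open scoped MatrixGroups

/-- `π` is a primitive positive parabolic element of `Γ`. -/
def lrpc_IsPPP (Γ : Subgroup SL(2,ℤ)) (π : SL(2,ℤ)) : Prop :=
  π ∈ Γ ∧ π 0 0 + π 1 1 = 2 ∧ π ≠ 1 ∧ 0 < π 0 1 - π 1 0 ∧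
    ∀ ρ ∈ Γ, ρ 0 0 + ρ 1 1 = 2 → ∀ n : ℕ, ρ ^ n = π → n = 1

/-- `π` is a system of representatives of the `Γ`-conjugacy classes of primitive positive parabolic
elements of `Γ`. -/
structure lrpc_IsSys (Γ : Subgroup SL(2,ℤ)) {ι : Type*} (π : ι → SL(2,ℤ)) : Prop where
  mem : ∀ i, lrpc_IsPPP Γ (π i)
  complete : ∀ ρ, lrpc_IsPPP Γ ρ → ∃ i, ∃ γ ∈ Γ, ρ = γ * π i * γ⁻¹
  irred : ∀ i j, (∃ γ ∈ Γ, π i = γ * π j * γ⁻¹) → i = j

/-! ### (C1) -/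

/-- **(C1)** The sum of a class function over a system does not depend on the system. -/
theorem lrpc_sum_eq {Γ : Subgroup SL(2,ℤ)} {ι ι' : Type*} [Fintype ι] [Fintype ι']
    {π : ι → SL(2,ℤ)} {π' : ι' → SL(2,ℤ)} (hπ : lrpc_IsSys Γ π) (hπ' : lrpc_IsSys Γ π')
    {F : Type*} [AddCommMonoid F] (κ : SL(2,ℤ) → F)
    (hκ : ∀ ρ, lrpc_IsPPP Γ ρ → ∀ γ ∈ Γ, κ (γ * ρ * γ⁻¹) = κ ρ) :
    ∑ i, κ (π i) = ∑ j, κ (π' j) := by
  classical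
  choose e γ hγ he using fun i => hπ'.complete (π i) (hπ.mem i)
  have hinj : Function.Injective e := by
    intro i i' hii
    apply hπ.irred
    refine ⟨γ i * (γ i')⁻¹, Γ.mul_mem (hγ i) (Γ.inv_mem (hγ i')), ?_⟩
    rw [he i, he i', hii]
    group
  have hsurj : Function.Surjective e := by
    intro j
    obtain ⟨i, δ, hδ, hj⟩ := hπ.complete (π' j) (hπ'.mem j)
    refine ⟨i, ?_⟩
    symm
    apply hπ'.irred
    refine ⟨δ * γ i, Γ.mul_mem hδ (hγ i), ?_⟩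
    rw [hj, he i]
    group
  refine Fintype.sum_bijective e ⟨hinj, hsurj⟩ _ _ fun i => ?_
  rw [he i, hκ _ (hπ'.mem (e i)) _ (hγ i)]

/-! ### (C4) -/

/-- **(C4)** Transport of a system along an isomorphism preserving traces and positivity. -/
theorem lrpc_transport {Γ Γ' : Subgroup SL(2,ℤ)} (φ : Γ ≃* Γ')
    (htr : ∀ γ : Γ, (φ γ : SL(2,ℤ)) 0 0 + (φ γ : SL(2,ℤ)) 1 1 = (γ : SL(2,ℤ)) 0 0 + (γ : SL(2,ℤ)) 1 1)
    (hpos : ∀ γ : Γ, (γ : SL(2,ℤ)) 0 0 + (γ : SL(2,ℤ)) 1 1 = 2 →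
      (0 < (φ γ : SL(2,ℤ)) 0 1 - (φ γ : SL(2,ℤ)) 1 0 ↔ 0 < (γ : SL(2,ℤ)) 0 1 - (γ : SL(2,ℤ)) 1 0))
    {ι : Type*} {π : ι → SL(2,ℤ)} (hπ : lrpc_IsSys Γ π) :
    lrpc_IsSys Γ' (fun i => (φ ⟨π i, (hπ.mem i).1⟩ : SL(2,ℤ))) := by
  -- `φ` maps PPP elements to PPP elements, and so does `φ.symm`
  have hfwd : ∀ (ρ : SL(2,ℤ)) (hρ : lrpc_IsPPP Γ ρ), lrpc_IsPPP Γ' (φ ⟨ρ, hρ.1⟩ : SL(2,ℤ)) := by
    intro ρ hρ
    obtain ⟨hmem, htr2, hne, hp, hprim⟩ := hρ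
    refine ⟨(φ ⟨ρ, hmem⟩).2, ?_, ?_, ?_, ?_⟩
    · rw [htr]; exact htr2
    · intro h1
      apply hne
      have : φ ⟨ρ, hmem⟩ = 1 := Subtype.ext h1
      have := (φ.map_eq_one_iff).1 this
      exact congrArg Subtype.val this
    · exact (hpos ⟨ρ, hmem⟩ htr2).2 hp
    · intro σ' hσ' htrσ' n hn
      set σ : Γ := φ.symm ⟨σ', hσ'⟩ with hσ
      have hφσ : φ σ = ⟨σ', hσ'⟩ := by rw [hσ, MulEquiv.apply_symm_apply]
      have htrσ : (σ : SL(2,ℤ)) 0 0 + (σ : SL(2,ℤ)) 1 1 = 2 := by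
        rw [← htr, hφσ]; exact htrσ'
      have hpow : (σ : SL(2,ℤ)) ^ n = ρ := by
        have h1 : φ (σ ^ n) = φ ⟨ρ, hmem⟩ := by
          rw [map_pow, hφσ]
          exact Subtype.ext hn
        have h2 := φ.injective h1
        have := congrArg Subtype.val h2
        simpa using this
      exact hprim σ σ.2 htrσ n hpow
  have hbwd : ∀ (ρ' : SL(2,ℤ)) (hρ' : lrpc_IsPPP Γ' ρ'),
      lrpc_IsPPP Γ (φ.symm ⟨ρ', hρ'.1⟩ : SL(2,ℤ)) := by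
    intro ρ' hρ'
    obtain ⟨hmem, htr2, hne, hp, hprim⟩ := hρ'
    set ρ : Γ := φ.symm ⟨ρ', hmem⟩ with hρ
    have hφρ : φ ρ = ⟨ρ', hmem⟩ := by rw [hρ, MulEquiv.apply_symm_apply]
    have htrρ : (ρ : SL(2,ℤ)) 0 0 + (ρ : SL(2,ℤ)) 1 1 = 2 := by
      rw [← htr, hφρ]; exact htr2
    refine ⟨ρ.2, htrρ, ?_, ?_, ?_⟩
    · intro h1
      apply hne
      have : ρ = 1 := Subtype.ext h1
      have h2 : φ ρ = 1 := by rw [this, map_one]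
      rw [hφρ] at h2
      exact congrArg Subtype.val h2
    · have := (hpos ρ htrρ).1
      rw [hφρ] at this
      exact this hp
    · intro σ hσ htrσ n hn
      apply hprim (φ ⟨σ, hσ⟩ : SL(2,ℤ)) (φ ⟨σ, hσ⟩).2 (by rw [htr]; exact htrσ) n
      have h1 : (⟨σ, hσ⟩ : Γ) ^ n = ρ := Subtype.ext (by simpa using hn)
      have h2 : φ (⟨σ, hσ⟩ ^ n) = ⟨ρ', hmem⟩ := by rw [h1, hφρ]
      rw [map_pow] at h2
      have := congrArg Subtype.val h2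
      simpa using this
  refine ⟨fun i => hfwd _ (hπ.mem i), ?_, ?_⟩
  · intro ρ' hρ'
    obtain ⟨i, γ, hγ, hi⟩ := hπ.complete _ (hbwd ρ' hρ')
    refine ⟨i, (φ ⟨γ, hγ⟩ : SL(2,ℤ)), (φ ⟨γ, hγ⟩).2, ?_⟩
    have h1 : φ.symm ⟨ρ', hρ'.1⟩ = ⟨γ, hγ⟩ * ⟨π i, (hπ.mem i).1⟩ * ⟨γ, hγ⟩⁻¹ :=
      Subtype.ext (by simpa using hi)
    have h2 := congrArg φ h1
    rw [MulEquiv.apply_symm_apply, map_mul, map_mul, map_inv] at h2
    have := congrArg Subtype.val h2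
    simpa using this
  · intro i j ⟨γ', hγ', hij⟩
    apply hπ.irred
    set γ : Γ := φ.symm ⟨γ', hγ'⟩ with hγ
    have hφγ : φ γ = ⟨γ', hγ'⟩ := by rw [hγ, MulEquiv.apply_symm_apply]
    refine ⟨γ, γ.2, ?_⟩
    have h1 : φ ⟨π i, (hπ.mem i).1⟩ = φ (γ * ⟨π j, (hπ.mem j).1⟩ * γ⁻¹) := by
      rw [map_mul, map_mul, map_inv, hφγ]
      exact Subtype.ext (by simpa using hij)
    have h2 := φ.injective h1
    have := congrArg Subtype.val h2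
    simpa using this

/-! ### (C2) widths and generators -/

section Orbits

variable (Γ : Subgroup SL(2,ℤ))

/-- The width of the `T`-orbit through `h Γ`. -/
noncomputable def lrpc_widthAt (h : SL(2,ℤ)) : ℕ :=
  Function.minimalPeriod (T • · : SL(2,ℤ) ⧸ Γ → SL(2,ℤ) ⧸ Γ) (h : SL(2,ℤ) ⧸ Γ)

/-- The generator `h⁻¹ T ^ w h` attached to `h`. -/
noncomputable def lrpc_genAt (h : SL(2,ℤ)) : SL(2,ℤ) := h⁻¹ * T ^ lrpc_widthAt Γ h * h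

theorem lrpc_widthAt_pos [Γ.FiniteIndex] (h : SL(2,ℤ)) : 0 < lrpc_widthAt Γ h := by
  have : Finite (SL(2,ℤ) ⧸ Γ) := Subgroup.finite_quotient_of_finiteIndex
  have : Finite (MulAction.orbit (Subgroup.zpowers (T : SL(2,ℤ))) (h : SL(2,ℤ) ⧸ Γ)) :=
    Finite.of_injective (fun x => (x : SL(2,ℤ) ⧸ Γ)) Subtype.val_injective
  exact Nat.pos_of_ne_zero (MulAction.minimalPeriod_pos (T : SL(2,ℤ)) (h : SL(2,ℤ) ⧸ Γ)).out

/-- `h⁻¹ T ^ n h ∈ Γ` iff the width divides `n`. -/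
theorem lrpc_conj_mem_iff (h : SL(2,ℤ)) (n : ℤ) :
    h⁻¹ * T ^ n * h ∈ Γ ↔ (lrpc_widthAt Γ h : ℤ) ∣ n := by
  rw [lrpc_widthAt, ← MulAction.zpow_smul_eq_iff_minimalPeriod_dvd]
  rw [show (T : SL(2,ℤ)) ^ n • (h : SL(2,ℤ) ⧸ Γ) = ((T ^ n * h : SL(2,ℤ)) : SL(2,ℤ) ⧸ Γ) from rfl,
    eq_comm, QuotientGroup.eq, mul_assoc]

theorem lrpc_genAt_mem (h : SL(2,ℤ)) : lrpc_genAt Γ h ∈ Γ := by
  have := (lrpc_conj_mem_iff Γ h (lrpc_widthAt Γ h : ℤ)).2 dvd_rfl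
  rwa [zpow_natCast] at this

theorem lrpc_widthAt_congr {h h' : SL(2,ℤ)}
    (hh : (h : SL(2,ℤ) ⧸ Γ) = (h' : SL(2,ℤ) ⧸ Γ)) : lrpc_widthAt Γ h = lrpc_widthAt Γ h' := by
  rw [lrpc_widthAt, lrpc_widthAt, hh]

theorem lrpc_widthAt_mul_mem (h : SL(2,ℤ)) {γ : SL(2,ℤ)} (hγ : γ ∈ Γ) :
    lrpc_widthAt Γ (h * γ) = lrpc_widthAt Γ h := by
  apply lrpc_widthAt_congr
  rw [QuotientGroup.eq]
  simpa using Γ.inv_mem hγ

theorem lrpc_conj_zpow_mul (h : SL(2,ℤ)) (j n : ℤ) :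
    (T ^ j * h)⁻¹ * T ^ n * (T ^ j * h) = h⁻¹ * T ^ n * h := by
  have e : (T ^ j)⁻¹ * T ^ n * T ^ j = (T : SL(2,ℤ)) ^ n := by
    rw [← zpow_neg, ← zpow_add, ← zpow_add]
    congr 1
    ring
  calc (T ^ j * h)⁻¹ * T ^ n * (T ^ j * h) = h⁻¹ * ((T ^ j)⁻¹ * T ^ n * T ^ j) * h := by
        simp only [mul_inv_rev, mul_assoc]
    _ = h⁻¹ * T ^ n * h := by rw [e]

theorem lrpc_widthAt_zpow_mul (h : SL(2,ℤ)) (j : ℤ) :
    lrpc_widthAt Γ (T ^ j * h) = lrpc_widthAt Γ h := by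
  apply Nat.dvd_antisymm
  · rw [← Int.natCast_dvd_natCast, ← lrpc_conj_mem_iff, lrpc_conj_zpow_mul]
    exact (lrpc_conj_mem_iff Γ h (lrpc_widthAt Γ h : ℤ)).2 dvd_rfl
  · rw [← Int.natCast_dvd_natCast, ← lrpc_conj_mem_iff, ← lrpc_conj_zpow_mul h j]
    exact (lrpc_conj_mem_iff Γ (T ^ j * h) (lrpc_widthAt Γ (T ^ j * h) : ℤ)).2 dvd_rfl

theorem lrpc_genAt_mul_mem (h : SL(2,ℤ)) {γ : SL(2,ℤ)} (hγ : γ ∈ Γ) :
    lrpc_genAt Γ (h * γ) = γ⁻¹ * lrpc_genAt Γ h * γ := by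
  rw [lrpc_genAt, lrpc_genAt, lrpc_widthAt_mul_mem Γ h hγ]
  group

theorem lrpc_genAt_zpow_mul (h : SL(2,ℤ)) (j : ℤ) :
    lrpc_genAt Γ (T ^ j * h) = lrpc_genAt Γ h := by
  rw [lrpc_genAt, lrpc_genAt, lrpc_widthAt_zpow_mul Γ h j, ← zpow_natCast, lrpc_conj_zpow_mul]

/-- The index set of the orbit system. -/
abbrev lrpc_Orb : Type := MulAction.orbitRel.Quotient (Subgroup.zpowers (T : SL(2,ℤ))) (SL(2,ℤ) ⧸ Γ)

/-- A representative in `SL(2,ℤ)` of a point of the orbit `O`. -/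
noncomputable def lrpc_rep (O : lrpc_Orb Γ) : SL(2,ℤ) := (Quotient.out O).out

theorem lrpc_rep_spec (O : lrpc_Orb Γ) :
    (Quotient.mk'' ((lrpc_rep Γ O : SL(2,ℤ)) : SL(2,ℤ) ⧸ Γ) : lrpc_Orb Γ) = O := by
  rw [lrpc_rep, QuotientGroup.out_eq']
  exact Quotient.out_eq' O

/-- The width of the orbit `O`. -/
noncomputable def lrpc_width (O : lrpc_Orb Γ) : ℕ := lrpc_widthAt Γ (lrpc_rep Γ O)

/-- The generator of the orbit `O`. -/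
noncomputable def lrpc_gen (O : lrpc_Orb Γ) : SL(2,ℤ) := lrpc_genAt Γ (lrpc_rep Γ O)

theorem lrpc_width_pos [Γ.FiniteIndex] (O : lrpc_Orb Γ) : 0 < lrpc_width Γ O :=
  lrpc_widthAt_pos Γ _

theorem lrpc_gen_mem (O : lrpc_Orb Γ) : lrpc_gen Γ O ∈ Γ := lrpc_genAt_mem Γ _

/-- Two elements of `SL(2,ℤ)` define the same orbit iff they differ by a power of `T` on the left
and an element of `Γ` on the right. -/
theorem lrpc_orb_eq_iff (h h' : SL(2,ℤ)) :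
    (Quotient.mk'' (h : SL(2,ℤ) ⧸ Γ) : lrpc_Orb Γ) = Quotient.mk'' (h' : SL(2,ℤ) ⧸ Γ) ↔
      ∃ (j : ℤ) (γ : SL(2,ℤ)), γ ∈ Γ ∧ h = T ^ j * h' * γ := by
  rw [Quotient.eq'']
  change (h : SL(2,ℤ) ⧸ Γ) ∈ MulAction.orbit (Subgroup.zpowers (T : SL(2,ℤ))) (h' : SL(2,ℤ) ⧸ Γ) ↔ _
  constructor
  · rintro ⟨⟨t, j, rfl⟩, ht⟩
    have ht' : ((T ^ j * h' : SL(2,ℤ)) : SL(2,ℤ) ⧸ Γ) = (h : SL(2,ℤ) ⧸ Γ) := ht
    rw [QuotientGroup.eq] at ht'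
    exact ⟨j, _, ht', by group⟩
  · rintro ⟨j, γ, hγ, rfl⟩
    refine ⟨⟨T ^ j, j, rfl⟩, ?_⟩
    change ((T ^ j * h' : SL(2,ℤ)) : SL(2,ℤ) ⧸ Γ) = ((T ^ j * h' * γ : SL(2,ℤ)) : SL(2,ℤ) ⧸ Γ)
    rw [QuotientGroup.eq]
    have e : (T ^ j * h')⁻¹ * (T ^ j * h' * γ) = γ := by group
    rw [e]
    exact hγ

/-! ### (C3) orbit decomposition of sums -/

/-- **(C3)**, for an arbitrary choice of representatives. -/
theorem lrpc_sum_orbits_of_rep [Γ.FiniteIndex] [Fintype (SL(2,ℤ) ⧸ Γ)] [Fintype (lrpc_Orb Γ)]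
    {F : Type*} [AddCommMonoid F] (rep : lrpc_Orb Γ → SL(2,ℤ))
    (hrep : ∀ O, (Quotient.mk'' ((rep O : SL(2,ℤ)) : SL(2,ℤ) ⧸ Γ) : lrpc_Orb Γ) = O)
    (f : SL(2,ℤ) ⧸ Γ → F) :
    ∑ ξ, f ξ = ∑ O, ∑ i ∈ Finset.range (lrpc_widthAt Γ (rep O)),
      f (T ^ i • ((rep O : SL(2,ℤ)) : SL(2,ℤ) ⧸ Γ)) := by
  classical
  rw [← Finset.sum_fiberwise Finset.univ
    (fun ξ : SL(2,ℤ) ⧸ Γ => (Quotient.mk'' ξ : lrpc_Orb Γ)) f]
  refine Finset.sum_congr rfl fun O _ => ?_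
  set x₀ : SL(2,ℤ) ⧸ Γ := ((rep O : SL(2,ℤ)) : SL(2,ℤ) ⧸ Γ) with hx₀
  set w := lrpc_widthAt Γ (rep O) with hw
  have hwpos : 0 < w := lrpc_widthAt_pos Γ _
  have hwdef : w = Function.minimalPeriod (T • · : SL(2,ℤ) ⧸ Γ → SL(2,ℤ) ⧸ Γ) x₀ := rfl
  symm
  refine Finset.sum_nbij (fun i => T ^ i • x₀) ?_ ?_ ?_ (fun _ _ => rfl)
  · intro i _
    rw [Finset.mem_filter]
    refine ⟨Finset.mem_univ _, ?_⟩
    rw [← hrep O]
    apply Quotient.sound'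
    exact ⟨⟨T ^ i, (i : ℤ), by simp⟩, rfl⟩
  · intro i hi j hj hij
    rw [Finset.coe_range, Set.mem_Iio] at hi hj
    have key : ∀ a b : ℕ, a ≤ b → b < w → T ^ a • x₀ = T ^ b • x₀ → a = b := by
      intro a b hab hb h
      have h1 : T ^ (b - a) • x₀ = x₀ := by
        have : T ^ b • x₀ = T ^ a • (T ^ (b - a) • x₀) := by
          rw [← mul_smul, ← pow_add, Nat.add_sub_cancel' hab]
        rw [this] at h
        exact (smul_left_cancel _ h).symm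
      rw [MulAction.pow_smul_eq_iff_minimalPeriod_dvd, ← hwdef] at h1
      have : b - a = 0 := Nat.eq_zero_of_dvd_of_lt h1 (by omega)
      omega
    rcases le_total i j with h | h
    · exact key i j h hj hij
    · exact (key j i h hi hij.symm).symm
  · intro ξ hξ
    rw [Finset.coe_filter] at hξ
    have h1 : (Quotient.mk'' ξ : lrpc_Orb Γ) = Quotient.mk'' x₀ := by
      rw [hξ.2, hx₀, hrep O]
    rw [Quotient.eq''] at h1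
    obtain ⟨⟨t, n, rfl⟩, hn⟩ := h1
    have hn' : T ^ n • x₀ = ξ := hn
    have hmod : T ^ (n % (w : ℤ)) • x₀ = ξ := by
      rw [hwdef, MulAction.zpow_smul_mod_minimalPeriod]
      exact hn'
    have hnn : 0 ≤ n % (w : ℤ) := Int.emod_nonneg _ (by exact_mod_cast hwpos.ne')
    have hlt : n % (w : ℤ) < w := Int.emod_lt_of_pos _ (by exact_mod_cast hwpos)
    refine ⟨(n % (w : ℤ)).toNat, ?_, ?_⟩
    · rw [Finset.coe_range, Set.mem_Iio]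
      omega
    · show T ^ (n % (w : ℤ)).toNat • x₀ = ξ
      rw [← zpow_natCast, Int.toNat_of_nonneg hnn]
      exact hmod

/-- **(C3)** for the chosen representatives `lrpc_rep`. -/
theorem lrpc_sum_orbits [Γ.FiniteIndex] [Fintype (SL(2,ℤ) ⧸ Γ)] [Fintype (lrpc_Orb Γ)]
    {F : Type*} [AddCommMonoid F] (f : SL(2,ℤ) ⧸ Γ → F) :
    ∑ ξ, f ξ = ∑ O, ∑ i ∈ Finset.range (lrpc_width Γ O),
      f (T ^ i • ((lrpc_rep Γ O : SL(2,ℤ)) : SL(2,ℤ) ⧸ Γ)) :=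
  lrpc_sum_orbits_of_rep Γ (lrpc_rep Γ) (lrpc_rep_spec Γ) f

end Orbits

end Fermat.Agent.LR
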