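/-
LR node [PD], cell [PSL2Z-PRES].

`SL(2, ℤ) = C₄ *_{C₂} C₆` (generated by `S` of order 4 and `U = S T` of order 6, amalgamated along
`S² = U³ = -1`), via Mathlib's `Monoid.PushoutI` normal words and a ping-pong on an integer vector
(cones `x y > 0`, `x y < 0`, potential `x² + y²`); and the resulting presentation:
homomorphisms out of `SL(2, ℤ)` can be prescribed on `S`, `S T` subject to `a⁴ = 1`, `b³ = a²`.
Mathlib only.  Prefix `lrpp_`.
-/
import Mathlib

set_option autoImplicit false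

open Matrix.SpecialLinearGroup ModularGroup Monoid
open scoped MatrixGroups

namespace Fermat.Agent.LR

/-! ### The two generators -/

/-- `U = S T = [[0, -1], [1, 1]]`, of order 6 -/
def lrpp_U : SL(2, ℤ) := S * T

theorem lrpp_S_pow_four : S ^ 4 = 1 := by decide

theorem lrpp_U_pow_six : lrpp_U ^ 6 = 1 := by decide

theorem lrpp_U_cube : lrpp_U ^ 3 = S ^ 2 := by decide

theorem lrpp_S_sq : S ^ 2 = -1 := by decide

/-! ### Cyclic groups as `Multiplicative (ZMod n)` -/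

/-- the homomorphism `Multiplicative (ZMod n) → K`, `1 ↦ a`, for `a ^ n = 1` -/
def lrpp_cyc {K : Type*} [Group K] (n : ℕ) (a : K) (ha : a ^ n = 1) :
    Multiplicative (ZMod n) →* K :=
  AddMonoidHom.toMultiplicativeLeft
    (ZMod.lift n ⟨zmultiplesHom (Additive K) (Additive.ofMul a), by
      show (n : ℤ) • Additive.ofMul a = 0
      rw [natCast_zsmul, ← ofMul_pow, ha]
      rfl⟩)

theorem lrpp_cyc_apply {K : Type*} [Group K] (n : ℕ) (a : K) (ha : a ^ n = 1) (j : ℤ) :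
    lrpp_cyc n a ha (Multiplicative.ofAdd (j : ZMod n)) = a ^ j := by
  show Additive.toMul (ZMod.lift n _ (j : ZMod n)) = a ^ j
  rw [ZMod.lift_coe]
  show Additive.toMul (j • Additive.ofMul a) = a ^ j
  rw [← ofMul_zpow]
  rfl

theorem lrpp_cyc_natCast {K : Type*} [Group K] (n : ℕ) (a : K) (ha : a ^ n = 1) (j : ℕ) :
    lrpp_cyc n a ha (Multiplicative.ofAdd ((j : ℕ) : ZMod n)) = a ^ j := by
  have := lrpp_cyc_apply n a ha (j : ℤ)
  rw [Int.cast_natCast, zpow_natCast] at this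
  exact this

theorem lrpp_eq_pow {n : ℕ} [NeZero n] (x : Multiplicative (ZMod n)) :
    x = (Multiplicative.ofAdd (1 : ZMod n)) ^ (Multiplicative.toAdd x).val := by
  rw [← ofAdd_nsmul, nsmul_eq_mul, mul_one, ZMod.natCast_zmod_val]
  rfl

theorem lrpp_hom_ext {K : Type*} [Group K] {n : ℕ} [NeZero n]
    {f g : Multiplicative (ZMod n) →* K}
    (h : f (Multiplicative.ofAdd 1) = g (Multiplicative.ofAdd 1)) : f = g := by
  refine MonoidHom.ext fun x => ?_
  rw [lrpp_eq_pow x, map_pow, map_pow, h]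

theorem lrpp_cyc_one {K : Type*} [Group K] (n : ℕ) (a : K) (ha : a ^ n = 1) :
    lrpp_cyc n a ha (Multiplicative.ofAdd 1) = a := by
  have := lrpp_cyc_natCast n a ha 1
  rwa [Nat.cast_one, pow_one] at this

/-! ### The diagram `C₄ ← C₂ → C₆` -/

/-- the orders of the two factors -/
def lrpp_ord : Fin 2 → ℕ := ![4, 6]

instance lrpp_ord_neZero (i : Fin 2) : NeZero (lrpp_ord i) := by
  fin_cases i
  · exact ⟨by decide⟩
  · exact ⟨by decide⟩

/-- the two factors `C₄`, `C₆` -/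
abbrev lrpp_Fam (i : Fin 2) : Type := Multiplicative (ZMod (lrpp_ord i))

/-- the element of order two of `C₄`, `C₆` -/
def lrpp_half : Fin 2 → ℕ := ![2, 3]

theorem lrpp_half_sq (i : Fin 2) :
    (Multiplicative.ofAdd ((lrpp_half i : ℕ) : ZMod (lrpp_ord i))) ^ 2 = 1 := by
  fin_cases i
  · show (Multiplicative.ofAdd ((2 : ℕ) : ZMod 4)) ^ 2 = 1
    decide
  · show (Multiplicative.ofAdd ((3 : ℕ) : ZMod 6)) ^ 2 = 1
    decide

/-- the diagram -/
def lrpp_phi (i : Fin 2) : Multiplicative (ZMod 2) →* lrpp_Fam i :=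
  lrpp_cyc 2 (Multiplicative.ofAdd ((lrpp_half i : ℕ) : ZMod (lrpp_ord i))) (lrpp_half_sq i)

theorem lrpp_phi_one (i : Fin 2) :
    lrpp_phi i (Multiplicative.ofAdd 1) =
      Multiplicative.ofAdd ((lrpp_half i : ℕ) : ZMod (lrpp_ord i)) :=
  lrpp_cyc_one _ _ _

theorem lrpp_zmod_two (x : Multiplicative (ZMod 2)) :
    x = 1 ∨ x = Multiplicative.ofAdd 1 := by
  revert x
  decide

theorem lrpp_phi_injective (i : Fin 2) : Function.Injective (lrpp_phi i) := by
  rw [injective_iff_map_eq_one]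
  intro x hx
  rcases lrpp_zmod_two x with rfl | rfl
  · rfl
  · exfalso
    rw [lrpp_phi_one] at hx
    revert hx
    fin_cases i
    · show ¬ (Multiplicative.ofAdd ((2 : ℕ) : ZMod 4)) = 1
      decide
    · show ¬ (Multiplicative.ofAdd ((3 : ℕ) : ZMod 6)) = 1
      decide

/-- the range of `lrpp_phi i` is `{0, half}` -/
theorem lrpp_mem_range_phi (i : Fin 2) (x : lrpp_Fam i) :
    x ∈ (lrpp_phi i).range ↔
      x = 1 ∨ x = Multiplicative.ofAdd ((lrpp_half i : ℕ) : ZMod (lrpp_ord i)) := by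
  constructor
  · rintro ⟨y, rfl⟩
    rcases lrpp_zmod_two y with rfl | rfl
    · left; exact map_one _
    · right; exact lrpp_phi_one i
  · rintro (rfl | rfl)
    · exact one_mem _
    · exact ⟨Multiplicative.ofAdd 1, lrpp_phi_one i⟩

/-! ### Compatible pairs and the induced map on the amalgam -/

section
variable {K : Type*} [Group K]

/-- the family of homomorphisms `C₄ → K`, `C₆ → K` attached to `a`, `b` with `a⁴ = 1`, `b³ = a²` -/
def lrpp_fam (a b : K) (ha : a ^ 4 = 1) (hab : b ^ 3 = a ^ 2) (i : Fin 2) : lrpp_Fam i →* K :=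
  lrpp_cyc (lrpp_ord i) (![a, b] i) (by
    fin_cases i
    · exact ha
    · show b ^ 6 = 1
      rw [show 6 = 3 * 2 from rfl, pow_mul, hab, ← pow_mul]
      exact ha)

/-- the homomorphism `C₂ → K` attached to `a` -/
def lrpp_base (a : K) (ha : a ^ 4 = 1) : Multiplicative (ZMod 2) →* K :=
  lrpp_cyc 2 (a ^ 2) (by rw [← pow_mul]; exact ha)

theorem lrpp_fam_comp_phi (a b : K) (ha : a ^ 4 = 1) (hab : b ^ 3 = a ^ 2) (i : Fin 2) :
    (lrpp_fam a b ha hab i).comp (lrpp_phi i) = lrpp_base a ha := by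
  apply lrpp_hom_ext
  rw [MonoidHom.comp_apply, lrpp_phi_one, lrpp_base, lrpp_cyc_one, lrpp_fam, lrpp_cyc_natCast]
  fin_cases i
  · rfl
  · exact hab

/-- the homomorphism `C₄ *_{C₂} C₆ → K` attached to `a`, `b` -/
def lrpp_amalgHom (a b : K) (ha : a ^ 4 = 1) (hab : b ^ 3 = a ^ 2) : PushoutI lrpp_phi →* K :=
  PushoutI.lift (lrpp_fam a b ha hab) (lrpp_base a ha) (lrpp_fam_comp_phi a b ha hab)

theorem lrpp_amalgHom_of_zero (a b : K) (ha : a ^ 4 = 1) (hab : b ^ 3 = a ^ 2) :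
    lrpp_amalgHom a b ha hab (PushoutI.of (φ := lrpp_phi) 0 (Multiplicative.ofAdd 1)) = a := by
  rw [lrpp_amalgHom, PushoutI.lift_of, lrpp_fam, lrpp_cyc_one]
  rfl

theorem lrpp_amalgHom_of_one (a b : K) (ha : a ^ 4 = 1) (hab : b ^ 3 = a ^ 2) :
    lrpp_amalgHom a b ha hab (PushoutI.of (φ := lrpp_phi) 1 (Multiplicative.ofAdd 1)) = b := by
  rw [lrpp_amalgHom, PushoutI.lift_of, lrpp_fam, lrpp_cyc_one]
  rfl

end

/-! ### The canonical map `C₄ *_{C₂} C₆ → SL(2, ℤ)` and the letters of a reduced word -/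

/-- the canonical map from the amalgam to `SL(2, ℤ)` -/
def lrpp_toSL : PushoutI lrpp_phi →* SL(2, ℤ) :=
  lrpp_amalgHom S lrpp_U lrpp_S_pow_four lrpp_U_cube

/-- evaluation of a letter -/
def lrpp_ev (a : Σ i, lrpp_Fam i) : SL(2, ℤ) :=
  lrpp_fam S lrpp_U lrpp_S_pow_four lrpp_U_cube a.1 a.2

theorem lrpp_exists_pow (i : Fin 2) (g : lrpp_Fam i) :
    ∃ v, v < lrpp_ord i ∧ g = (Multiplicative.ofAdd (1 : ZMod (lrpp_ord i))) ^ v :=
  ⟨_, ZMod.val_lt _, lrpp_eq_pow g⟩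

theorem lrpp_letter_zero (g : lrpp_Fam 0) (hg : g ∉ (lrpp_phi 0).range) :
    lrpp_ev ⟨0, g⟩ = S ∨ lrpp_ev ⟨0, g⟩ = S ^ 3 := by
  obtain ⟨v, hv, rfl⟩ := lrpp_exists_pow 0 g
  have hv4 : v < 4 := hv
  have hev : lrpp_ev ⟨0, (Multiplicative.ofAdd (1 : ZMod (lrpp_ord 0))) ^ v⟩ = S ^ v := by
    show lrpp_fam S lrpp_U lrpp_S_pow_four lrpp_U_cube 0 _ = _
    rw [map_pow, lrpp_fam, lrpp_cyc_one]
    rfl
  rw [hev]
  rw [lrpp_mem_range_phi] at hg
  interval_cases v
  · exact absurd (Or.inl (pow_zero _)) hg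
  · left; exact pow_one _
  · refine absurd (Or.inr ?_) hg
    show (Multiplicative.ofAdd (1 : ZMod 4)) ^ 2 = Multiplicative.ofAdd ((2 : ℕ) : ZMod 4)
    decide
  · right; rfl

theorem lrpp_letter_one (g : lrpp_Fam 1) (hg : g ∉ (lrpp_phi 1).range) :
    lrpp_ev ⟨1, g⟩ = lrpp_U ∨ lrpp_ev ⟨1, g⟩ = lrpp_U ^ 2 ∨ lrpp_ev ⟨1, g⟩ = lrpp_U ^ 4 ∨
      lrpp_ev ⟨1, g⟩ = lrpp_U ^ 5 := by
  obtain ⟨v, hv, rfl⟩ := lrpp_exists_pow 1 g
  have hv6 : v < 6 := hv
  have hev : lrpp_ev ⟨1, (Multiplicative.ofAdd (1 : ZMod (lrpp_ord 1))) ^ v⟩ = lrpp_U ^ v := by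
    show lrpp_fam S lrpp_U lrpp_S_pow_four lrpp_U_cube 1 _ = _
    rw [map_pow, lrpp_fam, lrpp_cyc_one]
    rfl
  rw [hev]
  rw [lrpp_mem_range_phi] at hg
  interval_cases v
  · exact absurd (Or.inl (pow_zero _)) hg
  · left; exact pow_one _
  · right; left; rfl
  · refine absurd (Or.inr ?_) hg
    show (Multiplicative.ofAdd (1 : ZMod 6)) ^ 3 = Multiplicative.ofAdd ((3 : ℕ) : ZMod 6)
    decide
  · right; right; left; rfl
  · right; right; right; rfl

/-! ### The ping-pong -/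

/-- matrices mapping the cone `x y < 0` into the cone `x y > 0`, preserving `x² + y²` -/
def lrpp_SStep (M : SL(2, ℤ)) : Prop :=
  ∀ x y : ℤ, x * y < 0 →
    0 < (M 0 0 * x + M 0 1 * y) * (M 1 0 * x + M 1 1 * y) ∧
    (M 0 0 * x + M 0 1 * y) ^ 2 + (M 1 0 * x + M 1 1 * y) ^ 2 = x ^ 2 + y ^ 2

/-- matrices mapping the cone `x y > 0` into the cone `x y < 0`, increasing `x² + y²` -/
def lrpp_UStep (M : SL(2, ℤ)) : Prop :=
  ∀ x y : ℤ, 0 < x * y →
    (M 0 0 * x + M 0 1 * y) * (M 1 0 * x + M 1 1 * y) < 0 ∧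
    x ^ 2 + y ^ 2 < (M 0 0 * x + M 0 1 * y) ^ 2 + (M 1 0 * x + M 1 1 * y) ^ 2

theorem lrpp_entries {M : SL(2, ℤ)} {a b c d : ℤ}
    (h : (M : Matrix (Fin 2) (Fin 2) ℤ) = !![a, b; c, d]) :
    M 0 0 = a ∧ M 0 1 = b ∧ M 1 0 = c ∧ M 1 1 = d := by
  rw [h]
  exact ⟨rfl, rfl, rfl, rfl⟩

theorem lrpp_SStep_S : lrpp_SStep S := by
  obtain ⟨h00, h01, h10, h11⟩ := lrpp_entries (M := S) (a := 0) (b := -1) (c := 1) (d := 0) rfl
  intro x y hxy
  rw [h00, h01, h10, h11]
  constructor <;> nlinarith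

theorem lrpp_SStep_S3 : lrpp_SStep (S ^ 3) := by
  obtain ⟨h00, h01, h10, h11⟩ :=
    lrpp_entries (M := S ^ 3) (a := 0) (b := 1) (c := -1) (d := 0) (by decide)
  intro x y hxy
  rw [h00, h01, h10, h11]
  constructor <;> nlinarith

theorem lrpp_UStep_U : lrpp_UStep lrpp_U := by
  obtain ⟨h00, h01, h10, h11⟩ :=
    lrpp_entries (M := lrpp_U) (a := 0) (b := -1) (c := 1) (d := 1) (by decide)
  intro x y hxy
  rw [h00, h01, h10, h11]
  constructor <;> nlinarith [sq_nonneg x, sq_nonneg y]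

theorem lrpp_UStep_U2 : lrpp_UStep (lrpp_U ^ 2) := by
  obtain ⟨h00, h01, h10, h11⟩ :=
    lrpp_entries (M := lrpp_U ^ 2) (a := -1) (b := -1) (c := 1) (d := 0) (by decide)
  intro x y hxy
  rw [h00, h01, h10, h11]
  constructor <;> nlinarith [sq_nonneg x, sq_nonneg y]

theorem lrpp_UStep_U4 : lrpp_UStep (lrpp_U ^ 4) := by
  obtain ⟨h00, h01, h10, h11⟩ :=
    lrpp_entries (M := lrpp_U ^ 4) (a := 0) (b := 1) (c := -1) (d := -1) (by decide)
  intro x y hxy
  rw [h00, h01, h10, h11]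
  constructor <;> nlinarith [sq_nonneg x, sq_nonneg y]

theorem lrpp_UStep_U5 : lrpp_UStep (lrpp_U ^ 5) := by
  obtain ⟨h00, h01, h10, h11⟩ :=
    lrpp_entries (M := lrpp_U ^ 5) (a := 1) (b := 1) (c := -1) (d := 0) (by decide)
  intro x y hxy
  rw [h00, h01, h10, h11]
  constructor <;> nlinarith [sq_nonneg x, sq_nonneg y]

theorem lrpp_SStep_letter (g : lrpp_Fam 0) (hg : g ∉ (lrpp_phi 0).range) :
    lrpp_SStep (lrpp_ev ⟨0, g⟩) := by
  rcases lrpp_letter_zero g hg with h | h <;> rw [h]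
  · exact lrpp_SStep_S
  · exact lrpp_SStep_S3

theorem lrpp_UStep_letter (g : lrpp_Fam 1) (hg : g ∉ (lrpp_phi 1).range) :
    lrpp_UStep (lrpp_ev ⟨1, g⟩) := by
  rcases lrpp_letter_one g hg with h | h | h | h <;> rw [h]
  · exact lrpp_UStep_U
  · exact lrpp_UStep_U2
  · exact lrpp_UStep_U4
  · exact lrpp_UStep_U5

theorem lrpp_mul_apply (g h : SL(2, ℤ)) (i j : Fin 2) :
    (g * h : SL(2, ℤ)) i j = g i 0 * h 0 j + g i 1 * h 1 j := by
  rw [Matrix.SpecialLinearGroup.coe_mul, Matrix.mul_apply, Fin.sum_univ_two]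

/-- the key invariant: the matrix `M` of a nonempty reduced word moves one of the two vectors
`(1, 1)`, `(-1, 1)` into the cone determined by the first letter, and either strictly increases
`x² + y²` or changes the cone -/
theorem lrpp_word_vec :
    ∀ (l : List (Σ i, lrpp_Fam i)) (a : Σ i, lrpp_Fam i),
      List.IsChain (fun x y : Σ i, lrpp_Fam i => x.1 ≠ y.1) (a :: l) →
      (∀ x ∈ a :: l, x.2 ∉ (lrpp_phi x.1).range) →
      ∃ x0 y0 : ℤ, x0 ^ 2 + y0 ^ 2 = 2 ∧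
        (a.1 = 0 → 0 < ((((a :: l).map lrpp_ev).prod : SL(2, ℤ)) 0 0 * x0 +
            (((a :: l).map lrpp_ev).prod : SL(2, ℤ)) 0 1 * y0) *
          ((((a :: l).map lrpp_ev).prod : SL(2, ℤ)) 1 0 * x0 +
            (((a :: l).map lrpp_ev).prod : SL(2, ℤ)) 1 1 * y0)) ∧
        (a.1 = 1 → ((((a :: l).map lrpp_ev).prod : SL(2, ℤ)) 0 0 * x0 +
            (((a :: l).map lrpp_ev).prod : SL(2, ℤ)) 0 1 * y0) *
          ((((a :: l).map lrpp_ev).prod : SL(2, ℤ)) 1 0 * x0 +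
            (((a :: l).map lrpp_ev).prod : SL(2, ℤ)) 1 1 * y0) < 0) ∧
        (2 < ((((a :: l).map lrpp_ev).prod : SL(2, ℤ)) 0 0 * x0 +
            (((a :: l).map lrpp_ev).prod : SL(2, ℤ)) 0 1 * y0) ^ 2 +
          ((((a :: l).map lrpp_ev).prod : SL(2, ℤ)) 1 0 * x0 +
            (((a :: l).map lrpp_ev).prod : SL(2, ℤ)) 1 1 * y0) ^ 2 ∨
          (x0 * y0 < 0 ∧ a.1 = 0)) := by
  have h01 : (0 : Fin 2) ≠ 1 := by decide
  have h10 : (1 : Fin 2) ≠ 0 := by decide
  intro l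
  induction l with
  | nil =>
    intro a _ hred
    have hprod : (([a].map lrpp_ev).prod : SL(2, ℤ)) = lrpp_ev a := by
      rw [List.map_cons, List.map_nil, List.prod_cons, List.prod_nil]
      exact mul_one _
    obtain ⟨i, g⟩ := a
    have hi : i = 0 ∨ i = 1 := by fin_cases i <;> simp
    rcases hi with rfl | rfl
    · have hstep := lrpp_SStep_letter g (hred ⟨0, g⟩ List.mem_cons_self) (-1) 1 (by norm_num)
      refine ⟨-1, 1, by norm_num, fun _ => ?_, fun h => absurd h h01, Or.inr ⟨by norm_num, rfl⟩⟩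
      rw [hprod]
      exact hstep.1
    · have hstep := lrpp_UStep_letter g (hred ⟨1, g⟩ List.mem_cons_self) 1 1 (by norm_num)
      refine ⟨1, 1, by norm_num, fun h => absurd h h10, fun _ => ?_, Or.inl ?_⟩
      · rw [hprod]
        exact hstep.1
      · rw [hprod]
        have := hstep.2
        norm_num at this ⊢
        exact this
  | cons b l ih =>
    intro a hch hred
    rw [List.isChain_cons_cons] at hch
    obtain ⟨hab, hch'⟩ := hch
    obtain ⟨x0, y0, hxy0, h0, h1, hinv⟩ :=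
      ih b hch' (fun x hx => hred x (List.mem_cons_of_mem _ hx))
    have hM : (((a :: b :: l).map lrpp_ev).prod : SL(2, ℤ)) =
        lrpp_ev a * ((b :: l).map lrpp_ev).prod := by
      rw [List.map_cons, List.prod_cons]
    generalize ((b :: l).map lrpp_ev).prod = M' at h0 h1 hinv hM
    set x' := M' 0 0 * x0 + M' 0 1 * y0 with hx'
    set y' := M' 1 0 * x0 + M' 1 1 * y0 with hy'
    have hnew : ∀ i : Fin 2, (lrpp_ev a * M' : SL(2, ℤ)) i 0 * x0 +
        (lrpp_ev a * M' : SL(2, ℤ)) i 1 * y0 = lrpp_ev a i 0 * x' + lrpp_ev a i 1 * y' := by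
      intro i
      rw [lrpp_mul_apply, lrpp_mul_apply, hx', hy']
      ring
    refine ⟨x0, y0, hxy0, ?_⟩
    rw [hM, hnew 0, hnew 1]
    obtain ⟨i, g⟩ := a
    have hi : i = 0 ∨ i = 1 := by fin_cases i <;> simp
    rcases hi with rfl | rfl
    · have hb : b.1 = 1 := Fin.eq_one_of_ne_zero _ (fun h => hab h.symm)
      have hneg := h1 hb
      have hstep := lrpp_SStep_letter g (hred ⟨0, g⟩ List.mem_cons_self) x' y' hneg
      refine ⟨fun _ => hstep.1, fun h => absurd h h01, Or.inl ?_⟩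
      rw [hstep.2]
      rcases hinv with h | ⟨_, h⟩
      · exact h
      · rw [hb] at h
        exact absurd h h10
    · have hb : b.1 = 0 := by
        by_contra hne
        exact hab (Fin.eq_one_of_ne_zero _ hne).symm
      have hpos := h0 hb
      have hstep := lrpp_UStep_letter g (hred ⟨1, g⟩ List.mem_cons_self) x' y' hpos
      refine ⟨fun h => absurd h h10, fun _ => hstep.1, Or.inl ?_⟩
      have h2 : 2 ≤ x' ^ 2 + y' ^ 2 := by nlinarith [sq_nonneg (x' - y')]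
      exact lt_of_le_of_lt h2 hstep.2

/-! ### Injectivity, surjectivity -/

theorem lrpp_toSL_of (i : Fin 2) (g : lrpp_Fam i) :
    lrpp_toSL (PushoutI.of i g) = lrpp_ev ⟨i, g⟩ :=
  PushoutI.lift_of _ _ (lrpp_fam_comp_phi S lrpp_U lrpp_S_pow_four lrpp_U_cube) _

theorem lrpp_toSL_base (h : Multiplicative (ZMod 2)) :
    lrpp_toSL (PushoutI.base lrpp_phi h) = lrpp_base S lrpp_S_pow_four h :=
  PushoutI.lift_base _ _ (lrpp_fam_comp_phi S lrpp_U lrpp_S_pow_four lrpp_U_cube) _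

theorem lrpp_base_S (h : Multiplicative (ZMod 2)) :
    lrpp_base S lrpp_S_pow_four h = 1 ∨ lrpp_base S lrpp_S_pow_four h = -1 := by
  rcases lrpp_zmod_two h with rfl | rfl
  · left; exact map_one _
  · right
    rw [lrpp_base, lrpp_cyc_one, lrpp_S_sq]

theorem lrpp_base_S_injective : Function.Injective (lrpp_base S lrpp_S_pow_four) := by
  rw [injective_iff_map_eq_one]
  intro x hx
  rcases lrpp_zmod_two x with rfl | rfl
  · rfl
  · exfalso
    rw [lrpp_base, lrpp_cyc_one, lrpp_S_sq] at hx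
    revert hx
    decide

theorem lrpp_toSL_word (l : List (Σ i, lrpp_Fam i)) :
    lrpp_toSL (PushoutI.ofCoprodI
      ((l.map fun a : Σ i, lrpp_Fam i => (CoprodI.of a.2 : CoprodI lrpp_Fam)).prod)) =
      (l.map lrpp_ev).prod := by
  induction l with
  | nil => simp
  | cons a l ih =>
    rw [List.map_cons, List.prod_cons, map_mul, map_mul, ih, List.map_cons, List.prod_cons,
      PushoutI.ofCoprodI_of, lrpp_toSL_of]

theorem lrpp_toSL_injective : Function.Injective lrpp_toSL := by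
  classical
  rw [injective_iff_map_eq_one]
  intro x hx
  obtain ⟨d⟩ := PushoutI.NormalWord.transversal_nonempty lrpp_phi lrpp_phi_injective
  have hxw : ((PushoutI.NormalWord.equiv (d := d)) x).prod = x :=
    (PushoutI.NormalWord.equiv (d := d)).symm_apply_apply x
  generalize (PushoutI.NormalWord.equiv (d := d)) x = w at hxw
  have hred : ∀ a ∈ w.toList, a.2 ∉ (lrpp_phi a.1).range := by
    intro a ha hmem
    have h1 : a.2 ∈ d.set a.1 := w.normalized a.1 a.2 ha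
    have h2 : a.2 ≠ 1 := w.ne_one a ha
    have hc := (d.compl a.1).1
    have h3 := @hc ⟨⟨a.2, hmem⟩, ⟨1, d.one_mem a.1⟩⟩ ⟨⟨1, one_mem _⟩, ⟨a.2, h1⟩⟩ (by simp)
    have h4 := congrArg (fun z => (z.2 : lrpp_Fam a.1)) h3
    exact h2 h4.symm
  have hval : lrpp_toSL x =
      lrpp_base S lrpp_S_pow_four w.head * (w.toList.map lrpp_ev).prod := by
    rw [← hxw, PushoutI.NormalWord.prod, map_mul, lrpp_toSL_base, CoprodI.Word.prod,
      lrpp_toSL_word]
  rw [hx] at hval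
  rcases hl : w.toList with _ | ⟨a, l⟩
  · rw [hl, List.map_nil, List.prod_nil, mul_one] at hval
    have h2 : w.head = 1 := lrpp_base_S_injective (by rw [← hval, map_one])
    rw [← hxw, PushoutI.NormalWord.prod, h2, map_one, one_mul, CoprodI.Word.prod, hl]
    simp
  · exfalso
    rw [hl] at hval
    obtain ⟨x0, y0, hxy0, h0, h1, hinv⟩ := lrpp_word_vec l a (hl ▸ w.chain_ne)
      (fun y hy => hred y (hl ▸ hy))
    have hM : (((a :: l).map lrpp_ev).prod : SL(2, ℤ)) = 1 ∨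
        (((a :: l).map lrpp_ev).prod : SL(2, ℤ)) = -1 := by
      have h3 := eq_inv_of_mul_eq_one_right hval.symm
      rcases lrpp_base_S w.head with h | h
      · left; rw [h3, h, inv_one]
      · right; rw [h3, h]; decide
    generalize ((a :: l).map lrpp_ev).prod = M at h0 h1 hinv hM
    have hi : a.1 = 0 ∨ a.1 = 1 := by
      generalize a.1 = i
      fin_cases i <;> simp
    rcases hM with rfl | rfl
    · have e : ∀ (u v : ℤ), ((1 : SL(2, ℤ)) 0 0 * u + (1 : SL(2, ℤ)) 0 1 * v) = u ∧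
          ((1 : SL(2, ℤ)) 1 0 * u + (1 : SL(2, ℤ)) 1 1 * v) = v := by
        intro u v
        simp
      rw [(e x0 y0).1, (e x0 y0).2] at h0 h1 hinv
      rcases hinv with h | ⟨h, h'⟩
      · omega
      · have := h0 h'
        omega
    · have e : ∀ (u v : ℤ), ((-1 : SL(2, ℤ)) 0 0 * u + (-1 : SL(2, ℤ)) 0 1 * v) = -u ∧
          ((-1 : SL(2, ℤ)) 1 0 * u + (-1 : SL(2, ℤ)) 1 1 * v) = -v := by
        intro u v
        simp
      rw [(e x0 y0).1, (e x0 y0).2] at h0 h1 hinv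
      rcases hinv with h | ⟨h, h'⟩
      · rw [neg_sq, neg_sq] at h
        omega
      · have := h0 h'
        rw [neg_mul_neg] at this
        omega

theorem lrpp_T_eq : T = S ^ 3 * lrpp_U := by decide

theorem lrpp_toSL_surjective : Function.Surjective lrpp_toSL := by
  rw [← MonoidHom.range_eq_top, eq_top_iff, ← SpecialLinearGroup.SL2Z_generators,
    Subgroup.closure_le]
  have hS : S ∈ lrpp_toSL.range :=
    ⟨PushoutI.of 0 (Multiplicative.ofAdd 1), lrpp_amalgHom_of_zero _ _ _ _⟩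
  have hU : lrpp_U ∈ lrpp_toSL.range :=
    ⟨PushoutI.of 1 (Multiplicative.ofAdd 1), lrpp_amalgHom_of_one _ _ _ _⟩
  rintro x (rfl | rfl)
  · exact hS
  · rw [lrpp_T_eq]
    exact mul_mem (pow_mem hS 3) hU

/-- `C₄ *_{C₂} C₆ ≃* SL(2, ℤ)` -/
noncomputable def lrpp_equiv : PushoutI lrpp_phi ≃* SL(2, ℤ) :=
  MulEquiv.ofBijective lrpp_toSL ⟨lrpp_toSL_injective, lrpp_toSL_surjective⟩

/-! ### The presentation of `SL(2, ℤ)` -/

/-- homomorphisms out of `SL(2, ℤ)` are determined by their values on `S` and `S T` -/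
theorem lrpp_hom_ext_SL {K : Type*} [Group K] {f f' : SL(2, ℤ) →* K} (hS : f S = f' S)
    (hU : f (S * T) = f' (S * T)) : f = f' := by
  refine MonoidHom.eq_of_eqOn_dense SpecialLinearGroup.SL2Z_generators ?_
  rintro x (rfl | rfl)
  · exact hS
  · have hT : (T : SL(2, ℤ)) = S ^ 3 * (S * T) := lrpp_T_eq
    have e1 : f T = f S ^ 3 * f (S * T) := by
      conv_lhs => rw [hT]
      rw [map_mul, map_pow]
    have e2 : f' T = f' S ^ 3 * f' (S * T) := by
      conv_lhs => rw [hT]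
      rw [map_mul, map_pow]
    show f T = f' T
    rw [e1, e2, hS, hU]

/-- **PRESENTATION of `SL(2, ℤ)`**: for `a, b` in a group `K` with `a⁴ = 1`, `b³ = a²` there is a
unique homomorphism `SL(2, ℤ) → K` with `S ↦ a`, `S T ↦ b` -/
theorem lrpp_pres {K : Type*} [Group K] (a b : K) (ha : a ^ 4 = 1) (hab : b ^ 3 = a ^ 2) :
    ∃! f : SL(2, ℤ) →* K, f S = a ∧ f (S * T) = b := by
  have h1 : lrpp_equiv.symm S = PushoutI.of (φ := lrpp_phi) 0 (Multiplicative.ofAdd 1) := by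
    rw [MulEquiv.symm_apply_eq]
    exact (lrpp_amalgHom_of_zero S lrpp_U lrpp_S_pow_four lrpp_U_cube).symm
  have h2 : lrpp_equiv.symm (S * T) = PushoutI.of (φ := lrpp_phi) 1 (Multiplicative.ofAdd 1) := by
    rw [MulEquiv.symm_apply_eq]
    exact (lrpp_amalgHom_of_one S lrpp_U lrpp_S_pow_four lrpp_U_cube).symm
  refine ⟨(lrpp_amalgHom a b ha hab).comp lrpp_equiv.symm.toMonoidHom, ⟨?_, ?_⟩, ?_⟩
  · rw [MonoidHom.comp_apply, MulEquiv.coe_toMonoidHom, h1, lrpp_amalgHom_of_zero]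
  · rw [MonoidHom.comp_apply, MulEquiv.coe_toMonoidHom, h2, lrpp_amalgHom_of_one]
  · rintro f' ⟨hS, hU⟩
    refine lrpp_hom_ext_SL ?_ ?_
    · rw [hS, MonoidHom.comp_apply, MulEquiv.coe_toMonoidHom, h1, lrpp_amalgHom_of_zero]
    · rw [hU, MonoidHom.comp_apply, MulEquiv.coe_toMonoidHom, h2, lrpp_amalgHom_of_one]

/-- **PRESENTATION of `PSL(2, ℤ) = C₂ * C₃`**, as a statement about `SL(2, ℤ)`: for `a, b` with
`a² = 1`, `b³ = 1` there is a unique homomorphism `SL(2, ℤ) → K` with `S ↦ a`, `S T ↦ b`; it kills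
`-1` -/
theorem lrpp_pres_psl {K : Type*} [Group K] (a b : K) (ha : a ^ 2 = 1) (hb : b ^ 3 = 1) :
    ∃! f : SL(2, ℤ) →* K, f S = a ∧ f (S * T) = b :=
  lrpp_pres a b (by rw [show 4 = 2 * 2 from rfl, pow_mul, ha, one_pow]) (by rw [hb, ha])

theorem lrpp_neg_one_of_psl {K : Type*} [Group K] (f : SL(2, ℤ) →* K) (h : f S ^ 2 = 1) :
    f (-1) = 1 := by
  rw [← lrpp_S_sq, map_pow, h]

end Fermat.Agent.LR
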