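/-
LR node [PD], cell [TREE].

For `η : SL(2, ℤ) → A` with `η (-g) = η g`, `η (S g) = - η g` there is `Q : SL(2, ℤ) → A` with
`Q (-g) = Q g`, `Q (S T g) = Q g`, `Q (S g) - Q g = η g` (the Bass–Serre tree of
`PSL(2, ℤ) = C₂ * C₃` has no cycles).  Proof: the presentation `lrpp_pres` of `SL(2, ℤ)` applied to
two permutations of `SL(2, ℤ) × A`.  Mathlib only.  Prefix `lrpt_`.
-/
import Mathlib
import Fermat.Agent.LR.PD.Pres

set_option autoImplicit false

open Matrix.SpecialLinearGroup ModularGroup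
open scoped MatrixGroups

namespace Fermat.Agent.LR

section
variable {A : Type*} [AddCommGroup A]

/-- `(g, a) ↦ (S g, a + η g)` -/
def lrpt_sigmaS (η : SL(2, ℤ) → A) : Equiv.Perm (SL(2, ℤ) × A) where
  toFun z := (S * z.1, z.2 + η z.1)
  invFun z := (S⁻¹ * z.1, z.2 - η (S⁻¹ * z.1))
  left_inv z := by
    apply Prod.ext
    · show S⁻¹ * (S * z.1) = z.1
      rw [inv_mul_cancel_left]
    · show z.2 + η z.1 - η (S⁻¹ * (S * z.1)) = z.2
      rw [inv_mul_cancel_left, add_sub_cancel_right]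
  right_inv z := by
    apply Prod.ext
    · show S * (S⁻¹ * z.1) = z.1
      rw [mul_inv_cancel_left]
    · show z.2 - η (S⁻¹ * z.1) + η (S⁻¹ * z.1) = z.2
      rw [sub_add_cancel]

/-- `(g, a) ↦ (S T g, a)` -/
def lrpt_sigmaU : Equiv.Perm (SL(2, ℤ) × A) where
  toFun z := (S * T * z.1, z.2)
  invFun z := ((S * T)⁻¹ * z.1, z.2)
  left_inv z := by
    apply Prod.ext
    · show (S * T)⁻¹ * (S * T * z.1) = z.1
      rw [inv_mul_cancel_left]
    · rfl
  right_inv z := by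
    apply Prod.ext
    · show S * T * ((S * T)⁻¹ * z.1) = z.1
      rw [mul_inv_cancel_left]
    · rfl

/-- `(g, a) ↦ (-g, a)` -/
def lrpt_nu : Equiv.Perm (SL(2, ℤ) × A) where
  toFun z := (-z.1, z.2)
  invFun z := (-z.1, z.2)
  left_inv z := by
    apply Prod.ext
    · show - -z.1 = z.1
      rw [neg_neg]
    · rfl
  right_inv z := by
    apply Prod.ext
    · show - -z.1 = z.1
      rw [neg_neg]
    · rfl

theorem lrpt_S_mul_S (g : SL(2, ℤ)) : S * (S * g) = -g := by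
  rw [← mul_assoc, ← pow_two, lrpp_S_sq, neg_mul, one_mul]

theorem lrpt_U_cube_mul (g : SL(2, ℤ)) : S * T * (S * T * (S * T * g)) = -g := by
  have h : (S * T) ^ 3 = -1 := by decide
  rw [← mul_assoc, ← mul_assoc, ← pow_two, ← pow_succ, h, neg_mul, one_mul]

theorem lrpt_sigmaS_sq (η : SL(2, ℤ) → A) (h2 : ∀ g, η (S * g) = - η g) :
    lrpt_sigmaS η ^ 2 = lrpt_nu := by
  refine Equiv.ext fun z => ?_
  rw [pow_two, Equiv.Perm.mul_apply]
  apply Prod.ext
  · show S * (S * z.1) = -z.1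
    exact lrpt_S_mul_S _
  · show z.2 + η z.1 + η (S * z.1) = z.2
    rw [h2, add_neg_cancel_right]

omit [AddCommGroup A] in
theorem lrpt_sigmaU_cube : (lrpt_sigmaU : Equiv.Perm (SL(2, ℤ) × A)) ^ 3 = lrpt_nu := by
  refine Equiv.ext fun z => ?_
  rw [pow_succ, pow_two, Equiv.Perm.mul_apply, Equiv.Perm.mul_apply]
  apply Prod.ext
  · show S * T * (S * T * (S * T * z.1)) = -z.1
    exact lrpt_U_cube_mul _
  · rfl

omit [AddCommGroup A] in
theorem lrpt_nu_sq : (lrpt_nu : Equiv.Perm (SL(2, ℤ) × A)) ^ 2 = 1 := by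
  refine Equiv.ext fun z => ?_
  rw [pow_two, Equiv.Perm.mul_apply]
  apply Prod.ext
  · show - -z.1 = z.1
    rw [neg_neg]
  · rfl

/-- **[TREE]** -/
theorem lrpt_tree (η : SL(2, ℤ) → A) (_h1 : ∀ g, η (-g) = η g) (h2 : ∀ g, η (S * g) = - η g) :
    ∃ Q : SL(2, ℤ) → A, (∀ g, Q (-g) = Q g) ∧ (∀ g, Q (S * T * g) = Q g) ∧
      (∀ g, Q (S * g) - Q g = η g) := by
  have hS4 : lrpt_sigmaS η ^ 4 = 1 := by
    rw [show 4 = 2 * 2 from rfl, pow_mul, lrpt_sigmaS_sq η h2, lrpt_nu_sq]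
  have hU3 : (lrpt_sigmaU : Equiv.Perm (SL(2, ℤ) × A)) ^ 3 = lrpt_sigmaS η ^ 2 := by
    rw [lrpt_sigmaU_cube, lrpt_sigmaS_sq η h2]
  obtain ⟨ρ, ⟨hρS, hρU⟩, -⟩ := lrpp_pres (lrpt_sigmaS η) lrpt_sigmaU hS4 hU3
  -- first components
  have hfst : ∀ g : SL(2, ℤ), ∀ z : SL(2, ℤ) × A, (ρ g z).1 = g * z.1 := by
    let H : Subgroup SL(2, ℤ) :=
      { carrier := {g | ∀ z : SL(2, ℤ) × A, (ρ g z).1 = g * z.1}
        mul_mem' := by
          intro g h hg hh z
          rw [map_mul, Equiv.Perm.mul_apply, hg, hh, mul_assoc]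
        one_mem' := by
          intro z
          rw [map_one, Equiv.Perm.one_apply, one_mul]
        inv_mem' := by
          intro g hg z
          have h3 := hg (ρ g⁻¹ z)
          rw [← Equiv.Perm.mul_apply, ← map_mul, mul_inv_cancel, map_one,
            Equiv.Perm.one_apply] at h3
          rw [h3, inv_mul_cancel_left] }
    have hSm : S ∈ H := by
      intro z
      rw [hρS]
      rfl
    have hUm : S * T ∈ H := by
      intro z
      rw [hρU]
      rfl
    have htop : H = ⊤ := by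
      rw [eq_top_iff, ← SpecialLinearGroup.SL2Z_generators, Subgroup.closure_le]
      rintro x (rfl | rfl)
      · exact hSm
      · have hT : (T : SL(2, ℤ)) = S ^ 3 * (S * T) := lrpp_T_eq
        show T ∈ H
        rw [hT]
        exact H.mul_mem (H.pow_mem hSm 3) hUm
    intro g
    have : g ∈ H := by rw [htop]; exact Subgroup.mem_top g
    exact this
  refine ⟨fun g => (ρ g (1, 0)).2, ?_, ?_, ?_⟩
  · -- `Q (-g) = Q g`
    intro g
    have hneg : ρ (-g) = lrpt_nu * ρ g := by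
      rw [← lrpt_sigmaS_sq η h2, ← hρS, ← map_pow, ← map_mul, lrpp_S_sq, neg_mul, one_mul]
    show (ρ (-g) (1, 0)).2 = (ρ g (1, 0)).2
    rw [hneg, Equiv.Perm.mul_apply]
    rfl
  · -- `Q (S T g) = Q g`
    intro g
    show (ρ (S * T * g) (1, 0)).2 = (ρ g (1, 0)).2
    rw [map_mul, Equiv.Perm.mul_apply, hρU]
    rfl
  · -- `Q (S g) - Q g = η g`
    intro g
    show (ρ (S * g) (1, 0)).2 - (ρ g (1, 0)).2 = η g
    rw [map_mul, Equiv.Perm.mul_apply, hρS]
    show (ρ g (1, 0)).2 + η (ρ g (1, 0)).1 - (ρ g (1, 0)).2 = η g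
    rw [hfst, mul_one, add_sub_cancel_left]

end

end Fermat.Agent.LR
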