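/-
LR / node [PD], cell [PD-RES] (helper23): the RESIDUE THEOREM.

`Gam ≤ SL(2, ℤ)` of finite index, `χ : Gam → F` a homomorphism to an abelian group killing every
element of `Gam` of the form `h⁻¹ S ^ n h` or `h⁻¹ (S T) ^ n h`.  Then the sum of `χ` over the
cusp generators `π_O = h_O⁻¹ T ^ w_O h_O` (`O` running over the `⟨T⟩`-orbits on `SL(2, ℤ) ⧸ Gam`,
`h_O` ANY representative of any point of `O`, `w_O` the length of `O`) vanishes.

Proof: the sum is the value at `T` of the transfer of `χ` (Mathlib's `MonoidHom.transfer`), the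
transfer is a homomorphism, `T = S⁻¹ (S T)`, and the values of the transfer at `S` and `S T` are
orbit sums of `χ` over conjugates of powers of `S`, `S T` lying in `Gam`.

The general-group statement `lrpr_transfer_eq_prod` is the explicit orbit formula for the transfer
with ARBITRARY orbit representatives.

Prefix `lrpr_`.  Left cosets `G ⧸ H`, Mathlib conventions.
-/
import Mathlib

set_option autoImplicit false

noncomputable section

namespace Fermat.Agent.LR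

open MulAction Subgroup

section general

variable {G : Type*} [Group G] (H : Subgroup G)

/-- the minimal period of `g` acting on `G ⧸ H` is constant along `⟨g⟩`-orbits and `H`-cosets -/
theorem lrpr_minimalPeriod_eq (g h : G) (k : ℤ) (γ : G) (hγ : γ ∈ H) :
    Function.minimalPeriod (g • ·) (((g ^ k * h * γ : G)) : G ⧸ H) =
      Function.minimalPeriod (g • ·) ((h : G) : G ⧸ H) := by
  have h1 : (((g ^ k * h * γ : G)) : G ⧸ H) = g ^ k • ((h : G) : G ⧸ H) := by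
    have h2 : (((g ^ k * h * γ : G)) : G ⧸ H) = (((g ^ k * h : G)) : G ⧸ H) := by
      rw [eq_comm, QuotientGroup.eq, ← mul_assoc, inv_mul_cancel, one_mul]
      exact hγ
    rw [h2]
    rfl
  rw [h1, Function.minimalPeriod_eq_minimalPeriod_iff]
  intro n
  change (g • ·)^[n] (g ^ k • ((h : G) : G ⧸ H)) = g ^ k • ((h : G) : G ⧸ H) ↔
    (g • ·)^[n] ((h : G) : G ⧸ H) = ((h : G) : G ⧸ H)
  rw [smul_iterate]
  change g ^ n • (g ^ k • ((h : G) : G ⧸ H)) = g ^ k • ((h : G) : G ⧸ H) ↔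
    g ^ n • ((h : G) : G ⧸ H) = ((h : G) : G ⧸ H)
  rw [← mul_smul, ← zpow_natCast, ← zpow_add, add_comm, zpow_add,
    mul_smul, smul_left_cancel_iff]

/-- `h⁻¹ g ^ w h ∈ H` for `w` the length of the `⟨g⟩`-orbit of `h H` -/
theorem lrpr_gen_mem (g h : G) :
    h⁻¹ * g ^ Function.minimalPeriod (g • ·) ((h : G) : G ⧸ H) * h ∈ H := by
  rw [mul_assoc, ← QuotientGroup.eq, ← smul_eq_mul (g ^ _) h, ← MulAction.Quotient.smul_coe,
    eq_comm, pow_smul_eq_iff_minimalPeriod_dvd]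

variable {H}

/-- two points of `G ⧸ H` in the same `⟨g⟩`-orbit: representatives differ by `g ^ k` on the left
and an element of `H` on the right -/
theorem lrpr_exists_of_orbit (g h h' : G)
    (hh : (Quotient.mk'' ((h' : G) : G ⧸ H) : orbitRel.Quotient (zpowers g) (G ⧸ H)) =
      Quotient.mk'' ((h : G) : G ⧸ H)) :
    ∃ (k : ℤ) (γ : G), γ ∈ H ∧ h' = g ^ k * h * γ := by
  have h1 := Quotient.exact' hh
  rw [orbitRel_apply, mem_orbit_iff] at h1
  obtain ⟨⟨z, hz⟩, hz2⟩ := h1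
  obtain ⟨k, rfl⟩ := mem_zpowers_iff.mp hz
  change g ^ k • ((h : G) : G ⧸ H) = ((h' : G) : G ⧸ H) at hz2
  rw [MulAction.Quotient.smul_coe, QuotientGroup.eq, smul_eq_mul] at hz2
  refine ⟨k, (g ^ k * h)⁻¹ * h', hz2, ?_⟩
  rw [mul_inv_cancel_left]

end general

section transfer

variable {G : Type*} [Group G] {H : Subgroup G} {A : Type*} [CommGroup A]

/-- the value of a homomorphism at the orbit generator does not depend on the representative -/
theorem lrpr_gen_indep (ϕ : H →* A) (g h h' : G)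
    (hh : (Quotient.mk'' ((h' : G) : G ⧸ H) : orbitRel.Quotient (zpowers g) (G ⧸ H)) =
      Quotient.mk'' ((h : G) : G ⧸ H)) :
    ϕ ⟨h'⁻¹ * g ^ Function.minimalPeriod (g • ·) ((h' : G) : G ⧸ H) * h', lrpr_gen_mem H g h'⟩ =
      ϕ ⟨h⁻¹ * g ^ Function.minimalPeriod (g • ·) ((h : G) : G ⧸ H) * h, lrpr_gen_mem H g h⟩ := by
  obtain ⟨k, γ, hγ, rfl⟩ := lrpr_exists_of_orbit g h h' hh
  have hw := lrpr_minimalPeriod_eq H g h k γ hγ
  have h1 : (⟨(g ^ k * h * γ)⁻¹ *
      g ^ Function.minimalPeriod (g • ·) (((g ^ k * h * γ : G)) : G ⧸ H) * (g ^ k * h * γ),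
        lrpr_gen_mem H g (g ^ k * h * γ)⟩ : H) =
      (⟨γ, hγ⟩ : H)⁻¹ *
        ⟨h⁻¹ * g ^ Function.minimalPeriod (g • ·) ((h : G) : G ⧸ H) * h, lrpr_gen_mem H g h⟩ *
        ⟨γ, hγ⟩ := by
    apply Subtype.ext
    rw [Subgroup.coe_mul, Subgroup.coe_mul, Subgroup.coe_inv]
    change (g ^ k * h * γ)⁻¹ * g ^ Function.minimalPeriod (g • ·) (((g ^ k * h * γ : G)) : G ⧸ H) *
      (g ^ k * h * γ) = γ⁻¹ * (h⁻¹ * g ^ Function.minimalPeriod (g • ·) ((h : G) : G ⧸ H) * h) * γ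
    rw [hw]
    generalize Function.minimalPeriod (g • ·) ((h : G) : G ⧸ H) = n
    have hc : g ^ n * g ^ k = g ^ k * g ^ n := by
      rw [← zpow_natCast, ← zpow_add, add_comm, zpow_add]
    calc (g ^ k * h * γ)⁻¹ * g ^ n * (g ^ k * h * γ)
        = γ⁻¹ * h⁻¹ * ((g ^ k)⁻¹ * (g ^ n * g ^ k)) * h * γ := by group
      _ = γ⁻¹ * (h⁻¹ * g ^ n * h) * γ := by rw [hc]; group
  rw [h1, map_mul, map_mul, map_inv, mul_comm, mul_inv_cancel_left]

/-- **the transfer as an orbit product, arbitrary representatives** -/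
theorem lrpr_transfer_eq_prod [H.FiniteIndex] (ϕ : H →* A) (g : G)
    [Fintype (orbitRel.Quotient (zpowers g) (G ⧸ H))]
    (rep : orbitRel.Quotient (zpowers g) (G ⧸ H) → G)
    (hrep : ∀ O, (Quotient.mk'' ((rep O : G) : G ⧸ H) :
      orbitRel.Quotient (zpowers g) (G ⧸ H)) = O) :
    MonoidHom.transfer ϕ g =
      ∏ O : orbitRel.Quotient (zpowers g) (G ⧸ H),
        ϕ ⟨(rep O)⁻¹ * g ^ Function.minimalPeriod (g • ·) ((rep O : G) : G ⧸ H) * rep O,
          lrpr_gen_mem H g (rep O)⟩ := by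
  rw [MonoidHom.transfer_eq_prod_quotient_orbitRel_zpowers_quot]
  refine Fintype.prod_congr _ _ fun O => ?_
  have h1 : (Quotient.mk'' ((O.out.out : G) : G ⧸ H) : orbitRel.Quotient (zpowers g) (G ⧸ H)) =
      Quotient.mk'' ((rep O : G) : G ⧸ H) := by
    rw [hrep, QuotientGroup.out_eq']
    exact Quotient.out_eq' O
  have h2 := lrpr_gen_indep ϕ g (rep O) O.out.out h1
  rw [← h2]
  congr 2
  rw [QuotientGroup.out_eq']

/-- a homomorphism killing all conjugates of powers of `g` lying in `H` has transfer trivial at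
`g` -/
theorem lrpr_transfer_eq_one [H.FiniteIndex] (ϕ : H →* A) (g : G)
    (hg : ∀ (h : G) (n : ℕ) (hm : h⁻¹ * g ^ n * h ∈ H), ϕ ⟨_, hm⟩ = 1) :
    MonoidHom.transfer ϕ g = 1 := by
  classical
  let _ := H.fintypeQuotientOfFiniteIndex
  rw [MonoidHom.transfer_eq_prod_quotient_orbitRel_zpowers_quot]
  exact Finset.prod_eq_one fun q _ => hg _ _ _

end transfer

section additive

variable {G : Type*} [Group G] {H : Subgroup G} {F : Type*} [AddCommGroup F]

/-- additive form of `lrpr_transfer_eq_prod`: the transfer of `χ : H → F` at `g` is the sum of `χ`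
over the orbit generators, for arbitrary orbit representatives -/
theorem lrpr_transfer_eq_sum [H.FiniteIndex] (χ : Additive H →+ F) (g : G)
    [Fintype (orbitRel.Quotient (zpowers g) (G ⧸ H))]
    (rep : orbitRel.Quotient (zpowers g) (G ⧸ H) → G)
    (hrep : ∀ O, (Quotient.mk'' ((rep O : G) : G ⧸ H) :
      orbitRel.Quotient (zpowers g) (G ⧸ H)) = O) :
    (MonoidHom.transfer (AddMonoidHom.toMultiplicativeRight χ) g).toAdd =
      ∑ O : orbitRel.Quotient (zpowers g) (G ⧸ H),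
        χ (Additive.ofMul (⟨(rep O)⁻¹ *
          g ^ Function.minimalPeriod (g • ·) ((rep O : G) : G ⧸ H) * rep O,
          lrpr_gen_mem H g (rep O)⟩ : H)) := by
  rw [lrpr_transfer_eq_prod (AddMonoidHom.toMultiplicativeRight χ) g rep hrep, toAdd_prod]
  rfl

end additive

section sl2

open ModularGroup
open scoped MatrixGroups

variable {F : Type*} [AddCommGroup F] (Gam : Subgroup SL(2, ℤ)) [Gam.FiniteIndex]

/-- **RESIDUE THEOREM.**  A homomorphism `χ : Gam → F` killing the conjugates of powers of `S` and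
of `S * T` lying in `Gam` has vanishing cusp sum: `∑_O χ (h_O⁻¹ T ^ w_O h_O) = 0`, the sum over the
`⟨T⟩`-orbits `O` on `SL(2, ℤ) ⧸ Gam`, with arbitrary representatives `h_O`. -/
theorem lrpr_residue (χ : Additive Gam →+ F)
    (hS : ∀ (h : SL(2, ℤ)) (n : ℕ) (hm : h⁻¹ * S ^ n * h ∈ Gam),
      χ (Additive.ofMul (⟨_, hm⟩ : Gam)) = 0)
    (hU : ∀ (h : SL(2, ℤ)) (n : ℕ) (hm : h⁻¹ * (S * T) ^ n * h ∈ Gam),
      χ (Additive.ofMul (⟨_, hm⟩ : Gam)) = 0)
    [Fintype (orbitRel.Quotient (zpowers T) (SL(2, ℤ) ⧸ Gam))]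
    (rep : orbitRel.Quotient (zpowers T) (SL(2, ℤ) ⧸ Gam) → SL(2, ℤ))
    (hrep : ∀ O, (Quotient.mk'' ((rep O : SL(2, ℤ)) : SL(2, ℤ) ⧸ Gam) :
      orbitRel.Quotient (zpowers T) (SL(2, ℤ) ⧸ Gam)) = O) :
    ∑ O : orbitRel.Quotient (zpowers T) (SL(2, ℤ) ⧸ Gam),
      χ (Additive.ofMul (⟨(rep O)⁻¹ *
        T ^ Function.minimalPeriod (T • ·) ((rep O : SL(2, ℤ)) : SL(2, ℤ) ⧸ Gam) * rep O,
        lrpr_gen_mem Gam T (rep O)⟩ : Gam)) = 0 := by
  rw [← lrpr_transfer_eq_sum χ T rep hrep]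
  have hT : (T : SL(2, ℤ)) = S⁻¹ * (S * T) := by rw [inv_mul_cancel_left]
  have h1 : MonoidHom.transfer (AddMonoidHom.toMultiplicativeRight χ) S = 1 :=
    lrpr_transfer_eq_one _ S fun h n hm => congrArg Multiplicative.ofAdd (hS h n hm)
  have h2 : MonoidHom.transfer (AddMonoidHom.toMultiplicativeRight χ) (S * T) = 1 :=
    lrpr_transfer_eq_one _ (S * T) fun h n hm => congrArg Multiplicative.ofAdd (hU h n hm)
  have h3 : MonoidHom.transfer (AddMonoidHom.toMultiplicativeRight χ) T = 1 := by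
    conv_lhs => rw [hT]
    rw [map_mul, map_inv, h1, h2, inv_one, one_mul]
  rw [h3]
  rfl

/-- **RESIDUE THEOREM**, function form: `χ : Gam → F` additive on products. -/
theorem lrpr_residue_fun (χ : Gam → F) (hχ : ∀ a b : Gam, χ (a * b) = χ a + χ b)
    (hS : ∀ (h : SL(2, ℤ)) (n : ℕ) (hm : h⁻¹ * S ^ n * h ∈ Gam), χ ⟨_, hm⟩ = 0)
    (hU : ∀ (h : SL(2, ℤ)) (n : ℕ) (hm : h⁻¹ * (S * T) ^ n * h ∈ Gam), χ ⟨_, hm⟩ = 0)
    [Fintype (orbitRel.Quotient (zpowers T) (SL(2, ℤ) ⧸ Gam))]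
    (rep : orbitRel.Quotient (zpowers T) (SL(2, ℤ) ⧸ Gam) → SL(2, ℤ))
    (hrep : ∀ O, (Quotient.mk'' ((rep O : SL(2, ℤ)) : SL(2, ℤ) ⧸ Gam) :
      orbitRel.Quotient (zpowers T) (SL(2, ℤ) ⧸ Gam)) = O) :
    ∑ O : orbitRel.Quotient (zpowers T) (SL(2, ℤ) ⧸ Gam),
      χ ⟨(rep O)⁻¹ *
        T ^ Function.minimalPeriod (T • ·) ((rep O : SL(2, ℤ)) : SL(2, ℤ) ⧸ Gam) * rep O,
        lrpr_gen_mem Gam T (rep O)⟩ = 0 :=
  lrpr_residue Gam (AddMonoidHom.mk' (fun a : Additive Gam => χ a.toMul) fun _ _ => hχ _ _)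
    hS hU rep hrep

end sl2

end Fermat.Agent.LR
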