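/-
LR / node [PD], cell [PD-ELL] (ruling #2771 (R2)): elliptic and parabolic elements of `SL(2, ℤ)`.

Mathlib only.  `S T = ModularGroup.S / ModularGroup.T`.  Self-contained entry calculus (the
parabolic statements duplicate the cell [PD-PAR] under the prefix `lrpd_ell_`; no shared names).
* `lrpd_ell_conj_apply00 .. 11` : the entries of `g * T ^ n * g⁻¹`;
* `lrpd_ell_classify` : every element of trace `2` is `g * T ^ n * g⁻¹`;
* `lrpd_ell_pos_iff` : `0 < n ↔ 0 < π 0 1 - π 1 0` for `π = g * T ^ n * g⁻¹` (POSITIVITY);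
* `lrpd_ell_pos_scale` : positivity is preserved by `Ad diag(q, 1)` (`b ↦ q b`, `c ↦ c / q`);
* `lrpd_ell_normalizer`, `lrpd_ell_unique` : `u T^h u⁻¹ = T^h'`, `h ≠ 0` forces `u = ± T^k`, `h' = h`;
* `lrpd_ell_elliptic` : every element with `tr² < 4` is conjugate to a power of `S` or of `S * T`;
* `lrpd_ell_tr_neg` : trace `-2` elements are `-(g * T ^ n * g⁻¹)`.
Prefix `lrpd_ell_`.
-/
import Mathlib

set_option autoImplicit false
set_option linter.unusedSimpArgs false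

open Matrix Matrix.SpecialLinearGroup ModularGroup
open scoped MatrixGroups

namespace Fermat.Agent.LR

/-! ### Entry calculus in `SL(2, ℤ)` -/

theorem lrpd_ell_mul_apply (A B : SL(2, ℤ)) (i j : Fin 2) :
    (A * B) i j = A i 0 * B 0 j + A i 1 * B 1 j := by
  rw [Matrix.SpecialLinearGroup.coe_mul, Matrix.mul_apply, Fin.sum_univ_two]

theorem lrpd_ell_det (A : SL(2, ℤ)) : A 0 0 * A 1 1 - A 0 1 * A 1 0 = 1 := by
  have h := A.det_coe
  rw [Matrix.det_fin_two] at h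
  exact h

theorem lrpd_ell_inv_apply00 (A : SL(2, ℤ)) : A⁻¹ 0 0 = A 1 1 := by
  rw [SL2_inv_expl]; rfl

theorem lrpd_ell_inv_apply01 (A : SL(2, ℤ)) : A⁻¹ 0 1 = -A 0 1 := by
  rw [SL2_inv_expl]; rfl

theorem lrpd_ell_inv_apply10 (A : SL(2, ℤ)) : A⁻¹ 1 0 = -A 1 0 := by
  rw [SL2_inv_expl]; rfl

theorem lrpd_ell_inv_apply11 (A : SL(2, ℤ)) : A⁻¹ 1 1 = A 0 0 := by
  rw [SL2_inv_expl]; rfl

theorem lrpd_ell_T_apply00 (n : ℤ) : (T ^ n : SL(2, ℤ)) 0 0 = 1 := by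
  have := coe_T_zpow n
  simp [this]

theorem lrpd_ell_T_apply01 (n : ℤ) : (T ^ n : SL(2, ℤ)) 0 1 = n := by
  have := coe_T_zpow n
  simp [this]

theorem lrpd_ell_T_apply10 (n : ℤ) : (T ^ n : SL(2, ℤ)) 1 0 = 0 := by
  have := coe_T_zpow n
  simp [this]

theorem lrpd_ell_T_apply11 (n : ℤ) : (T ^ n : SL(2, ℤ)) 1 1 = 1 := by
  have := coe_T_zpow n
  simp [this]

theorem lrpd_ell_ext {A B : SL(2, ℤ)} (h00 : A 0 0 = B 0 0) (h01 : A 0 1 = B 0 1)
    (h10 : A 1 0 = B 1 0) (h11 : A 1 1 = B 1 1) : A = B := by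
  ext i j
  fin_cases i <;> fin_cases j
  · exact h00
  · exact h01
  · exact h10
  · exact h11

/-! ### Conjugates of `T ^ n` -/

theorem lrpd_ell_conj_apply00 (g : SL(2, ℤ)) (n : ℤ) :
    (g * T ^ n * g⁻¹) 0 0 = 1 - n * g 0 0 * g 1 0 := by
  have hd := lrpd_ell_det g
  rw [lrpd_ell_mul_apply, lrpd_ell_mul_apply, lrpd_ell_mul_apply, lrpd_ell_inv_apply00,
    lrpd_ell_inv_apply10, lrpd_ell_T_apply00, lrpd_ell_T_apply01, lrpd_ell_T_apply10,
    lrpd_ell_T_apply11]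
  linear_combination hd

theorem lrpd_ell_conj_apply01 (g : SL(2, ℤ)) (n : ℤ) :
    (g * T ^ n * g⁻¹) 0 1 = n * g 0 0 ^ 2 := by
  rw [lrpd_ell_mul_apply, lrpd_ell_mul_apply, lrpd_ell_mul_apply, lrpd_ell_inv_apply01,
    lrpd_ell_inv_apply11, lrpd_ell_T_apply00, lrpd_ell_T_apply01, lrpd_ell_T_apply10,
    lrpd_ell_T_apply11]
  ring

theorem lrpd_ell_conj_apply10 (g : SL(2, ℤ)) (n : ℤ) :
    (g * T ^ n * g⁻¹) 1 0 = -(n * g 1 0 ^ 2) := by
  rw [lrpd_ell_mul_apply, lrpd_ell_mul_apply, lrpd_ell_mul_apply, lrpd_ell_inv_apply00,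
    lrpd_ell_inv_apply10, lrpd_ell_T_apply00, lrpd_ell_T_apply01, lrpd_ell_T_apply10,
    lrpd_ell_T_apply11]
  ring

theorem lrpd_ell_conj_apply11 (g : SL(2, ℤ)) (n : ℤ) :
    (g * T ^ n * g⁻¹) 1 1 = 1 + n * g 0 0 * g 1 0 := by
  have hd := lrpd_ell_det g
  rw [lrpd_ell_mul_apply, lrpd_ell_mul_apply, lrpd_ell_mul_apply, lrpd_ell_inv_apply01,
    lrpd_ell_inv_apply11, lrpd_ell_T_apply00, lrpd_ell_T_apply01, lrpd_ell_T_apply10,
    lrpd_ell_T_apply11]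
  linear_combination hd

/-- conjugates of `T ^ n` have trace `2` -/
theorem lrpd_ell_tr (g : SL(2, ℤ)) (n : ℤ) :
    (g * T ^ n * g⁻¹) 0 0 + (g * T ^ n * g⁻¹) 1 1 = 2 := by
  rw [lrpd_ell_conj_apply00, lrpd_ell_conj_apply11]
  ring

theorem lrpd_ell_col_ne_zero (g : SL(2, ℤ)) : 0 < g 0 0 ^ 2 + g 1 0 ^ 2 := by
  have hd := lrpd_ell_det g
  by_contra h
  have h0 : g 0 0 ^ 2 + g 1 0 ^ 2 = 0 := by nlinarith [sq_nonneg (g 0 0), sq_nonneg (g 1 0)]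
  have h1 : g 0 0 = 0 := by nlinarith [sq_nonneg (g 0 0), sq_nonneg (g 1 0)]
  have h2 : g 1 0 = 0 := by nlinarith [sq_nonneg (g 0 0), sq_nonneg (g 1 0)]
  rw [h1, h2] at hd
  simp at hd

/-- the off-diagonal difference of `g * T ^ n * g⁻¹` -/
theorem lrpd_ell_conj_diff (g : SL(2, ℤ)) (n : ℤ) :
    (g * T ^ n * g⁻¹) 0 1 - (g * T ^ n * g⁻¹) 1 0 = n * (g 0 0 ^ 2 + g 1 0 ^ 2) := by
  rw [lrpd_ell_conj_apply01, lrpd_ell_conj_apply10]
  ring

/-- POSITIVITY: the exponent of a conjugate of `T ^ n` is positive iff `b - c > 0`. -/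
theorem lrpd_ell_pos_iff (g : SL(2, ℤ)) (n : ℤ) :
    0 < n ↔ 0 < (g * T ^ n * g⁻¹) 0 1 - (g * T ^ n * g⁻¹) 1 0 := by
  rw [lrpd_ell_conj_diff]
  have hpos := lrpd_ell_col_ne_zero g
  constructor
  · intro h
    exact mul_pos h hpos
  · intro h
    exact (pos_iff_pos_of_mul_pos h).mpr hpos

/-- the exponent vanishes iff the conjugate is trivial -/
theorem lrpd_ell_conj_eq_one_iff (g : SL(2, ℤ)) (n : ℤ) :
    g * T ^ n * g⁻¹ = 1 ↔ n = 0 := by
  constructor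
  · intro h
    have h1 := lrpd_ell_conj_diff g n
    rw [h] at h1
    have hpos := lrpd_ell_col_ne_zero g
    simp at h1
    rcases h1 with h1 | h1
    · exact h1
    · rw [h1] at hpos
      exact absurd hpos (lt_irrefl 0)
  · intro h
    rw [h, zpow_zero, mul_one, mul_inv_cancel]

/-! ### Classification of the elements of trace `2` -/

/-- an element of `SL(2, ℤ)` with first column `(1, 0)` is a power of `T` -/
theorem lrpd_ell_eq_T_zpow (π : SL(2, ℤ)) (h00 : π 0 0 = 1) (h10 : π 1 0 = 0) :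
    π = T ^ (π 0 1) := by
  have hd := lrpd_ell_det π
  rw [h00, h10, mul_zero, sub_zero, one_mul] at hd
  exact lrpd_ell_ext (by rw [h00, lrpd_ell_T_apply00]) (by rw [lrpd_ell_T_apply01])
    (by rw [h10, lrpd_ell_T_apply10]) (by rw [hd, lrpd_ell_T_apply11])

/-- an element of `SL(2, ℤ)` fixing the first column of `g` is `g * T ^ n * g⁻¹` -/
theorem lrpd_ell_of_fix (π g : SL(2, ℤ))
    (h0 : π 0 0 * g 0 0 + π 0 1 * g 1 0 = g 0 0) (h1 : π 1 0 * g 0 0 + π 1 1 * g 1 0 = g 1 0) :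
    ∃ n : ℤ, π = g * T ^ n * g⁻¹ := by
  have hd := lrpd_ell_det g
  have e00 : (g⁻¹ * π * g) 0 0 = 1 := by
    rw [lrpd_ell_mul_apply, lrpd_ell_mul_apply, lrpd_ell_mul_apply, lrpd_ell_inv_apply00,
      lrpd_ell_inv_apply01]
    linear_combination (g 1 1) * h0 - (g 0 1) * h1 + hd
  have e10 : (g⁻¹ * π * g) 1 0 = 0 := by
    rw [lrpd_ell_mul_apply, lrpd_ell_mul_apply, lrpd_ell_mul_apply, lrpd_ell_inv_apply10,
      lrpd_ell_inv_apply11]
    linear_combination (-(g 1 0)) * h0 + (g 0 0) * h1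
  refine ⟨(g⁻¹ * π * g) 0 1, ?_⟩
  rw [← lrpd_ell_eq_T_zpow _ e00 e10]
  group

/-- (P1) CLASSIFICATION: every element of trace `2` is a conjugate of a power of `T`. -/
theorem lrpd_ell_classify (π : SL(2, ℤ)) (htr : π 0 0 + π 1 1 = 2) :
    ∃ (g : SL(2, ℤ)) (n : ℤ), π = g * T ^ n * g⁻¹ := by
  have hd := lrpd_ell_det π
  have hsq : (π 0 0 - 1) ^ 2 + π 0 1 * π 1 0 = 0 := by
    have h11 : π 1 1 = 2 - π 0 0 := by linarith
    rw [h11] at hd
    linear_combination -hd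
  by_cases hc : π 1 0 = 0
  · -- upper triangular: `π = T ^ b`
    rw [hc, mul_zero, add_zero] at hsq
    have h00 : π 0 0 = 1 := by
      have := pow_eq_zero_iff (two_ne_zero) |>.mp hsq
      linarith
    refine ⟨1, π 0 1, ?_⟩
    rw [one_mul, inv_one, mul_one]
    exact lrpd_ell_eq_T_zpow π h00 hc
  · -- general case: the fixed vector `(α, c) / gcd`
    have hpos : 0 < Int.gcd (π 0 0 - 1) (π 1 0) := Int.gcd_pos_of_ne_zero_right _ hc
    obtain ⟨x, z, hxz, hx, hz⟩ := Int.exists_gcd_one hpos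
    set e : ℤ := (Int.gcd (π 0 0 - 1) (π 1 0) : ℤ) with he
    have he0 : e ≠ 0 := by
      rw [he]
      exact_mod_cast hpos.ne'
    have hcop : IsCoprime x z := Int.isCoprime_iff_gcd_eq_one.mpr hxz
    obtain ⟨g, hg0, hg1⟩ := hcop.exists_SL2_col 0
    have h11 : π 1 1 = 2 - π 0 0 := by linarith
    have hα : π 0 0 = x * e + 1 := by linarith
    -- `x² e + b z = 0`
    have hkey : x ^ 2 * e + π 0 1 * z = 0 := by
      have h1 : e * (x ^ 2 * e + π 0 1 * z) = 0 := by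
        rw [hz, hα] at hsq
        linear_combination hsq
      rcases mul_eq_zero.mp h1 with h2 | h2
      · exact absurd h2 he0
      · exact h2
    obtain ⟨n, hn⟩ := lrpd_ell_of_fix π g
      (by rw [hg0, hg1, hα]; linear_combination hkey)
      (by rw [hg0, hg1, h11, hα, hz]; ring)
    exact ⟨g, n, hn⟩

/-- (P1'), the `g⁻¹ * T ^ n * g` form. -/
theorem lrpd_ell_classify' (π : SL(2, ℤ)) (htr : π 0 0 + π 1 1 = 2) :
    ∃ (g : SL(2, ℤ)) (n : ℤ), π = g⁻¹ * T ^ n * g := by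
  obtain ⟨g, n, h⟩ := lrpd_ell_classify π htr
  exact ⟨g⁻¹, n, by rw [inv_inv]; exact h⟩

/-! ### Positivity and `Ad diag(q, 1)` -/

/-- for an element of trace `2` the off-diagonal entries have opposite signs -/
theorem lrpd_ell_mul_nonpos (π : SL(2, ℤ)) (htr : π 0 0 + π 1 1 = 2) : π 0 1 * π 1 0 ≤ 0 := by
  have hd := lrpd_ell_det π
  have h11 : π 1 1 = 2 - π 0 0 := by linarith
  rw [h11] at hd
  nlinarith [sq_nonneg (π 0 0 - 1)]

/-- for an element of trace `2`: `0 < b - c` iff `0 ≤ b`, `c ≤ 0`, not both zero -/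
theorem lrpd_ell_pos_iff_entries (π : SL(2, ℤ)) (htr : π 0 0 + π 1 1 = 2) :
    0 < π 0 1 - π 1 0 ↔ (0 ≤ π 0 1 ∧ π 1 0 ≤ 0 ∧ (π 0 1 ≠ 0 ∨ π 1 0 ≠ 0)) := by
  have hm := lrpd_ell_mul_nonpos π htr
  constructor
  · intro h
    refine ⟨?_, ?_, ?_⟩
    · by_contra hb
      push Not at hb
      have hc : π 1 0 < 0 := by linarith
      nlinarith
    · by_contra hc
      push Not at hc
      have hb : 0 < π 0 1 := by linarith
      nlinarith
    · by_contra hbc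
      push Not at hbc
      rw [hbc.1, hbc.2] at h
      exact absurd h (lt_irrefl _)
  · rintro ⟨hb, hc, hne⟩
    rcases hne with hne | hne
    · have : 0 < π 0 1 := lt_of_le_of_ne hb (Ne.symm hne)
      linarith
    · have : π 1 0 < 0 := lt_of_le_of_ne hc hne
      linarith

/-- (P2'') POSITIVITY IS PRESERVED BY `Ad diag(q, 1)`: if `π, π'` have trace `2`,
`π' 0 1 = q * π 0 1` and `q * π' 1 0 = π 1 0` with `0 < q`, then `π'` is positive iff `π` is. -/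
theorem lrpd_ell_pos_scale (q : ℤ) (hq : 0 < q) (π π' : SL(2, ℤ))
    (htr : π 0 0 + π 1 1 = 2) (htr' : π' 0 0 + π' 1 1 = 2)
    (h01 : π' 0 1 = q * π 0 1) (h10 : q * π' 1 0 = π 1 0) :
    0 < π' 0 1 - π' 1 0 ↔ 0 < π 0 1 - π 1 0 := by
  rw [lrpd_ell_pos_iff_entries π htr, lrpd_ell_pos_iff_entries π' htr', h01, ← h10]
  constructor
  · rintro ⟨hb, hc, hne⟩
    refine ⟨?_, ?_, ?_⟩
    · by_contra h
      push Not at h
      nlinarith
    · exact mul_nonpos_of_nonneg_of_nonpos hq.le hc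
    · rcases hne with hne | hne
      · left
        intro h
        exact hne (by rw [h, mul_zero])
      · right
        exact mul_ne_zero hq.ne' hne
  · rintro ⟨hb, hc, hne⟩
    refine ⟨mul_nonneg hq.le hb, ?_, ?_⟩
    · by_contra h
      push Not at h
      nlinarith
    · rcases hne with hne | hne
      · left
        exact mul_ne_zero hq.ne' hne
      · right
        intro h
        exact hne (by rw [h, mul_zero])

/-! ### The normaliser of `T ^ h` -/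

/-- (P3) NORMALISER: `u * T ^ h * u⁻¹ = T ^ h'` with `h ≠ 0` forces `h' = h` and `u = ± T ^ k`. -/
theorem lrpd_ell_normalizer (u : SL(2, ℤ)) (h h' : ℤ) (hh : h ≠ 0)
    (H : u * T ^ h * u⁻¹ = T ^ h') : h' = h ∧ ∃ k : ℤ, u = T ^ k ∨ u = -T ^ k := by
  have e10 := lrpd_ell_conj_apply10 u h
  have e01 := lrpd_ell_conj_apply01 u h
  rw [H, lrpd_ell_T_apply10] at e10
  rw [H, lrpd_ell_T_apply01] at e01
  have hu10 : u 1 0 = 0 := by
    have : h * u 1 0 ^ 2 = 0 := by linarith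
    rcases mul_eq_zero.mp this with h1 | h1
    · exact absurd h1 hh
    · exact pow_eq_zero_iff (two_ne_zero) |>.mp h1
  have hd := lrpd_ell_det u
  rw [hu10, mul_zero, sub_zero] at hd
  rcases Int.eq_one_or_neg_one_of_mul_eq_one' hd with ⟨h0, h1⟩ | ⟨h0, h1⟩
  · refine ⟨by rw [e01, h0]; ring, u 0 1, Or.inl ?_⟩
    exact lrpd_ell_eq_T_zpow u h0 hu10
  · refine ⟨by rw [e01, h0]; ring, -(u 0 1), Or.inr ?_⟩
    apply lrpd_ell_ext
    · rw [Matrix.SpecialLinearGroup.coe_neg, Matrix.neg_apply, lrpd_ell_T_apply00, h0]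
    · rw [Matrix.SpecialLinearGroup.coe_neg, Matrix.neg_apply, lrpd_ell_T_apply01, neg_neg]
    · rw [Matrix.SpecialLinearGroup.coe_neg, Matrix.neg_apply, lrpd_ell_T_apply10, hu10, neg_zero]
    · rw [Matrix.SpecialLinearGroup.coe_neg, Matrix.neg_apply, lrpd_ell_T_apply11, h1]

/-- (P3') UNIQUENESS of the exponent and of the conjugator up to `± T ^ k`. -/
theorem lrpd_ell_unique (g g' : SL(2, ℤ)) (n n' : ℤ) (hn : n ≠ 0)
    (H : g * T ^ n * g⁻¹ = g' * T ^ n' * g'⁻¹) :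
    n' = n ∧ ∃ k : ℤ, g' = g * T ^ k ∨ g' = -(g * T ^ k) := by
  have hn' : n' ≠ 0 := by
    intro h0
    rw [h0, zpow_zero, mul_one, mul_inv_cancel] at H
    exact hn ((lrpd_ell_conj_eq_one_iff g n).mp H)
  have H' : (g⁻¹ * g') * T ^ n' * (g⁻¹ * g')⁻¹ = T ^ n := by
    have : (g⁻¹ * g') * T ^ n' * (g⁻¹ * g')⁻¹ = g⁻¹ * (g' * T ^ n' * g'⁻¹) * g := by group
    rw [this, ← H]
    group
  obtain ⟨h1, k, hk⟩ := lrpd_ell_normalizer (g⁻¹ * g') n' n hn' H'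
  refine ⟨h1.symm, k, ?_⟩
  rcases hk with hk | hk
  · left
    rw [← hk]
    group
  · right
    have : g' = g * (g⁻¹ * g') := by group
    rw [this, hk, mul_neg]

/-! ### Trace `-2` -/

/-- (P5) every element of trace `-2` is minus a conjugate of a power of `T`. -/
theorem lrpd_ell_tr_neg (π : SL(2, ℤ)) (htr : π 0 0 + π 1 1 = -2) :
    ∃ (g : SL(2, ℤ)) (n : ℤ), π = -(g * T ^ n * g⁻¹) := by
  have h : (-π) 0 0 + (-π) 1 1 = 2 := by
    rw [Matrix.SpecialLinearGroup.coe_neg, Matrix.neg_apply, Matrix.neg_apply]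
    linarith
  obtain ⟨g, n, hn⟩ := lrpd_ell_classify (-π) h
  exact ⟨g, n, by rw [← hn, neg_neg]⟩

/-! ### Elliptic elements -/

/-- `γ` is conjugate to a power of `S` or to a power of `S * T` -/
def lrpd_ell_IsEllConj (γ : SL(2, ℤ)) : Prop :=
  ∃ g : SL(2, ℤ), (∃ k : ℕ, γ = g * S ^ k * g⁻¹) ∨ (∃ k : ℕ, γ = g * (S * T) ^ k * g⁻¹)

theorem lrpd_ell_isEllConj_of_conj (h γ : SL(2, ℤ)) (H : lrpd_ell_IsEllConj (h * γ * h⁻¹)) :
    lrpd_ell_IsEllConj γ := by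
  obtain ⟨g, hg⟩ := H
  refine ⟨h⁻¹ * g, ?_⟩
  rcases hg with ⟨k, hk⟩ | ⟨k, hk⟩
  · left
    refine ⟨k, ?_⟩
    have : γ = h⁻¹ * (h * γ * h⁻¹) * h := by group
    rw [this, hk]
    group
  · right
    refine ⟨k, ?_⟩
    have : γ = h⁻¹ * (h * γ * h⁻¹) * h := by group
    rw [this, hk]
    group

theorem lrpd_ell_Tconj_apply00 (γ : SL(2, ℤ)) (k : ℤ) :
    (T ^ k * γ * (T ^ k)⁻¹) 0 0 = γ 0 0 + k * γ 1 0 := by
  simp only [lrpd_ell_mul_apply, lrpd_ell_inv_apply00, lrpd_ell_inv_apply01,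
    lrpd_ell_inv_apply10, lrpd_ell_inv_apply11, lrpd_ell_T_apply00, lrpd_ell_T_apply01,
    lrpd_ell_T_apply10, lrpd_ell_T_apply11]
  ring

theorem lrpd_ell_Tconj_apply01 (γ : SL(2, ℤ)) (k : ℤ) :
    (T ^ k * γ * (T ^ k)⁻¹) 0 1 = γ 0 1 + k * (γ 1 1 - γ 0 0) - k ^ 2 * γ 1 0 := by
  simp only [lrpd_ell_mul_apply, lrpd_ell_inv_apply00, lrpd_ell_inv_apply01,
    lrpd_ell_inv_apply10, lrpd_ell_inv_apply11, lrpd_ell_T_apply00, lrpd_ell_T_apply01,
    lrpd_ell_T_apply10, lrpd_ell_T_apply11]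
  ring

theorem lrpd_ell_Tconj_apply10 (γ : SL(2, ℤ)) (k : ℤ) :
    (T ^ k * γ * (T ^ k)⁻¹) 1 0 = γ 1 0 := by
  simp only [lrpd_ell_mul_apply, lrpd_ell_inv_apply00, lrpd_ell_inv_apply01,
    lrpd_ell_inv_apply10, lrpd_ell_inv_apply11, lrpd_ell_T_apply00, lrpd_ell_T_apply01,
    lrpd_ell_T_apply10, lrpd_ell_T_apply11]
  ring

theorem lrpd_ell_Tconj_apply11 (γ : SL(2, ℤ)) (k : ℤ) :
    (T ^ k * γ * (T ^ k)⁻¹) 1 1 = γ 1 1 - k * γ 1 0 := by
  simp only [lrpd_ell_mul_apply, lrpd_ell_inv_apply00, lrpd_ell_inv_apply01,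
    lrpd_ell_inv_apply10, lrpd_ell_inv_apply11, lrpd_ell_T_apply00, lrpd_ell_T_apply01,
    lrpd_ell_T_apply10, lrpd_ell_T_apply11]
  ring

theorem lrpd_ell_S_apply : (S : SL(2, ℤ)) 0 0 = 0 ∧ (S : SL(2, ℤ)) 0 1 = -1 ∧
    (S : SL(2, ℤ)) 1 0 = 1 ∧ (S : SL(2, ℤ)) 1 1 = 0 := by decide

theorem lrpd_ell_Sconj_apply (γ : SL(2, ℤ)) :
    (S * γ * S⁻¹) 0 0 = γ 1 1 ∧ (S * γ * S⁻¹) 0 1 = -γ 1 0 ∧
      (S * γ * S⁻¹) 1 0 = -γ 0 1 ∧ (S * γ * S⁻¹) 1 1 = γ 0 0 := by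
  obtain ⟨s00, s01, s10, s11⟩ := lrpd_ell_S_apply
  refine ⟨?_, ?_, ?_, ?_⟩ <;>
  · simp only [lrpd_ell_mul_apply, lrpd_ell_inv_apply00, lrpd_ell_inv_apply01,
      lrpd_ell_inv_apply10, lrpd_ell_inv_apply11, s00, s01, s10, s11]
    ring

/-- the six normal forms with `γ 0 0 = 0`, `γ 1 0 = ± 1`, trace in `{0, 1, -1}` -/
theorem lrpd_ell_ell_base (γ : SL(2, ℤ)) (h00 : γ 0 0 = 0) (hc : γ 1 0 = 1 ∨ γ 1 0 = -1)
    (ht : γ 1 1 = 0 ∨ γ 1 1 = 1 ∨ γ 1 1 = -1) : lrpd_ell_IsEllConj γ := by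
  have hd := lrpd_ell_det γ
  rw [h00, zero_mul, zero_sub] at hd
  rcases hc with hc | hc
  · have hb : γ 0 1 = -1 := by rw [hc] at hd; linarith
    rcases ht with ht | ht | ht
    · refine ⟨1, Or.inl ⟨1, ?_⟩⟩
      apply lrpd_ell_ext
      · rw [h00]; decide
      · rw [hb]; decide
      · rw [hc]; decide
      · rw [ht]; decide
    · refine ⟨1, Or.inr ⟨1, ?_⟩⟩
      apply lrpd_ell_ext
      · rw [h00]; decide
      · rw [hb]; decide
      · rw [hc]; decide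
      · rw [ht]; decide
    · refine ⟨S⁻¹, Or.inr ⟨2, ?_⟩⟩
      apply lrpd_ell_ext
      · rw [h00]; decide
      · rw [hb]; decide
      · rw [hc]; decide
      · rw [ht]; decide
  · have hb : γ 0 1 = 1 := by rw [hc] at hd; linarith
    rcases ht with ht | ht | ht
    · refine ⟨1, Or.inl ⟨3, ?_⟩⟩
      apply lrpd_ell_ext
      · rw [h00]; decide
      · rw [hb]; decide
      · rw [hc]; decide
      · rw [ht]; decide
    · refine ⟨S⁻¹, Or.inr ⟨5, ?_⟩⟩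
      apply lrpd_ell_ext
      · rw [h00]; decide
      · rw [hb]; decide
      · rw [hc]; decide
      · rw [ht]; decide
    · refine ⟨1, Or.inr ⟨4, ?_⟩⟩
      apply lrpd_ell_ext
      · rw [h00]; decide
      · rw [hb]; decide
      · rw [hc]; decide
      · rw [ht]; decide

/-- rounding: `m + 2 k c` can be brought into `[-|c|, |c|]` -/
theorem lrpd_ell_round (m c : ℤ) (hc : c ≠ 0) : ∃ k : ℤ, (m + 2 * k * c) ^ 2 ≤ c ^ 2 := by
  have key : ∀ C : ℤ, 0 < C → ∃ k : ℤ, (m + 2 * k * C) ^ 2 ≤ C ^ 2 := by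
    intro C hC
    have h2C : (0 : ℤ) < 2 * C := by linarith
    have hr0 := Int.emod_nonneg m h2C.ne'
    have hr1 := Int.emod_lt_of_pos m h2C
    have hdiv := Int.emod_add_mul_ediv m (2 * C)
    by_cases hle : m % (2 * C) ≤ C
    · refine ⟨-(m / (2 * C)), ?_⟩
      have : m + 2 * -(m / (2 * C)) * C = m % (2 * C) := by linarith
      rw [this]
      nlinarith
    · push Not at hle
      refine ⟨-(m / (2 * C)) - 1, ?_⟩
      have : m + 2 * (-(m / (2 * C)) - 1) * C = m % (2 * C) - 2 * C := by linarith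
      rw [this]
      nlinarith
  rcases lt_or_gt_of_ne hc with h | h
  · obtain ⟨k, hk⟩ := key (-c) (by linarith)
    refine ⟨-k, ?_⟩
    have : m + 2 * -k * c = m + 2 * k * -c := by ring
    rw [this]
    calc (m + 2 * k * -c) ^ 2 ≤ (-c) ^ 2 := hk
      _ = c ^ 2 := by ring
  · exact key c h

/-- the arithmetic of the descent step -/
theorem lrpd_ell_descent_ineq (A B C D : ℤ) (hdet : A * D - B * C = 1) (htr : (A + D) ^ 2 < 4)
    (hAD : (A - D) ^ 2 ≤ C ^ 2) (hC : 4 ≤ C ^ 2) : B ^ 2 < C ^ 2 := by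
  have h4 : 4 * (B * C) = (A + D) ^ 2 - (A - D) ^ 2 - 4 := by linear_combination (-4) * hdet
  have hlo : -(4 + C ^ 2) ≤ 4 * (B * C) := by nlinarith [sq_nonneg (A + D)]
  have hhi : 4 * (B * C) ≤ 4 + C ^ 2 := by nlinarith [sq_nonneg (A - D), sq_nonneg C]
  have hsq : (4 * (B * C)) ^ 2 ≤ (4 + C ^ 2) ^ 2 := sq_le_sq' hlo hhi
  by_contra hB
  push Not at hB
  have h16 : 16 * (C ^ 2 * C ^ 2) ≤ (4 + C ^ 2) ^ 2 := by
    have := mul_le_mul_of_nonneg_right hB (sq_nonneg C)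
    nlinarith
  nlinarith [mul_pos (show (0 : ℤ) < 3 * C ^ 2 - 4 by linarith)
    (show (0 : ℤ) < 5 * C ^ 2 + 4 by linarith)]

theorem lrpd_ell_elliptic_aux : ∀ n : ℕ, ∀ γ : SL(2, ℤ), (γ 1 0).natAbs = n →
    (γ 0 0 + γ 1 1) ^ 2 < 4 → lrpd_ell_IsEllConj γ := by
  intro n
  induction n using Nat.strong_induction_on with
  | _ n ih =>
    intro γ hn htr
    have hd := lrpd_ell_det γ
    have ht1 : γ 0 0 + γ 1 1 ≤ 1 := by
      by_contra h
      push Not at h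
      nlinarith
    have ht2 : -1 ≤ γ 0 0 + γ 1 1 := by
      by_contra h
      push Not at h
      nlinarith
    have hc0 : γ 1 0 ≠ 0 := by
      intro h0
      rw [h0, mul_zero, sub_zero] at hd
      rcases Int.eq_one_or_neg_one_of_mul_eq_one' hd with ⟨h1, h2⟩ | ⟨h1, h2⟩
      · rw [h1, h2] at htr
        norm_num at htr
      · rw [h1, h2] at htr
        norm_num at htr
    have hn0 : n ≠ 0 := by
      intro h0
      rw [h0] at hn
      exact hc0 (Int.natAbs_eq_zero.mp hn)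
    by_cases hn1 : n = 1
    · -- `c = ± 1`
      have hc : γ 1 0 = 1 ∨ γ 1 0 = -1 := by
        rw [hn1] at hn
        rcases Int.natAbs_eq_iff.mp hn with h | h
        · left; exact_mod_cast h
        · right; exact_mod_cast h
      have hcsq : γ 1 0 * γ 1 0 = 1 := by
        rcases hc with h | h <;> rw [h] <;> norm_num
      apply lrpd_ell_isEllConj_of_conj (T ^ (-(γ 0 0 * γ 1 0)))
      apply lrpd_ell_ell_base
      · rw [lrpd_ell_Tconj_apply00]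
        linear_combination (-(γ 0 0)) * hcsq
      · rw [lrpd_ell_Tconj_apply10]
        exact hc
      · rw [lrpd_ell_Tconj_apply11]
        have : γ 1 1 - -(γ 0 0 * γ 1 0) * γ 1 0 = γ 0 0 + γ 1 1 := by
          linear_combination (γ 0 0) * hcsq
        rw [this]
        omega
    · -- `|c| ≥ 2`: descent
      have hn2 : 2 ≤ n := by omega
      obtain ⟨k, hk⟩ := lrpd_ell_round (γ 0 0 - γ 1 1) (γ 1 0) hc0
      set γ' : SL(2, ℤ) := T ^ k * γ * (T ^ k)⁻¹ with hγ'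
      have e00 : γ' 0 0 = γ 0 0 + k * γ 1 0 := lrpd_ell_Tconj_apply00 γ k
      have e10 : γ' 1 0 = γ 1 0 := lrpd_ell_Tconj_apply10 γ k
      have e11 : γ' 1 1 = γ 1 1 - k * γ 1 0 := lrpd_ell_Tconj_apply11 γ k
      have hd' := lrpd_ell_det γ'
      have hC : 4 ≤ γ 1 0 ^ 2 := by
        have h2 : (2 : ℤ) ≤ |γ 1 0| := by
          rw [Int.abs_eq_natAbs, hn]
          exact_mod_cast hn2
        have := sq_abs (γ 1 0)
        nlinarith [abs_nonneg (γ 1 0)]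
      have hlt : γ' 0 1 ^ 2 < γ 1 0 ^ 2 := by
        apply lrpd_ell_descent_ineq (γ' 0 0) (γ' 0 1) (γ 1 0) (γ' 1 1)
        · rw [← e10]; exact hd'
        · rw [e00, e11]
          have : γ 0 0 + k * γ 1 0 + (γ 1 1 - k * γ 1 0) = γ 0 0 + γ 1 1 := by ring
          rw [this]; exact htr
        · rw [e00, e11]
          have : γ 0 0 + k * γ 1 0 - (γ 1 1 - k * γ 1 0) = γ 0 0 - γ 1 1 + 2 * k * γ 1 0 := by ring
          rw [this]; exact hk
        · exact hC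
      obtain ⟨s00, s01, s10, s11⟩ := lrpd_ell_Sconj_apply γ'
      apply lrpd_ell_isEllConj_of_conj (T ^ k)
      apply lrpd_ell_isEllConj_of_conj S
      refine ih ((S * γ' * S⁻¹) 1 0).natAbs ?_ _ rfl ?_
      · rw [s10, Int.natAbs_neg, ← hn]
        exact Int.natAbs_lt_iff_sq_lt.mpr hlt
      · rw [s00, s11, e00, e11]
        have : γ 1 1 - k * γ 1 0 + (γ 0 0 + k * γ 1 0) = γ 0 0 + γ 1 1 := by ring
        rw [this]; exact htr

/-- (P4) ELLIPTIC CLASSIFICATION: every element of `SL(2, ℤ)` with `tr² < 4` is conjugate to a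
power of `S` or to a power of `S * T`. -/
theorem lrpd_ell_elliptic (γ : SL(2, ℤ)) (h : (γ 0 0 + γ 1 1) ^ 2 < 4) :
    ∃ g : SL(2, ℤ), (∃ k : ℕ, γ = g * S ^ k * g⁻¹) ∨ (∃ k : ℕ, γ = g * (S * T) ^ k * g⁻¹) :=
  lrpd_ell_elliptic_aux _ γ rfl h

/-- (P4'), the `h⁻¹ * _ * h` form. -/
theorem lrpd_ell_elliptic' (γ : SL(2, ℤ)) (h : (γ 0 0 + γ 1 1) ^ 2 < 4) :
    ∃ g : SL(2, ℤ), (∃ k : ℕ, γ = g⁻¹ * S ^ k * g) ∨ (∃ k : ℕ, γ = g⁻¹ * (S * T) ^ k * g) := by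
  obtain ⟨g, hg⟩ := lrpd_ell_elliptic γ h
  refine ⟨g⁻¹, ?_⟩
  rw [inv_inv]
  exact hg

/-! ### Traces of conjugates and of the powers of `S`, `S * T` -/

theorem lrpd_ell_tr_conj (h γ : SL(2, ℤ)) :
    (h * γ * h⁻¹) 0 0 + (h * γ * h⁻¹) 1 1 = γ 0 0 + γ 1 1 := by
  have hd := lrpd_ell_det h
  simp only [lrpd_ell_mul_apply, lrpd_ell_inv_apply00, lrpd_ell_inv_apply01,
    lrpd_ell_inv_apply10, lrpd_ell_inv_apply11]
  linear_combination (γ 0 0 + γ 1 1) * hd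

theorem lrpd_ell_tr_conj' (h γ : SL(2, ℤ)) :
    (h⁻¹ * γ * h) 0 0 + (h⁻¹ * γ * h) 1 1 = γ 0 0 + γ 1 1 := by
  have := lrpd_ell_tr_conj h⁻¹ γ
  rwa [inv_inv] at this

theorem lrpd_ell_S_pow_four : (S : SL(2, ℤ)) ^ 4 = 1 := by decide

theorem lrpd_ell_U_pow_six : ((S * T : SL(2, ℤ))) ^ 6 = 1 := by decide

/-- the powers of `S` have `tr² ≤ 4` -/
theorem lrpd_ell_S_pow_tr (k : ℕ) : ((S ^ k : SL(2, ℤ)) 0 0 + (S ^ k : SL(2, ℤ)) 1 1) ^ 2 ≤ 4 := by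
  have h : (S : SL(2, ℤ)) ^ k = S ^ (k % 4) := by
    conv_lhs => rw [← Nat.div_add_mod k 4, pow_add, pow_mul, lrpd_ell_S_pow_four, one_pow, one_mul]
  rw [h]
  have hk : k % 4 < 4 := Nat.mod_lt _ (by norm_num)
  interval_cases (k % 4) <;> decide

/-- the powers of `S * T` have `tr² ≤ 4` -/
theorem lrpd_ell_U_pow_tr (k : ℕ) :
    (((S * T) ^ k : SL(2, ℤ)) 0 0 + ((S * T) ^ k : SL(2, ℤ)) 1 1) ^ 2 ≤ 4 := by
  have h : (S * T : SL(2, ℤ)) ^ k = (S * T) ^ (k % 6) := by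
    conv_lhs => rw [← Nat.div_add_mod k 6, pow_add, pow_mul, lrpd_ell_U_pow_six, one_pow, one_mul]
  rw [h]
  have hk : k % 6 < 6 := Nat.mod_lt _ (by norm_num)
  interval_cases (k % 6) <;> decide

/-- conjugates of powers of `S` have `tr² ≤ 4` -/
theorem lrpd_ell_conj_S_pow_tr (h : SL(2, ℤ)) (k : ℕ) :
    ((h⁻¹ * S ^ k * h) 0 0 + (h⁻¹ * S ^ k * h) 1 1) ^ 2 ≤ 4 := by
  rw [lrpd_ell_tr_conj']
  exact lrpd_ell_S_pow_tr k

/-- conjugates of powers of `S * T` have `tr² ≤ 4` -/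
theorem lrpd_ell_conj_U_pow_tr (h : SL(2, ℤ)) (k : ℕ) :
    ((h⁻¹ * (S * T) ^ k * h) 0 0 + (h⁻¹ * (S * T) ^ k * h) 1 1) ^ 2 ≤ 4 := by
  rw [lrpd_ell_tr_conj']
  exact lrpd_ell_U_pow_tr k

/-- the matrix trace used by `gh_IsParEll` is `g 0 0 + g 1 1` -/
theorem lrpd_ell_trace_eq (g : SL(2, ℤ)) :
    (g : Matrix (Fin 2) (Fin 2) ℤ).trace = g 0 0 + g 1 1 := by
  rw [Matrix.trace_fin_two]

/-- SUMMARY: `tr² ≤ 4` iff `± 1`-times a conjugate of `T ^ n`, or conjugate to a power of `S`,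
`S * T`. -/
theorem lrpd_ell_parEll_cases (γ : SL(2, ℤ)) (h : (γ 0 0 + γ 1 1) ^ 2 ≤ 4) :
    (∃ (g : SL(2, ℤ)) (n : ℤ), γ = g * T ^ n * g⁻¹) ∨
    (∃ (g : SL(2, ℤ)) (n : ℤ), γ = -(g * T ^ n * g⁻¹)) ∨
    (∃ g : SL(2, ℤ), (∃ k : ℕ, γ = g * S ^ k * g⁻¹) ∨ (∃ k : ℕ, γ = g * (S * T) ^ k * g⁻¹)) := by
  rcases lt_or_eq_of_le h with h1 | h1
  · exact Or.inr (Or.inr (lrpd_ell_elliptic γ h1))
  · have h2 : (γ 0 0 + γ 1 1 - 2) * (γ 0 0 + γ 1 1 + 2) = 0 := by linear_combination h1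
    rcases mul_eq_zero.mp h2 with h3 | h3
    · exact Or.inl (lrpd_ell_classify γ (by linarith))
    · exact Or.inr (Or.inl (lrpd_ell_tr_neg γ (by linarith)))

end Fermat.Agent.LR
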