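import Fermat.Agent.LR.PD.SLevel
import Fermat.Agent.LR.PD.Model.Char
import Fermat.Agent.LR.PD.Ell

/-!
# LR / node [PD]: the pairing `lrpd_OmS Γ` on characters of a subgroup (helper4)

`lrpd_OmS Γ x y := ω (P_x - C_x, P_y - C_y)` (helper28's model form), for characters killing the
elements with `tr² ≤ 4`; independence of the primitives (`lrpd_OmS_eq`), bi-additivity, homogeneity,
antisymmetry and non-degeneracy: (S1)–(S3) of `lrpd_SFam`.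
-/

set_option autoImplicit false

open Matrix ModularGroup
open scoped MatrixGroups

noncomputable section

namespace Fermat.Agent.LR

section Kills

variable {k : Type*} [AddCommGroup k] {Γ : Subgroup SL(2, ℤ)}

theorem lrpd_tr_conj' (h γ : SL(2, ℤ)) : lrpd_tr (h⁻¹ * γ * h) = lrpd_tr γ :=
  lrpd_ell_tr_conj' h γ

theorem lrpd_tr_S_zpow (n : ℤ) : lrpd_tr ((S : SL(2, ℤ)) ^ n) ^ 2 ≤ 4 := by
  have h4 : (S : SL(2, ℤ)) ^ (4 : ℤ) = 1 := by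
    have := lrpd_ell_S_pow_four
    exact_mod_cast this
  rw [zpow_eq_zpow_emod n h4]
  have h0 : 0 ≤ n % 4 := Int.emod_nonneg _ (by norm_num)
  obtain ⟨m, hm⟩ := Int.eq_ofNat_of_zero_le h0
  rw [hm, zpow_natCast]
  exact lrpd_ell_S_pow_tr m

theorem lrpd_tr_U_zpow (n : ℤ) : lrpd_tr ((S * T : SL(2, ℤ)) ^ n) ^ 2 ≤ 4 := by
  have h6 : (S * T : SL(2, ℤ)) ^ (6 : ℤ) = 1 := by
    have := lrpd_ell_U_pow_six
    exact_mod_cast this
  rw [zpow_eq_zpow_emod n h6]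
  have h0 : 0 ≤ n % 6 := Int.emod_nonneg _ (by norm_num)
  obtain ⟨m, hm⟩ := Int.eq_ofNat_of_zero_le h0
  rw [hm, zpow_natCast]
  exact lrpd_ell_U_pow_tr m

theorem lrpd_tr_T_zpow (n : ℤ) : lrpd_tr ((T : SL(2, ℤ)) ^ n) ^ 2 ≤ 4 := by
  unfold lrpd_tr
  rw [lrpd_ell_T_apply00, lrpd_ell_T_apply11]
  norm_num

/-- a character killing the elements with `tr² ≤ 4` kills the conjugates of the powers of `σ`
as soon as these powers have `tr² ≤ 4` -/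
theorem lrpd_kills_of_PE {x : Additive Γ →+ k} (hx : lrpd_PE Γ x) (σ : SL(2, ℤ))
    (hσ : ∀ n : ℤ, lrpd_tr (σ ^ n) ^ 2 ≤ 4) : lrpdm_Kills Γ x σ := by
  intro g n h
  refine hx ⟨_, h⟩ ?_
  show lrpd_tr (g⁻¹ * σ ^ n * g) ^ 2 ≤ 4
  rw [lrpd_tr_conj']
  exact hσ n

theorem lrpd_killsS {x : Additive Γ →+ k} (hx : lrpd_PE Γ x) : lrpdm_Kills Γ x S :=
  lrpd_kills_of_PE hx S lrpd_tr_S_zpow

theorem lrpd_killsU {x : Additive Γ →+ k} (hx : lrpd_PE Γ x) : lrpdm_Kills Γ x lrpdm_U :=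
  lrpd_kills_of_PE hx lrpdm_U lrpd_tr_U_zpow

theorem lrpd_killsT {x : Additive Γ →+ k} (hx : lrpd_PE Γ x) : lrpdm_Kills Γ x T :=
  lrpd_kills_of_PE hx T lrpd_tr_T_zpow

/-- conversely (classification of the elements with `tr² ≤ 4`) -/
theorem lrpd_PE_of_kills (hneg : (-1 : SL(2, ℤ)) ∈ Γ) {x : Additive Γ →+ k}
    (hS : lrpdm_Kills Γ x S) (hU : lrpdm_Kills Γ x lrpdm_U) (hT : lrpdm_Kills Γ x T) :
    lrpd_PE Γ x := by
  intro γ hγ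
  have hneg1 : lrpdm_ev Γ x ⟨-1, hneg⟩ = 0 := by
    have h := hS 1 2 (by
      have : (1 : SL(2, ℤ))⁻¹ * S ^ (2 : ℤ) * 1 = -1 := by decide
      rw [this]; exact hneg)
    have e : (⟨(1 : SL(2, ℤ))⁻¹ * S ^ (2 : ℤ) * 1, by
      have : (1 : SL(2, ℤ))⁻¹ * S ^ (2 : ℤ) * 1 = -1 := by decide
      rw [this]; exact hneg⟩ : Γ) = ⟨-1, hneg⟩ := by
      apply Subtype.ext
      show (1 : SL(2, ℤ))⁻¹ * S ^ (2 : ℤ) * 1 = -1
      decide
    rw [e] at h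
    exact h
  show lrpdm_ev Γ x γ = 0
  rcases lrpd_ell_parEll_cases (γ : SL(2, ℤ)) hγ with ⟨g, n, h⟩ | ⟨g, n, h⟩ | ⟨g, h | h⟩
  · have hm : (g⁻¹)⁻¹ * T ^ n * g⁻¹ ∈ Γ := by rw [inv_inv, ← h]; exact γ.2
    have := hT g⁻¹ n hm
    have e : (⟨_, hm⟩ : Γ) = γ := Subtype.ext (by show (g⁻¹)⁻¹ * T ^ n * g⁻¹ = γ; rw [inv_inv, ← h])
    rwa [e] at this
  · have hπ : g * T ^ n * g⁻¹ = -(γ : SL(2, ℤ)) := by rw [h, neg_neg]
    have hm : (g⁻¹)⁻¹ * T ^ n * g⁻¹ ∈ Γ := by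
      rw [inv_inv, hπ]
      have : -(γ : SL(2, ℤ)) = (-1 : SL(2, ℤ)) * γ := by rw [neg_mul, one_mul]
      rw [this]
      exact mul_mem hneg γ.2
    have h1 := hT g⁻¹ n hm
    have e : γ = (⟨-1, hneg⟩ : Γ) * ⟨_, hm⟩ := by
      apply Subtype.ext
      show (γ : SL(2, ℤ)) = (-1 : SL(2, ℤ)) * ((g⁻¹)⁻¹ * T ^ n * g⁻¹)
      rw [inv_inv, hπ, neg_mul, one_mul, neg_neg]
    rw [e, lrpdm_ev_mul, hneg1, h1, add_zero]
  · obtain ⟨m, hm⟩ := h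
    have hm' : (g⁻¹)⁻¹ * S ^ (m : ℤ) * g⁻¹ ∈ Γ := by
      rw [inv_inv, zpow_natCast, ← hm]; exact γ.2
    have := hS g⁻¹ m hm'
    have e : (⟨_, hm'⟩ : Γ) = γ :=
      Subtype.ext (by show (g⁻¹)⁻¹ * S ^ (m : ℤ) * g⁻¹ = γ; rw [inv_inv, zpow_natCast, ← hm])
    rwa [e] at this
  · obtain ⟨m, hm⟩ := h
    have hm' : (g⁻¹)⁻¹ * lrpdm_U ^ (m : ℤ) * g⁻¹ ∈ Γ := by
      rw [inv_inv, zpow_natCast, ← hm]; exact γ.2
    have := hU g⁻¹ m hm'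
    have e : (⟨_, hm'⟩ : Γ) = γ :=
      Subtype.ext (by show (g⁻¹)⁻¹ * lrpdm_U ^ (m : ℤ) * g⁻¹ = γ; rw [inv_inv, zpow_natCast, ← hm])
    rwa [e] at this

end Kills

section Def

variable {k : Type*} [Field k] {Γ : Subgroup SL(2, ℤ)}

/-- a chosen `U`-invariant primitive -/
def lrpd_PU {x : Additive Γ →+ k} (hx : lrpd_PE Γ x) : SL(2, ℤ) → k :=
  (lrpdm_exists_prim_inv x lrpdm_U (lrpd_killsU hx)).choose

theorem lrpd_PU_prim {x : Additive Γ →+ k} (hx : lrpd_PE Γ x) : lrpdm_IsPrim Γ x (lrpd_PU hx) :=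
  (lrpdm_exists_prim_inv x lrpdm_U (lrpd_killsU hx)).choose_spec.1

theorem lrpd_PU_inv {x : Additive Γ →+ k} (hx : lrpd_PE Γ x) (g : SL(2, ℤ)) :
    lrpd_PU hx (lrpdm_U * g) = lrpd_PU hx g :=
  (lrpdm_exists_prim_inv x lrpdm_U (lrpd_killsU hx)).choose_spec.2 g

/-- a chosen `T`-invariant primitive -/
def lrpd_CT {x : Additive Γ →+ k} (hx : lrpd_PE Γ x) : SL(2, ℤ) → k :=
  (lrpdm_exists_prim_inv x T (lrpd_killsT hx)).choose

theorem lrpd_CT_prim {x : Additive Γ →+ k} (hx : lrpd_PE Γ x) : lrpdm_IsPrim Γ x (lrpd_CT hx) :=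
  (lrpdm_exists_prim_inv x T (lrpd_killsT hx)).choose_spec.1

theorem lrpd_CT_inv {x : Additive Γ →+ k} (hx : lrpd_PE Γ x) (g : SL(2, ℤ)) :
    lrpd_CT hx (T * g) = lrpd_CT hx g :=
  (lrpdm_exists_prim_inv x T (lrpd_killsT hx)).choose_spec.2 g

/-- a chosen `S`-invariant primitive -/
def lrpd_ES {x : Additive Γ →+ k} (hx : lrpd_PE Γ x) : SL(2, ℤ) → k :=
  (lrpdm_exists_prim_inv x S (lrpd_killsS hx)).choose

theorem lrpd_ES_prim {x : Additive Γ →+ k} (hx : lrpd_PE Γ x) : lrpdm_IsPrim Γ x (lrpd_ES hx) :=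
  (lrpdm_exists_prim_inv x S (lrpd_killsS hx)).choose_spec.1

theorem lrpd_ES_inv {x : Additive Γ →+ k} (hx : lrpd_PE Γ x) (g : SL(2, ℤ)) :
    lrpd_ES hx (S * g) = lrpd_ES hx g :=
  (lrpdm_exists_prim_inv x S (lrpd_killsS hx)).choose_spec.2 g

/-- the function `y_x = P_x - C_x` on `X` -/
def lrpd_yx {x : Additive Γ →+ k} (hx : lrpd_PE Γ x) : lrpdm_X Γ → k :=
  lrpdm_diff (lrpd_PU hx) (lrpd_CT hx) (lrpd_PU_prim hx) (lrpd_CT_prim hx)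

open Classical in
/-- **the pairing** on the characters of `Γ` (junk unless `Γ` has finite index and both
characters kill the elements with `tr² ≤ 4`) -/
def lrpd_OmS (Γ : Subgroup SL(2, ℤ)) (x y : Additive Γ →+ k) : k :=
  if hfin : Γ.FiniteIndex then
    if h : lrpd_PE Γ x ∧ lrpd_PE Γ y then
      haveI := hfin
      lrpdm_omega (lrpd_yx h.1) (lrpd_yx h.2)
    else 0
  else 0

variable [Γ.FiniteIndex]

/-- first variable: independence of the primitives -/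
theorem lrpd_omega_indep_left {x x' : Additive Γ →+ k} (hx' : lrpd_PE Γ x')
    (P C P₁ C₁ : SL(2, ℤ) → k)
    (hP : lrpdm_IsPrim Γ x P) (hC : lrpdm_IsPrim Γ x C)
    (hPU : ∀ g, P (lrpdm_U * g) = P g) (hCT : ∀ g, C (T * g) = C g)
    (hP₁ : lrpdm_IsPrim Γ x P₁) (hC₁ : lrpdm_IsPrim Γ x C₁)
    (hPU₁ : ∀ g, P₁ (lrpdm_U * g) = P₁ g) (hCT₁ : ∀ g, C₁ (T * g) = C₁ g)
    (P' C' : SL(2, ℤ) → k) (hP' : lrpdm_IsPrim Γ x' P') (hC' : lrpdm_IsPrim Γ x' C')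
    (hPU' : ∀ g, P' (lrpdm_U * g) = P' g) (hCT' : ∀ g, C' (T * g) = C' g) :
    lrpdm_omega (lrpdm_diff P C hP hC) (lrpdm_diff P' C' hP' hC')
      = lrpdm_omega (lrpdm_diff P₁ C₁ hP₁ hC₁) (lrpdm_diff P' C' hP' hC') := by
  set u := lrpdm_diff P P₁ hP hP₁ with hu
  set v := lrpdm_diff C C₁ hC hC₁ with hv
  have e : lrpdm_diff P C hP hC = lrpdm_diff P₁ C₁ hP₁ hC₁ + (u - v) := by
    funext ξ
    induction ξ using QuotientGroup.induction_on with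
    | H g =>
      simp only [Pi.add_apply, Pi.sub_apply, hu, hv, lrpdm_diff_mk]
      ring
  have huU : ∀ ξ, u (lrpdm_U • ξ) = u ξ := by
    intro ξ
    induction ξ using QuotientGroup.induction_on with
    | H g => simp only [hu, lrpdm_smul_mk, lrpdm_diff_mk, hPU, hPU₁]
  have hvT : ∀ ξ, v (T • ξ) = v ξ := by
    intro ξ
    induction ξ using QuotientGroup.induction_on with
    | H g => simp only [hv, lrpdm_smul_mk, lrpdm_diff_mk, hCT, hCT₁]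
  rw [e, lrpdm_omega_add_left, lrpdm_omega_sub_left,
    lrpdm_omega_invU_left u huU P' C' (lrpd_ES hx') hP' hC' (lrpd_ES_prim hx') hPU' hCT'
      (lrpd_ES_inv hx'),
    lrpdm_omega_invT_left v _ hvT, sub_zero, add_zero]

/-- **independence of the primitives** -/
theorem lrpd_OmS_eq {x x' : Additive Γ →+ k} (hx : lrpd_PE Γ x) (hx' : lrpd_PE Γ x')
    (P C : SL(2, ℤ) → k) (hP : lrpdm_IsPrim Γ x P) (hC : lrpdm_IsPrim Γ x C)
    (hPU : ∀ g, P (lrpdm_U * g) = P g) (hCT : ∀ g, C (T * g) = C g)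
    (P' C' : SL(2, ℤ) → k) (hP' : lrpdm_IsPrim Γ x' P') (hC' : lrpdm_IsPrim Γ x' C')
    (hPU' : ∀ g, P' (lrpdm_U * g) = P' g) (hCT' : ∀ g, C' (T * g) = C' g) :
    lrpd_OmS Γ x x' = lrpdm_omega (lrpdm_diff P C hP hC) (lrpdm_diff P' C' hP' hC') := by
  have hfin : Γ.FiniteIndex := inferInstance
  unfold lrpd_OmS
  rw [dif_pos hfin, dif_pos ⟨hx, hx'⟩]
  unfold lrpd_yx
  rw [lrpd_omega_indep_left hx' (lrpd_PU hx) (lrpd_CT hx) P C (lrpd_PU_prim hx) (lrpd_CT_prim hx)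
    (lrpd_PU_inv hx) (lrpd_CT_inv hx) hP hC hPU hCT (lrpd_PU hx') (lrpd_CT hx') (lrpd_PU_prim hx')
    (lrpd_CT_prim hx') (lrpd_PU_inv hx') (lrpd_CT_inv hx'),
    lrpdm_omega_antisymm,
    lrpd_omega_indep_left hx (lrpd_PU hx') (lrpd_CT hx') P' C' (lrpd_PU_prim hx')
      (lrpd_CT_prim hx') (lrpd_PU_inv hx') (lrpd_CT_inv hx') hP' hC' hPU' hCT' P C hP hC hPU hCT,
    ← lrpdm_omega_antisymm]

omit [Γ.FiniteIndex] in
theorem lrpd_PE_add {x x' : Additive Γ →+ k} (hx : lrpd_PE Γ x) (hx' : lrpd_PE Γ x') :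
    lrpd_PE Γ (x + x') := by
  intro γ hγ
  rw [AddMonoidHom.add_apply, hx γ hγ, hx' γ hγ, add_zero]

omit [Γ.FiniteIndex] in
theorem lrpd_PE_smul (a : k) {x : Additive Γ →+ k} (hx : lrpd_PE Γ x) : lrpd_PE Γ (a • x) := by
  intro γ hγ
  rw [AddMonoidHom.smul_apply, hx γ hγ, smul_zero]

/-- (S1) -/
theorem lrpd_OmS_add_left {x x' y : Additive Γ →+ k} (hx : lrpd_PE Γ x) (hx' : lrpd_PE Γ x')
    (hy : lrpd_PE Γ y) : lrpd_OmS Γ (x + x') y = lrpd_OmS Γ x y + lrpd_OmS Γ x' y := by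
  have hP : lrpdm_IsPrim Γ (x + x') (fun g => lrpd_PU hx g + lrpd_PU hx' g) := fun g γ => by
    show lrpd_PU hx (g * γ) + lrpd_PU hx' (g * γ) = _
    rw [lrpd_PU_prim hx, lrpd_PU_prim hx']
    show _ = lrpd_PU hx g + lrpd_PU hx' g + (x + x') (Additive.ofMul γ)
    rw [AddMonoidHom.add_apply]
    unfold lrpdm_ev
    ring
  have hC : lrpdm_IsPrim Γ (x + x') (fun g => lrpd_CT hx g + lrpd_CT hx' g) := fun g γ => by
    show lrpd_CT hx (g * γ) + lrpd_CT hx' (g * γ) = _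
    rw [lrpd_CT_prim hx, lrpd_CT_prim hx']
    show _ = lrpd_CT hx g + lrpd_CT hx' g + (x + x') (Additive.ofMul γ)
    rw [AddMonoidHom.add_apply]
    unfold lrpdm_ev
    ring
  rw [lrpd_OmS_eq (lrpd_PE_add hx hx') hy _ _ hP hC
      (fun g => by show lrpd_PU hx (lrpdm_U * g) + lrpd_PU hx' (lrpdm_U * g) = _
                   rw [lrpd_PU_inv, lrpd_PU_inv])
      (fun g => by show lrpd_CT hx (T * g) + lrpd_CT hx' (T * g) = _
                   rw [lrpd_CT_inv, lrpd_CT_inv])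
      (lrpd_PU hy) (lrpd_CT hy) (lrpd_PU_prim hy) (lrpd_CT_prim hy) (lrpd_PU_inv hy)
      (lrpd_CT_inv hy),
    lrpd_OmS_eq hx hy (lrpd_PU hx) (lrpd_CT hx) (lrpd_PU_prim hx) (lrpd_CT_prim hx)
      (lrpd_PU_inv hx) (lrpd_CT_inv hx) (lrpd_PU hy) (lrpd_CT hy) (lrpd_PU_prim hy)
      (lrpd_CT_prim hy) (lrpd_PU_inv hy) (lrpd_CT_inv hy),
    lrpd_OmS_eq hx' hy (lrpd_PU hx') (lrpd_CT hx') (lrpd_PU_prim hx') (lrpd_CT_prim hx')
      (lrpd_PU_inv hx') (lrpd_CT_inv hx') (lrpd_PU hy) (lrpd_CT hy) (lrpd_PU_prim hy)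
      (lrpd_CT_prim hy) (lrpd_PU_inv hy) (lrpd_CT_inv hy),
    ← lrpdm_omega_add_left]
  congr 1
  funext ξ
  induction ξ using QuotientGroup.induction_on with
  | H g =>
    simp only [Pi.add_apply, lrpdm_diff_mk]
    ring

/-- (S1') -/
theorem lrpd_OmS_smul_left (a : k) {x y : Additive Γ →+ k} (hx : lrpd_PE Γ x)
    (hy : lrpd_PE Γ y) : lrpd_OmS Γ (a • x) y = a * lrpd_OmS Γ x y := by
  have hP : lrpdm_IsPrim Γ (a • x) (fun g => a * lrpd_PU hx g) := fun g γ => by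
    show a * lrpd_PU hx (g * γ) = _
    rw [lrpd_PU_prim hx]
    show _ = a * lrpd_PU hx g + (a • x) (Additive.ofMul γ)
    rw [AddMonoidHom.smul_apply, smul_eq_mul]
    unfold lrpdm_ev
    ring
  have hC : lrpdm_IsPrim Γ (a • x) (fun g => a * lrpd_CT hx g) := fun g γ => by
    show a * lrpd_CT hx (g * γ) = _
    rw [lrpd_CT_prim hx]
    show _ = a * lrpd_CT hx g + (a • x) (Additive.ofMul γ)
    rw [AddMonoidHom.smul_apply, smul_eq_mul]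
    unfold lrpdm_ev
    ring
  rw [lrpd_OmS_eq (lrpd_PE_smul a hx) hy _ _ hP hC
      (fun g => by show a * lrpd_PU hx (lrpdm_U * g) = _; rw [lrpd_PU_inv])
      (fun g => by show a * lrpd_CT hx (T * g) = _; rw [lrpd_CT_inv])
      (lrpd_PU hy) (lrpd_CT hy) (lrpd_PU_prim hy) (lrpd_CT_prim hy) (lrpd_PU_inv hy)
      (lrpd_CT_inv hy),
    lrpd_OmS_eq hx hy (lrpd_PU hx) (lrpd_CT hx) (lrpd_PU_prim hx) (lrpd_CT_prim hx)
      (lrpd_PU_inv hx) (lrpd_CT_inv hx) (lrpd_PU hy) (lrpd_CT hy) (lrpd_PU_prim hy)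
      (lrpd_CT_prim hy) (lrpd_PU_inv hy) (lrpd_CT_inv hy),
    ← lrpdm_omega_smul_left]
  congr 1
  funext ξ
  induction ξ using QuotientGroup.induction_on with
  | H g =>
    simp only [Pi.smul_apply, smul_eq_mul, lrpdm_diff_mk]
    ring

/-- (S2) -/
theorem lrpd_OmS_skew {x y : Additive Γ →+ k} (hx : lrpd_PE Γ x) (hy : lrpd_PE Γ y) :
    lrpd_OmS Γ x y = - lrpd_OmS Γ y x := by
  rw [lrpd_OmS_eq hx hy (lrpd_PU hx) (lrpd_CT hx) (lrpd_PU_prim hx) (lrpd_CT_prim hx)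
      (lrpd_PU_inv hx) (lrpd_CT_inv hx) (lrpd_PU hy) (lrpd_CT hy) (lrpd_PU_prim hy)
      (lrpd_CT_prim hy) (lrpd_PU_inv hy) (lrpd_CT_inv hy),
    lrpd_OmS_eq hy hx (lrpd_PU hy) (lrpd_CT hy) (lrpd_PU_prim hy) (lrpd_CT_prim hy)
      (lrpd_PU_inv hy) (lrpd_CT_inv hy) (lrpd_PU hx) (lrpd_CT hx) (lrpd_PU_prim hx)
      (lrpd_CT_prim hx) (lrpd_PU_inv hx) (lrpd_CT_inv hx)]
  exact lrpdm_omega_antisymm _ _

/-- (S3) -/
theorem lrpd_OmS_nondeg (hneg : (-1 : SL(2, ℤ)) ∈ Γ) (h2 : (2 : k) ≠ 0) {x : Additive Γ →+ k}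
    (hx : lrpd_PE Γ x) (h : ∀ y : Additive Γ →+ k, lrpd_PE Γ y → lrpd_OmS Γ x y = 0) : x = 0 := by
  refine lrpdm_nondeg hneg h2 (lrpd_PU hx) (lrpd_CT hx) (lrpd_PU_prim hx) (lrpd_CT_prim hx)
    (lrpd_PU_inv hx) (lrpd_CT_inv hx) ?_
  intro x' P' C' hP' hC' hPU' hCT' hS hU hT
  have hx' : lrpd_PE Γ x' := lrpd_PE_of_kills hneg hS hU hT
  rw [← lrpd_OmS_eq hx hx' (lrpd_PU hx) (lrpd_CT hx) (lrpd_PU_prim hx) (lrpd_CT_prim hx)
      (lrpd_PU_inv hx) (lrpd_CT_inv hx) P' C' hP' hC' hPU' hCT']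
  exact h x' hx'

end Def

end Fermat.Agent.LR

end
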