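/-
LR / [PD], cell (S5) (helper28, prefix `lrpdm_`): restriction is adjoint to the transfer for the
subgroup-level pairing `lrpd_OmS` — the field `adj` of `lrpd_SFam` with `Om := lrpd_OmS`.
Bridge between `lrpd_OmS` (LR/PD/OmS.lean) and `lrpdm_Om` (LR/PD/Model/Omega.lean), then
`lrpdm_Om_cores` (LR/PD/Model/Cores.lean).
-/
import Fermat.Agent.LR.PD.OmS
import Fermat.Agent.LR.PD.Model.Cores

set_option autoImplicit false

open scoped MatrixGroups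
open ModularGroup

namespace Fermat.Agent.LR

section CoresAdj

variable {k : Type*} [Field k]

theorem lrpdm_PE_of_PE {Γ : Subgroup SL(2, ℤ)} {x : Additive Γ →+ k} (hx : lrpd_PE Γ x) :
    lrpdm_PE Γ x :=
  ⟨lrpd_killsS hx, lrpd_killsU hx, lrpd_killsT hx⟩

/-- the two definitions of the subgroup-level pairing agree -/
theorem lrpdm_OmS_eq_Om {Γ : Subgroup SL(2, ℤ)} [Γ.FiniteIndex] {x x' : Additive Γ →+ k}
    (hx : lrpd_PE Γ x) (hx' : lrpd_PE Γ x') : lrpd_OmS Γ x x' = lrpdm_Om x x' := by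
  rw [lrpd_OmS_eq hx hx' (lrpd_PU hx) (lrpd_CT hx) (lrpd_PU_prim hx) (lrpd_CT_prim hx)
      (lrpd_PU_inv hx) (lrpd_CT_inv hx) (lrpd_PU hx') (lrpd_CT hx') (lrpd_PU_prim hx')
      (lrpd_CT_prim hx') (lrpd_PU_inv hx') (lrpd_CT_inv hx'),
    lrpdm_Om_eq (lrpdm_PE_of_PE hx) (lrpdm_PE_of_PE hx') (lrpd_PU hx) (lrpd_CT hx) (lrpd_PU hx')
      (lrpd_CT hx') (lrpd_PU_prim hx) (lrpd_CT_prim hx) (lrpd_PU_prim hx') (lrpd_CT_prim hx')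
      (lrpd_PU_inv hx) (lrpd_CT_inv hx) (lrpd_PU_inv hx') (lrpd_CT_inv hx')]

theorem lrpdm_PE_pull {Γ Γ' : Subgroup SL(2, ℤ)} (hle : Γ' ≤ Γ) {x : Additive Γ →+ k}
    (hx : lrpd_PE Γ x) : lrpd_PE Γ' (lrpd_pull (Subgroup.inclusion hle) x) := by
  intro γ' hγ'
  rw [lrpd_pull_apply]
  exact hx (Subgroup.inclusion hle γ') hγ'

/-- **(S5)**: restriction is adjoint to the transfer. -/
theorem lrpdm_cores_adj (Γ Γ' : Subgroup SL(2, ℤ)) [Γ.FiniteIndex] [Γ'.FiniteIndex]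
    (hle : Γ' ≤ Γ) (_hneg : (-1 : SL(2, ℤ)) ∈ Γ') {ι : Type} [Fintype ι] (ρ : ι → SL(2, ℤ))
    (hρ : ∀ i, ρ i ∈ Γ) (hbij : ∀ γ ∈ Γ, ∃! i, (ρ i)⁻¹ * γ ∈ Γ')
    (x : Additive Γ →+ k) (z : Additive Γ' →+ k) (c : Additive Γ →+ k)
    (hx : lrpd_PE Γ x) (hz : lrpd_PE Γ' z) (hc : lrpd_PE Γ c)
    (hcores : lrpd_IsCores Γ Γ' ρ z c) :
    lrpd_OmS Γ' (lrpd_pull (Subgroup.inclusion hle) x) z = lrpd_OmS Γ x c := by
  classical
  rw [lrpdm_OmS_eq_Om (lrpdm_PE_pull hle hx) hz, lrpdm_OmS_eq_Om hx hc]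
  refine lrpdm_Om_cores hle ρ hρ hbij x c (lrpd_pull (Subgroup.inclusion hle) x) z
    (lrpdm_PE_of_PE hx) (lrpdm_PE_of_PE hz) (fun γ' => rfl) ?_
  intro γ
  -- the index map
  have hex : ∀ i, ∃! j, (ρ j)⁻¹ * ((γ : SL(2, ℤ)) * ρ i) ∈ Γ' := fun i =>
    hbij _ (Γ.mul_mem γ.2 (hρ i))
  choose σ hσ hσu using hex
  have hm : ∀ i, (ρ (σ i))⁻¹ * (γ : SL(2, ℤ)) * ρ i ∈ Γ' := fun i => by
    have h1 : (ρ (σ i))⁻¹ * ((γ : SL(2, ℤ)) * ρ i) ∈ Γ' := hσ i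
    rwa [← mul_assoc] at h1
  refine ⟨σ, hm, ?_⟩
  show c (Additive.ofMul γ) = _
  rw [hcores γ]
  refine Finset.sum_congr rfl (fun i _ => ?_)
  rw [Finset.sum_eq_single (σ i)]
  · rw [dif_pos (hm i)]
    rfl
  · intro j _ hj
    rw [dif_neg]
    intro hmem
    apply hj
    apply hσu i j
    show (ρ j)⁻¹ * ((γ : SL(2, ℤ)) * ρ i) ∈ Γ'
    rwa [← mul_assoc]
  · intro h
    exact absurd (Finset.mem_univ _) h

end CoresAdj

end Fermat.Agent.LR
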