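/-
LR / node [PD], cell [PD-ELL], supplement: `± 1`/elliptic dichotomy for the powers of `S`, `S * T`
and the two directions between
* "`β` vanishes on the `Γ`-elements `h⁻¹ S^n h`, `h⁻¹ (S T)^n h`" (shape of `lrpr_residue`'s `hS`, `hU`
  and of `lrpdm_Kills`), and
* "`β` vanishes on every `γ ∈ Γ` with `tr² < 4` or `γ = -1`" (shape of `lrpd_Norm`, #2793 (3)).
Mathlib + `LR/PD/Ell.lean` only.  Prefix `lrpd_ell_`.
-/
import Mathlib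
import Fermat.Agent.LR.PD.Ell

set_option autoImplicit false

open Matrix Matrix.SpecialLinearGroup ModularGroup
open scoped MatrixGroups

namespace Fermat.Agent.LR

/-- `S ^ k` is `± 1` or elliptic -/
theorem lrpd_ell_S_pow_cases (k : ℕ) :
    (S : SL(2, ℤ)) ^ k = 1 ∨ (S : SL(2, ℤ)) ^ k = -1 ∨
      ((S ^ k : SL(2, ℤ)) 0 0 + (S ^ k : SL(2, ℤ)) 1 1) ^ 2 < 4 := by
  have h : (S : SL(2, ℤ)) ^ k = S ^ (k % 4) := by
    conv_lhs => rw [← Nat.div_add_mod k 4, pow_add, pow_mul, lrpd_ell_S_pow_four, one_pow, one_mul]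
  rw [h]
  have hk : k % 4 < 4 := Nat.mod_lt _ (by norm_num)
  interval_cases (k % 4)
  · left; decide
  · right; right; decide
  · right; left; decide
  · right; right; decide

/-- `(S * T) ^ k` is `± 1` or elliptic -/
theorem lrpd_ell_U_pow_cases (k : ℕ) :
    (S * T : SL(2, ℤ)) ^ k = 1 ∨ (S * T : SL(2, ℤ)) ^ k = -1 ∨
      (((S * T) ^ k : SL(2, ℤ)) 0 0 + ((S * T) ^ k : SL(2, ℤ)) 1 1) ^ 2 < 4 := by
  have h : (S * T : SL(2, ℤ)) ^ k = (S * T) ^ (k % 6) := by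
    conv_lhs => rw [← Nat.div_add_mod k 6, pow_add, pow_mul, lrpd_ell_U_pow_six, one_pow, one_mul]
  rw [h]
  have hk : k % 6 < 6 := Nat.mod_lt _ (by norm_num)
  interval_cases (k % 6)
  · left; decide
  · right; right; decide
  · right; right; decide
  · right; left; decide
  · right; right; decide
  · right; right; decide

theorem lrpd_ell_conj_neg_one (h : SL(2, ℤ)) : h⁻¹ * (-1 : SL(2, ℤ)) * h = -1 := by
  rw [mul_neg, mul_one, neg_mul, inv_mul_cancel]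

/-- a conjugate `h⁻¹ X h` of an element `X` that is `± 1` or elliptic is `± 1` or elliptic -/
theorem lrpd_ell_conj_cases (h X : SL(2, ℤ))
    (hX : X = 1 ∨ X = -1 ∨ (X 0 0 + X 1 1) ^ 2 < 4) :
    h⁻¹ * X * h = 1 ∨ h⁻¹ * X * h = -1 ∨
      ((h⁻¹ * X * h) 0 0 + (h⁻¹ * X * h) 1 1) ^ 2 < 4 := by
  rcases hX with rfl | rfl | hX
  · left
    rw [mul_one, inv_mul_cancel]
  · right; left
    exact lrpd_ell_conj_neg_one h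
  · right; right
    rw [lrpd_ell_tr_conj']
    exact hX

theorem lrpd_ell_conj_S_pow_cases (h : SL(2, ℤ)) (k : ℕ) :
    h⁻¹ * S ^ k * h = 1 ∨ h⁻¹ * S ^ k * h = -1 ∨
      ((h⁻¹ * S ^ k * h) 0 0 + (h⁻¹ * S ^ k * h) 1 1) ^ 2 < 4 :=
  lrpd_ell_conj_cases h _ (lrpd_ell_S_pow_cases k)

theorem lrpd_ell_conj_U_pow_cases (h : SL(2, ℤ)) (k : ℕ) :
    h⁻¹ * (S * T) ^ k * h = 1 ∨ h⁻¹ * (S * T) ^ k * h = -1 ∨
      ((h⁻¹ * (S * T) ^ k * h) 0 0 + (h⁻¹ * (S * T) ^ k * h) 1 1) ^ 2 < 4 :=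
  lrpd_ell_conj_cases h _ (lrpd_ell_U_pow_cases k)

/-- integer exponents reduce to natural ones for `S` -/
theorem lrpd_ell_S_zpow_eq (n : ℤ) : ∃ k : ℕ, (S : SL(2, ℤ)) ^ n = S ^ k := by
  have h4 : (S : SL(2, ℤ)) ^ (4 : ℤ) = 1 := by
    rw [show (4 : ℤ) = ((4 : ℕ) : ℤ) by norm_num, zpow_natCast]
    exact lrpd_ell_S_pow_four
  refine ⟨(n % 4).toNat, ?_⟩
  rw [zpow_eq_zpow_emod n h4, ← zpow_natCast, Int.toNat_of_nonneg (Int.emod_nonneg _ (by norm_num))]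

/-- integer exponents reduce to natural ones for `S * T` -/
theorem lrpd_ell_U_zpow_eq (n : ℤ) : ∃ k : ℕ, (S * T : SL(2, ℤ)) ^ n = (S * T) ^ k := by
  have h6 : (S * T : SL(2, ℤ)) ^ (6 : ℤ) = 1 := by
    rw [show (6 : ℤ) = ((6 : ℕ) : ℤ) by norm_num, zpow_natCast]
    exact lrpd_ell_U_pow_six
  refine ⟨(n % 6).toNat, ?_⟩
  rw [zpow_eq_zpow_emod n h6, ← zpow_natCast, Int.toNat_of_nonneg (Int.emod_nonneg _ (by norm_num))]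

theorem lrpd_ell_conj_S_zpow_cases (h : SL(2, ℤ)) (n : ℤ) :
    h⁻¹ * S ^ n * h = 1 ∨ h⁻¹ * S ^ n * h = -1 ∨
      ((h⁻¹ * S ^ n * h) 0 0 + (h⁻¹ * S ^ n * h) 1 1) ^ 2 < 4 := by
  obtain ⟨k, hk⟩ := lrpd_ell_S_zpow_eq n
  rw [hk]
  exact lrpd_ell_conj_S_pow_cases h k

theorem lrpd_ell_conj_U_zpow_cases (h : SL(2, ℤ)) (n : ℤ) :
    h⁻¹ * (S * T) ^ n * h = 1 ∨ h⁻¹ * (S * T) ^ n * h = -1 ∨
      ((h⁻¹ * (S * T) ^ n * h) 0 0 + (h⁻¹ * (S * T) ^ n * h) 1 1) ^ 2 < 4 := by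
  obtain ⟨k, hk⟩ := lrpd_ell_U_zpow_eq n
  rw [hk]
  exact lrpd_ell_conj_U_pow_cases h k

/-! ### The two normalisations of a function on `Γ` -/

variable {F : Type*} [Zero F] (Gam : Subgroup SL(2, ℤ))

/-- FROM "kills the `Γ`-conjugates of the powers of `S`, `S * T`" TO "kills every elliptic element
of `Γ` and `-1`" (uses the classification `lrpd_ell_elliptic'`). -/
theorem lrpd_ell_norm_of_kills (β : Gam → F)
    (hS : ∀ (h : SL(2, ℤ)) (n : ℕ) (hm : h⁻¹ * S ^ n * h ∈ Gam), β ⟨_, hm⟩ = 0)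
    (hU : ∀ (h : SL(2, ℤ)) (n : ℕ) (hm : h⁻¹ * (S * T) ^ n * h ∈ Gam), β ⟨_, hm⟩ = 0)
    (γ : Gam)
    (hγ : ((γ : SL(2, ℤ)) 0 0 + (γ : SL(2, ℤ)) 1 1) ^ 2 < 4 ∨ (γ : SL(2, ℤ)) = -1) :
    β γ = 0 := by
  rcases hγ with hγ | hγ
  · obtain ⟨g, hg | hg⟩ := lrpd_ell_elliptic' (γ : SL(2, ℤ)) hγ
    · obtain ⟨k, hk⟩ := hg
      have hm : g⁻¹ * S ^ k * g ∈ Gam := by rw [← hk]; exact γ.2
      have := hS g k hm
      have e : (⟨_, hm⟩ : Gam) = γ := Subtype.ext hk.symm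
      rwa [e] at this
    · obtain ⟨k, hk⟩ := hg
      have hm : g⁻¹ * (S * T) ^ k * g ∈ Gam := by rw [← hk]; exact γ.2
      have := hU g k hm
      have e : (⟨_, hm⟩ : Gam) = γ := Subtype.ext hk.symm
      rwa [e] at this
  · have h2 : (1 : SL(2, ℤ))⁻¹ * S ^ 2 * 1 = -1 := by decide
    have hm : (1 : SL(2, ℤ))⁻¹ * S ^ 2 * 1 ∈ Gam := by rw [h2, ← hγ]; exact γ.2
    have := hS 1 2 hm
    have e : (⟨_, hm⟩ : Gam) = γ := Subtype.ext (h2.trans hγ.symm)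
    rwa [e] at this

/-- FROM "kills `1`, `-1` and every elliptic element of `Γ`" TO "kills the `Γ`-conjugates of the
powers of `S`" -/
theorem lrpd_ell_kills_S_of_norm (β : Gam → F) (h1 : β 1 = 0)
    (hN : ∀ γ : Gam, ((γ : SL(2, ℤ)) 0 0 + (γ : SL(2, ℤ)) 1 1) ^ 2 < 4 ∨ (γ : SL(2, ℤ)) = -1 →
      β γ = 0)
    (h : SL(2, ℤ)) (n : ℕ) (hm : h⁻¹ * S ^ n * h ∈ Gam) : β ⟨_, hm⟩ = 0 := by
  rcases lrpd_ell_conj_S_pow_cases h n with h0 | h0 | h0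
  · have e : (⟨_, hm⟩ : Gam) = 1 := Subtype.ext h0
    rw [e]; exact h1
  · exact hN ⟨_, hm⟩ (Or.inr h0)
  · exact hN ⟨_, hm⟩ (Or.inl h0)

/-- the same for `S * T` -/
theorem lrpd_ell_kills_U_of_norm (β : Gam → F) (h1 : β 1 = 0)
    (hN : ∀ γ : Gam, ((γ : SL(2, ℤ)) 0 0 + (γ : SL(2, ℤ)) 1 1) ^ 2 < 4 ∨ (γ : SL(2, ℤ)) = -1 →
      β γ = 0)
    (h : SL(2, ℤ)) (n : ℕ) (hm : h⁻¹ * (S * T) ^ n * h ∈ Gam) : β ⟨_, hm⟩ = 0 := by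
  rcases lrpd_ell_conj_U_pow_cases h n with h0 | h0 | h0
  · have e : (⟨_, hm⟩ : Gam) = 1 := Subtype.ext h0
    rw [e]; exact h1
  · exact hN ⟨_, hm⟩ (Or.inr h0)
  · exact hN ⟨_, hm⟩ (Or.inl h0)

/-- integer-exponent versions (shape of `lrpdm_Kills`) -/
theorem lrpd_ell_kills_S_zpow_of_norm (β : Gam → F) (h1 : β 1 = 0)
    (hN : ∀ γ : Gam, ((γ : SL(2, ℤ)) 0 0 + (γ : SL(2, ℤ)) 1 1) ^ 2 < 4 ∨ (γ : SL(2, ℤ)) = -1 →
      β γ = 0)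
    (h : SL(2, ℤ)) (n : ℤ) (hm : h⁻¹ * S ^ n * h ∈ Gam) : β ⟨_, hm⟩ = 0 := by
  rcases lrpd_ell_conj_S_zpow_cases h n with h0 | h0 | h0
  · have e : (⟨_, hm⟩ : Gam) = 1 := Subtype.ext h0
    rw [e]; exact h1
  · exact hN ⟨_, hm⟩ (Or.inr h0)
  · exact hN ⟨_, hm⟩ (Or.inl h0)

theorem lrpd_ell_kills_U_zpow_of_norm (β : Gam → F) (h1 : β 1 = 0)
    (hN : ∀ γ : Gam, ((γ : SL(2, ℤ)) 0 0 + (γ : SL(2, ℤ)) 1 1) ^ 2 < 4 ∨ (γ : SL(2, ℤ)) = -1 →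
      β γ = 0)
    (h : SL(2, ℤ)) (n : ℤ) (hm : h⁻¹ * (S * T) ^ n * h ∈ Gam) : β ⟨_, hm⟩ = 0 := by
  rcases lrpd_ell_conj_U_zpow_cases h n with h0 | h0 | h0
  · have e : (⟨_, hm⟩ : Gam) = 1 := Subtype.ext h0
    rw [e]; exact h1
  · exact hN ⟨_, hm⟩ (Or.inr h0)
  · exact hN ⟨_, hm⟩ (Or.inl h0)

end Fermat.Agent.LR
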