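import Mathlib

/-!
# LR / node [PD]: two Mathlib-only auxiliaries (helper4, prefix `lrpd_`)

* `lrpd_sum_fib` : the fibration formula for sums over `G ⧸ Γ'` along `G ⧸ Γ' → G ⧸ Γ`
  (`Γ' ≤ Γ`, with a complete irredundant system `ρ` of left coset representatives of `Γ'` in `Γ`);
* formal facts on *cup-primitives* `β (γ γ') = β γ + β γ' + x γ * x' γ'`.
-/

set_option autoImplicit false

noncomputable section

namespace Fermat.Agent.LR

section Fib

variable {G : Type*} [Group G] {Γ Γ' : Subgroup G} {ι : Type*} {M : Type*} [AddCommMonoid M]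

/-- the map `(ξ, i) ↦ (ξ.out * ρ i) Γ'` -/
def lrpd_fibMap (Γ Γ' : Subgroup G) (ρ : ι → G) (p : (G ⧸ Γ) × ι) : G ⧸ Γ' :=
  ((Quotient.out p.1 * ρ p.2 : G) : G ⧸ Γ')

theorem lrpd_fibMap_bijective (hle : Γ' ≤ Γ) (ρ : ι → G) (hρ : ∀ i, ρ i ∈ Γ)
    (hbij : ∀ γ ∈ Γ, ∃! i, (ρ i)⁻¹ * γ ∈ Γ') :
    Function.Bijective (lrpd_fibMap Γ Γ' ρ) := by
  constructor
  · rintro ⟨ξ, i⟩ ⟨η, j⟩ h
    unfold lrpd_fibMap at h
    rw [QuotientGroup.eq] at h
    -- h : (ξ.out * ρ i)⁻¹ * (η.out * ρ j) ∈ Γ'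
    have h1 : (Quotient.out ξ * ρ i)⁻¹ * (Quotient.out η * ρ j) ∈ Γ := hle h
    have h2 : (Quotient.out ξ)⁻¹ * Quotient.out η ∈ Γ := by
      have e : (Quotient.out ξ)⁻¹ * Quotient.out η
          = ρ i * ((Quotient.out ξ * ρ i)⁻¹ * (Quotient.out η * ρ j)) * (ρ j)⁻¹ := by group
      rw [e]
      exact mul_mem (mul_mem (hρ i) h1) (inv_mem (hρ j))
    have h3 : ξ = η := by
      have : ((Quotient.out ξ : G) : G ⧸ Γ) = ((Quotient.out η : G) : G ⧸ Γ) :=
        QuotientGroup.eq.mpr h2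
      rwa [QuotientGroup.out_eq', QuotientGroup.out_eq'] at this
    subst h3
    have h4 : (ρ i)⁻¹ * ρ j ∈ Γ' := by
      have e : (ρ i)⁻¹ * ρ j = (Quotient.out ξ * ρ i)⁻¹ * (Quotient.out ξ * ρ j) := by group
      rw [e]
      exact h
    obtain ⟨k, _, hk⟩ := hbij (ρ j) (hρ j)
    have hi : i = k := hk i h4
    have hj : j = k := hk j (by show (ρ j)⁻¹ * ρ j ∈ Γ'; rw [inv_mul_cancel]; exact one_mem _)
    rw [hi, hj]
  · intro ξ'
    induction ξ' using QuotientGroup.induction_on with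
    | H g =>
      have h1 : (Quotient.out ((g : G) : G ⧸ Γ))⁻¹ * g ∈ Γ := by
        rw [← QuotientGroup.eq, QuotientGroup.out_eq']
      obtain ⟨i, hi, _⟩ := hbij _ h1
      refine ⟨(((g : G) : G ⧸ Γ), i), ?_⟩
      unfold lrpd_fibMap
      rw [QuotientGroup.eq]
      have e : (Quotient.out ((g : G) : G ⧸ Γ) * ρ i)⁻¹ * g
          = (ρ i)⁻¹ * ((Quotient.out ((g : G) : G ⧸ Γ))⁻¹ * g) := by group
      rw [e]
      exact hi

/-- **fibration formula** -/
theorem lrpd_sum_fib [Fintype (G ⧸ Γ)] [Fintype (G ⧸ Γ')] [Fintype ι] (hle : Γ' ≤ Γ)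
    (ρ : ι → G) (hρ : ∀ i, ρ i ∈ Γ) (hbij : ∀ γ ∈ Γ, ∃! i, (ρ i)⁻¹ * γ ∈ Γ')
    (F : G ⧸ Γ' → M) :
    ∑ ξ' : G ⧸ Γ', F ξ' = ∑ ξ : G ⧸ Γ, ∑ i : ι, F ((Quotient.out ξ * ρ i : G) : G ⧸ Γ') := by
  rw [← Fintype.sum_prod_type']
  exact (Fintype.sum_bijective _ (lrpd_fibMap_bijective hle ρ hρ hbij) _ _ fun p => rfl).symm

end Fib

section Cup

variable {H : Type*} [Group H] {R : Type*} [CommRing R]

/-- `β` is a cup-primitive of `(x, x')`: `β (γ γ') = β γ + β γ' + x γ * x' γ'`. -/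
def lrpd_IsCup (x x' : H → R) (β : H → R) : Prop :=
  ∀ γ γ' : H, β (γ * γ') = β γ + β γ' + x γ * x' γ'

variable {x x' β : H → R}

theorem lrpd_cup_one (hx : x 1 = 0) (hβ : lrpd_IsCup x x' β) : β 1 = 0 := by
  have h := hβ 1 1
  rw [mul_one, hx, zero_mul, add_zero] at h
  have : β 1 + β 1 = β 1 + 0 := by rw [add_zero]; exact h.symm
  exact add_left_cancel this

theorem lrpd_cup_inv (hx : ∀ a b, x (a * b) = x a + x b) (hβ : lrpd_IsCup x x' β)
    (hx' : ∀ a b, x' (a * b) = x' a + x' b) (γ : H) :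
    β γ⁻¹ = - β γ + x γ * x' γ := by
  have hx1 : x 1 = 0 := by
    have := hx 1 1
    rw [mul_one] at this
    have h2 : x 1 + x 1 = x 1 + 0 := by rw [add_zero]; exact this.symm
    exact add_left_cancel h2
  have hx'1 : x' 1 = 0 := by
    have := hx' 1 1
    rw [mul_one] at this
    have h2 : x' 1 + x' 1 = x' 1 + 0 := by rw [add_zero]; exact this.symm
    exact add_left_cancel h2
  have h := hβ γ γ⁻¹
  rw [mul_inv_cancel, lrpd_cup_one hx1 hβ] at h
  have hxi : x' γ⁻¹ = - x' γ := by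
    have := hx' γ γ⁻¹
    rw [mul_inv_cancel, hx'1] at this
    exact eq_neg_of_add_eq_zero_right this.symm
  rw [hxi] at h
  linear_combination -h

/-- a cup-primitive is invariant under conjugation on `{x = x' = 0}` -/
theorem lrpd_cup_conj (hx : ∀ a b, x (a * b) = x a + x b)
    (hx' : ∀ a b, x' (a * b) = x' a + x' b) (hβ : lrpd_IsCup x x' β)
    (γ π : H) (h0 : x π = 0) (h0' : x' π = 0) :
    β (γ * π * γ⁻¹) = β π := by
  have h1 := hβ (γ * π) γ⁻¹
  have h2 := hβ γ π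
  have h3 := lrpd_cup_inv hx hβ hx' γ
  have hxi : x' γ⁻¹ = - x' γ := by
    have hx'1 : x' 1 = 0 := by
      have := hx' 1 1
      rw [mul_one] at this
      have h2 : x' 1 + x' 1 = x' 1 + 0 := by rw [add_zero]; exact this.symm
      exact add_left_cancel h2
    have := hx' γ γ⁻¹
    rw [mul_inv_cancel, hx'1] at this
    exact eq_neg_of_add_eq_zero_right this.symm
  rw [h1, h2, h3, hx, h0, h0', hxi]
  ring

/-- the difference of two cup-primitives of the same pair is additive -/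
theorem lrpd_cup_sub (hβ : lrpd_IsCup x x' β) {β' : H → R} (hβ' : lrpd_IsCup x x' β')
    (γ γ' : H) : (β γ - β' γ) + (β γ' - β' γ') = β (γ * γ') - β' (γ * γ') := by
  rw [hβ, hβ']
  ring

end Cup

end Fermat.Agent.LR

end
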