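import Fermat.Agent.LR.PD.OmS
import Fermat.Agent.LR.PD.Fib
import Fermat.Agent.LR.PD.Model.Cup
import Fermat.Agent.LR.PD.Ell2
import Fermat.Agent.LR.PD.Cusp
import Fermat.Agent.LR.PD.Residue

/-!
# LR / node [PD]: the intrinsic formula for the pairing (helper4, prefix `lrpd_`)

For a finite-index subgroup `Γ ≤ SL(2, ℤ)` and characters `x, x'` of `Γ` killing the elements
with `tr² ≤ 4`: for EVERY normalised cup-primitive `β` of `(x, x')` (`β (γ γ') = β γ + β γ' +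
x γ * x' γ'`, `β = 0` on the elliptic elements and on `-1`), the sum of `β` over the positive
generators of the cusp stabilisers equals `lrpd_OmS Γ x x'`.  Inputs: helper28's cup-primitive
with its orbit formula (`lrpdm_cup_main`), helper9's orbit decomposition (`lrpc_sum_orbits`),
helper23's residue theorem (`lrpr_residue_fun`), helper22's classification of elliptic elements.
-/

set_option autoImplicit false

open Matrix ModularGroup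
open scoped MatrixGroups

noncomputable section

namespace Fermat.Agent.LR

section Intr

/-- `β` is normalised: it vanishes on the elliptic elements of `Γ` and on `-1`. -/
def lrpd_Norm (Γ : Subgroup SL(2, ℤ)) {k : Type*} [Zero k] (β : Γ → k) : Prop :=
  ∀ γ : Γ, (lrpd_tr (γ : SL(2, ℤ)) ^ 2 < 4 ∨ (γ : SL(2, ℤ)) = -1) → β γ = 0

variable {k : Type*} [Field k] {Γ : Subgroup SL(2, ℤ)}

/-- existence of a normalised cup-primitive, with helper28's orbit formula -/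
theorem lrpd_exists_norm_cup_orbit (h2 : (2 : k) ≠ 0) {x x' : Additive Γ →+ k}
    (hx : lrpd_PE Γ x) (hx' : lrpd_PE Γ x') :
    ∃ β : Γ → k, lrpd_IsCup (lrpdm_ev Γ x) (lrpdm_ev Γ x') β ∧ lrpd_Norm Γ β ∧
      ∀ (h : SL(2, ℤ)) (w : ℕ) (hm : h⁻¹ * T ^ w * h ∈ Γ),
        β ⟨_, hm⟩ = ∑ i ∈ Finset.range w,
          lrpdm_f (lrpd_yx hx) (lrpd_yx hx') (T ^ i • (h : lrpdm_X Γ)) := by
  obtain ⟨β, hcup, hS, hU, horb⟩ := lrpdm_cup_main h2 (lrpd_PU hx) (lrpd_CT hx) (lrpd_PU hx')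
    (lrpd_CT hx') (lrpd_PU_prim hx) (lrpd_CT_prim hx) (lrpd_PU_prim hx') (lrpd_CT_prim hx')
    (lrpd_PU_inv hx) (lrpd_CT_inv hx) (lrpd_PU_inv hx') (lrpd_CT_inv hx')
  refine ⟨β, hcup, ?_, horb⟩
  intro γ hγ
  refine lrpd_ell_norm_of_kills Γ β ?_ ?_ γ hγ
  · intro h n hm
    have hm' : h⁻¹ * S ^ (n : ℤ) * h ∈ Γ := by rwa [zpow_natCast]
    have e : (⟨h⁻¹ * S ^ (n : ℤ) * h, hm'⟩ : Γ) = ⟨h⁻¹ * S ^ n * h, hm⟩ :=
      Subtype.ext (by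
        show h⁻¹ * S ^ (n : ℤ) * h = h⁻¹ * S ^ n * h
        rw [zpow_natCast])
    rw [← e]
    exact hS h n hm'
  · intro h n hm
    have hm' : h⁻¹ * lrpdm_U ^ (n : ℤ) * h ∈ Γ := by rwa [zpow_natCast]
    have e : (⟨h⁻¹ * lrpdm_U ^ (n : ℤ) * h, hm'⟩ : Γ) = ⟨h⁻¹ * (S * T) ^ n * h, hm⟩ :=
      Subtype.ext (by
        show h⁻¹ * lrpdm_U ^ (n : ℤ) * h = h⁻¹ * (S * T) ^ n * h
        rw [zpow_natCast])
    rw [← e]
    exact hU h n hm'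

theorem lrpd_exists_norm_cup (h2 : (2 : k) ≠ 0) {x x' : Additive Γ →+ k}
    (hx : lrpd_PE Γ x) (hx' : lrpd_PE Γ x') :
    ∃ β : Γ → k, lrpd_IsCup (lrpdm_ev Γ x) (lrpdm_ev Γ x') β ∧ lrpd_Norm Γ β := by
  obtain ⟨β, h1, h2, _⟩ := lrpd_exists_norm_cup_orbit h2 hx hx'
  exact ⟨β, h1, h2⟩

variable [Γ.FiniteIndex]

/-- **INTRINSIC THEOREM.** -/
theorem lrpd_intrinsic (h2 : (2 : k) ≠ 0) [Fintype (lrpc_Orb Γ)] {x x' : Additive Γ →+ k}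
    (hx : lrpd_PE Γ x) (hx' : lrpd_PE Γ x') (β : Γ → k)
    (hβ : lrpd_IsCup (lrpdm_ev Γ x) (lrpdm_ev Γ x') β) (hN : lrpd_Norm Γ β) :
    ∑ O : lrpc_Orb Γ, β ⟨lrpc_gen Γ O, lrpc_gen_mem Γ O⟩ = lrpd_OmS Γ x x' := by
  obtain ⟨β0, hβ0, hN0, horb⟩ := lrpd_exists_norm_cup_orbit h2 hx hx'
  -- the model primitive
  have h0 : ∑ O : lrpc_Orb Γ, β0 ⟨lrpc_gen Γ O, lrpc_gen_mem Γ O⟩ = lrpd_OmS Γ x x' := by
    have hOm : lrpd_OmS Γ x x' = lrpdm_omega (lrpd_yx hx) (lrpd_yx hx') :=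
      lrpd_OmS_eq hx hx' _ _ (lrpd_PU_prim hx) (lrpd_CT_prim hx) (lrpd_PU_inv hx) (lrpd_CT_inv hx)
        _ _ (lrpd_PU_prim hx') (lrpd_CT_prim hx') (lrpd_PU_inv hx') (lrpd_CT_inv hx')
    rw [hOm, lrpdm_omega_eq_sum_f, lrpc_sum_orbits Γ]
    refine Finset.sum_congr rfl fun O _ => ?_
    exact horb (lrpc_rep Γ O) (lrpc_width Γ O) (lrpc_gen_mem Γ O)
  -- the difference is a character killing the elliptic elements
  set χ : Γ → k := fun γ => β γ - β0 γ with hχdef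
  have hχ : ∀ a b : Γ, χ (a * b) = χ a + χ b := fun a b => (lrpd_cup_sub hβ hβ0 a b).symm
  have hev1 : lrpdm_ev Γ x 1 = 0 := lrpdm_ev_one Γ x
  have hχ1 : χ 1 = 0 := by
    simp only [hχdef, lrpd_cup_one hev1 hβ, lrpd_cup_one hev1 hβ0, sub_zero]
  have hχN : ∀ γ : Γ, ((γ : SL(2, ℤ)) 0 0 + (γ : SL(2, ℤ)) 1 1) ^ 2 < 4 ∨ (γ : SL(2, ℤ)) = -1 →
      χ γ = 0 := by
    intro γ hγ
    simp only [hχdef, hN γ hγ, hN0 γ hγ, sub_zero]
  have hres := lrpr_residue_fun Γ χ hχ (lrpd_ell_kills_S_of_norm Γ χ hχ1 hχN)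
    (lrpd_ell_kills_U_of_norm Γ χ hχ1 hχN) (lrpc_rep Γ) (lrpc_rep_spec Γ)
  have hres' : ∑ O : lrpc_Orb Γ, (β ⟨lrpc_gen Γ O, lrpc_gen_mem Γ O⟩
      - β0 ⟨lrpc_gen Γ O, lrpc_gen_mem Γ O⟩) = 0 := hres
  rw [Finset.sum_sub_distrib, sub_eq_zero] at hres'
  rw [hres', h0]

end Intr

end Fermat.Agent.LR

end
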