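import Mathlib

/-!
# LR / [PD-PAR]: parabolic (and order-3 elliptic) conjugacy classes in `SL(2, ℤ)`

Exported shapes ((P1)–(P3) of finding #2767 = (a), (a'), (b) of finding #2765):
* `lrpd_par_classify`, `lrpd_par_classify'`, `lrpd_par_classify_ne`, `lrpd_par_conj`, `lrpd_par_conj'` :
  a trace-2 element is `g T ^ n g⁻¹` (both conventions; `n ≠ 0` if `π ≠ 1`);
* `lrpd_par_conj_apply`, `lrpd_par_tr`, `lrpd_par_pos_iff`, `lrpd_par_sign_eq`, `lrpd_par_sign` :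
  entries of `g T ^ n g⁻¹`; positivity `0 < π₀₁ - π₁₀` is the sign of `n`;
* `lrpd_par_mul_nonpos`, `lrpd_par_pos_scale`, `lrpd_par_pos_diag` : `Ad(diag(q, 1))` preserves positivity;
* `lrpd_par_normalizer`, `lrpd_par_unique` : `u T ^ h u⁻¹ = T ^ h'`, `h ≠ 0` ⟹ `h' = h`, `u = ± T ^ k`;
* bonus: `lrpd_par_ell3`, `lrpd_par_ell6` : trace `∓1` elements are conjugate to `±(S⁻¹ T)^{±1}`.
Mathlib only.  Prefix `lrpd_par_`.
-/

set_option autoImplicit false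

open Matrix MatrixGroups ModularGroup

namespace Fermat.Agent.LR

theorem lrpd_par_det (g : SL(2, ℤ)) : g 0 0 * g 1 1 - g 0 1 * g 1 0 = 1 := by
  have := g.det_coe
  rw [Matrix.det_fin_two] at this
  exact this

/-- entries of a conjugate -/
theorem lrpd_par_conj_entries (u g : SL(2, ℤ)) :
    (u * g * u⁻¹) 0 0 = (u 0 0 * g 0 0 + u 0 1 * g 1 0) * u 1 1
        - (u 0 0 * g 0 1 + u 0 1 * g 1 1) * u 1 0 ∧
    (u * g * u⁻¹) 0 1 = -(u 0 0 * g 0 0 + u 0 1 * g 1 0) * u 0 1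
        + (u 0 0 * g 0 1 + u 0 1 * g 1 1) * u 0 0 ∧
    (u * g * u⁻¹) 1 0 = (u 1 0 * g 0 0 + u 1 1 * g 1 0) * u 1 1
        - (u 1 0 * g 0 1 + u 1 1 * g 1 1) * u 1 0 ∧
    (u * g * u⁻¹) 1 1 = -(u 1 0 * g 0 0 + u 1 1 * g 1 0) * u 0 1
        + (u 1 0 * g 0 1 + u 1 1 * g 1 1) * u 0 0 := by
  refine ⟨?_, ?_, ?_, ?_⟩ <;>
  · simp only [Matrix.SpecialLinearGroup.coe_mul, Matrix.SpecialLinearGroup.coe_inv,
      Matrix.adjugate_fin_two, Matrix.mul_apply, Fin.sum_univ_two, Matrix.of_apply,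
      Matrix.cons_val', Matrix.cons_val_zero, Matrix.cons_val_one, Matrix.cons_val_fin_one]
    ring

/-- build an element of `SL(2, ℤ)` from its entries -/
def lrpd_par_mk (a b c d : ℤ) (h : a * d - b * c = 1) : SL(2, ℤ) :=
  ⟨!![a, b; c, d], by rw [Matrix.det_fin_two_of]; exact h⟩

@[simp] theorem lrpd_par_mk_00 (a b c d : ℤ) (h : a * d - b * c = 1) :
    (lrpd_par_mk a b c d h) 0 0 = a := rfl
@[simp] theorem lrpd_par_mk_01 (a b c d : ℤ) (h : a * d - b * c = 1) :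
    (lrpd_par_mk a b c d h) 0 1 = b := rfl
@[simp] theorem lrpd_par_mk_10 (a b c d : ℤ) (h : a * d - b * c = 1) :
    (lrpd_par_mk a b c d h) 1 0 = c := rfl
@[simp] theorem lrpd_par_mk_11 (a b c d : ℤ) (h : a * d - b * c = 1) :
    (lrpd_par_mk a b c d h) 1 1 = d := rfl

theorem lrpd_par_ext {g h : SL(2, ℤ)} (h00 : g 0 0 = h 0 0) (h01 : g 0 1 = h 0 1)
    (h10 : g 1 0 = h 1 0) (h11 : g 1 1 = h 1 1) : g = h := by
  ext i j
  fin_cases i <;> fin_cases j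
  · exact h00
  · exact h01
  · exact h10
  · exact h11

theorem lrpd_par_T_zpow_entries (n : ℤ) :
    (T ^ n) 0 0 = 1 ∧ (T ^ n) 0 1 = n ∧ (T ^ n) 1 0 = 0 ∧ (T ^ n) 1 1 = 1 := by
  rw [coe_T_zpow]
  refine ⟨rfl, rfl, rfl, rfl⟩

/-- **(a)** a parabolic element `g ≠ 1` is conjugate to a nonzero power of `T`. -/
theorem lrpd_par_conj' (g : SL(2, ℤ)) (ht : g 0 0 + g 1 1 = 2) (hg : g ≠ 1) :
    ∃ (u : SL(2, ℤ)) (n : ℤ), n ≠ 0 ∧ u * g * u⁻¹ = T ^ n := by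
  have hdet := lrpd_par_det g
  -- a fixed primitive vector `(x, y)`
  have hfix : ∃ x y r s : ℤ, r * x + s * y = 1 ∧ g 0 0 * x + g 0 1 * y = x ∧
      g 1 0 * x + g 1 1 * y = y := by
    by_cases hc : g 1 0 = 0
    · refine ⟨1, 0, 1, 0, by ring, ?_, ?_⟩
      · have h1 : g 0 0 * g 1 1 = 1 := by rw [hc] at hdet; linarith
        have hd : g 1 1 = 2 - g 0 0 := by linarith
        rw [hd] at h1
        have h2 : (g 0 0 - 1) * (g 0 0 - 1) = 0 := by linear_combination (-1 : ℤ) * h1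
        have h3 : g 0 0 - 1 = 0 := by
          rcases mul_eq_zero.mp h2 with h | h <;> exact h
        linarith
      · rw [hc]; ring
    · set e := g 0 0 - 1 with he
      have he2 : e * e + g 0 1 * g 1 0 = 0 := by
        have : g 1 1 = 1 - e := by rw [he]; linarith
        rw [this] at hdet
        have : g 0 0 = 1 + e := by rw [he]; ring
        rw [this] at hdet
        linarith
      have hpos : 0 < Int.gcd e (g 1 0) := Int.gcd_pos_of_ne_zero_right _ hc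
      obtain ⟨x, y, hxy, hex, hcy⟩ := Int.exists_gcd_one hpos
      set k : ℤ := (Int.gcd e (g 1 0) : ℤ) with hk
      have hk0 : k ≠ 0 := by
        rw [hk]; exact_mod_cast hpos.ne'
      have hbez := Int.gcd_eq_gcd_ab x y
      rw [hxy] at hbez
      have key : k * x * x + g 0 1 * y = 0 := by
        have : k * (k * x * x + g 0 1 * y) = 0 := by
          rw [hex, hcy] at he2
          linear_combination he2
        rcases mul_eq_zero.mp this with h | h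
        · exact absurd h hk0
        · exact h
      refine ⟨x, y, Int.gcdA x y, Int.gcdB x y, ?_, ?_, ?_⟩
      · push_cast at hbez; linarith
      · have : g 0 0 = 1 + e := by rw [he]; ring
        rw [this, hex]; linear_combination key
      · have : g 1 1 = 1 - e := by rw [he]; linarith
        rw [this, hcy, hex]; ring
  obtain ⟨x, y, r, s, hrs, h1, h2⟩ := hfix
  set u : SL(2, ℤ) := lrpd_par_mk r s (-y) x (by linarith) with hu
  obtain ⟨e00, e01, e10, e11⟩ := lrpd_par_conj_entries u g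
  simp only [hu, lrpd_par_mk_00, lrpd_par_mk_01, lrpd_par_mk_10, lrpd_par_mk_11] at e00 e01 e10 e11
  rw [← hu] at e00 e01 e10 e11
  set n : ℤ := -(r * g 0 0 + s * g 1 0) * s + (r * g 0 1 + s * g 1 1) * r with hn
  have hconj : u * g * u⁻¹ = T ^ n := by
    obtain ⟨t00, t01, t10, t11⟩ := lrpd_par_T_zpow_entries n
    apply lrpd_par_ext
    · rw [e00, t00]; linear_combination r * h1 + s * h2 + hrs
    · rw [e01, t01]
    · rw [e10, t10]; linear_combination (-y) * h1 + x * h2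
    · rw [e11, t11]
      linear_combination (r * x + s * y) * ht + (-r) * h1 + (-s) * h2 + hrs
  refine ⟨u, n, ?_, hconj⟩
  intro h0
  rw [h0, zpow_zero] at hconj
  apply hg
  have : g = u⁻¹ * (u * g * u⁻¹) * u := by group
  rw [this, hconj]; group

/-- **(a)**, in the form `g = u⁻¹ T ^ n u`. -/
theorem lrpd_par_conj (g : SL(2, ℤ)) (ht : g 0 0 + g 1 1 = 2) (hg : g ≠ 1) :
    ∃ (u : SL(2, ℤ)) (n : ℤ), n ≠ 0 ∧ g = u⁻¹ * T ^ n * u := by
  obtain ⟨u, n, hn, h⟩ := lrpd_par_conj' g ht hg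
  refine ⟨u, n, hn, ?_⟩
  rw [← h]; group

/-- the sign of a parabolic element: `g = u⁻¹ T ^ n u` ⟹ `g₀₁ - g₁₀ = n (u₁₀² + u₁₁²)`. -/
theorem lrpd_par_sign_eq (g u : SL(2, ℤ)) (n : ℤ) (h : g = u⁻¹ * T ^ n * u) :
    g 0 1 - g 1 0 = n * ((u 1 0) ^ 2 + (u 1 1) ^ 2) := by
  obtain ⟨t00, t01, t10, t11⟩ := lrpd_par_T_zpow_entries n
  obtain ⟨_, e01, e10, _⟩ := lrpd_par_conj_entries u⁻¹ (T ^ n)
  rw [inv_inv] at e01 e10
  have i00 : (u⁻¹ : SL(2, ℤ)) 0 0 = u 1 1 := by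
    rw [Matrix.SpecialLinearGroup.coe_inv, Matrix.adjugate_fin_two]; rfl
  have i01 : (u⁻¹ : SL(2, ℤ)) 0 1 = -u 0 1 := by
    rw [Matrix.SpecialLinearGroup.coe_inv, Matrix.adjugate_fin_two]; rfl
  have i10 : (u⁻¹ : SL(2, ℤ)) 1 0 = -u 1 0 := by
    rw [Matrix.SpecialLinearGroup.coe_inv, Matrix.adjugate_fin_two]; rfl
  have i11 : (u⁻¹ : SL(2, ℤ)) 1 1 = u 0 0 := by
    rw [Matrix.SpecialLinearGroup.coe_inv, Matrix.adjugate_fin_two]; rfl
  rw [h, e01, e10, t00, t01, t10, t11, i00, i01, i10, i11]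
  ring

theorem lrpd_par_sq_pos (u : SL(2, ℤ)) : 0 < (u 1 0) ^ 2 + (u 1 1) ^ 2 := by
  have hdet := lrpd_par_det u
  by_contra hneg
  have h1 : (u 1 0) ^ 2 + (u 1 1) ^ 2 = 0 := by
    have := sq_nonneg (u 1 0); have := sq_nonneg (u 1 1); omega
  have h2 : u 1 0 = 0 := by nlinarith [sq_nonneg (u 1 0), sq_nonneg (u 1 1)]
  have h3 : u 1 1 = 0 := by nlinarith [sq_nonneg (u 1 0), sq_nonneg (u 1 1)]
  rw [h2, h3] at hdet
  simp at hdet

/-- positivity: `g = u⁻¹ T ^ n u` ⟹ (`0 < n` ⟺ `0 < g₀₁ - g₁₀`). -/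
theorem lrpd_par_sign (g u : SL(2, ℤ)) (n : ℤ) (h : g = u⁻¹ * T ^ n * u) :
    0 < n ↔ 0 < g 0 1 - g 1 0 := by
  rw [lrpd_par_sign_eq g u n h]
  have hpos := lrpd_par_sq_pos u
  constructor
  · intro hn; exact mul_pos hn hpos
  · intro hn
    by_contra h0
    have : n ≤ 0 := not_lt.mp h0
    have := mul_nonpos_of_nonpos_of_nonneg this hpos.le
    omega


/-- for a parabolic element, `g₀₁ g₁₀ ≤ 0` -/
theorem lrpd_par_bc_nonpos (g : SL(2, ℤ)) (ht : g 0 0 + g 1 1 = 2) : g 0 1 * g 1 0 ≤ 0 := by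
  have hdet := lrpd_par_det g
  have hd : g 1 1 = 2 - g 0 0 := by linarith
  rw [hd] at hdet
  have : g 0 1 * g 1 0 = -((g 0 0 - 1) * (g 0 0 - 1)) := by linear_combination (-1 : ℤ) * hdet
  rw [this]
  have := mul_self_nonneg (g 0 0 - 1)
  linarith

theorem lrpd_par_pos_aux (b c q : ℤ) (hq : 0 < q) (hbc : b * c ≤ 0) :
    0 < b - q * c ↔ 0 < q * b - c := by
  rcases lt_trichotomy b 0 with hb | hb | hb
  · -- b < 0 : then c ≥ 0, both sides false
    have hc : 0 ≤ c := by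
      by_contra h
      have h' : c < 0 := not_le.mp h
      have := mul_pos_of_neg_of_neg hb h'
      omega
    have h1 : q * c ≥ 0 := mul_nonneg hq.le hc
    have h2 : q * b < 0 := mul_neg_of_pos_of_neg hq hb
    constructor
    · intro h; omega
    · intro h; omega
  · subst hb
    simp only [zero_sub, mul_zero, Left.neg_pos_iff]
    constructor
    · intro h
      by_contra hc
      have : 0 ≤ c := not_lt.mp hc
      have := mul_nonneg hq.le this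
      omega
    · intro h
      exact mul_neg_of_pos_of_neg hq h
  · -- b > 0 : then c ≤ 0, both sides true
    have hc : c ≤ 0 := by
      by_contra h
      have h' : 0 < c := not_le.mp h
      have := mul_pos hb h'
      omega
    have h1 : q * c ≤ 0 := mul_nonpos_of_nonneg_of_nonpos hq.le hc
    have h2 : 0 < q * b := mul_pos hq hb
    constructor
    · intro _; omega
    · intro _; omega

/-- **(a')** positivity of parabolic elements is preserved by `Ad(diag(q, 1))`,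
`[[a, b], [c, d]] ↦ [[a, q b], [c / q, d]]`. -/
theorem lrpd_par_pos_diag (g g' : SL(2, ℤ)) (q : ℤ) (hq : 0 < q) (h01 : g' 0 1 = q * g 0 1)
    (h10 : g 1 0 = q * g' 1 0) (ht : g 0 0 + g 1 1 = 2) :
    0 < g 0 1 - g 1 0 ↔ 0 < g' 0 1 - g' 1 0 := by
  have hbc := lrpd_par_bc_nonpos g ht
  rw [h10] at hbc ⊢
  rw [h01]
  have hbc' : g 0 1 * g' 1 0 ≤ 0 := by
    by_contra h
    have h' : 0 < g 0 1 * g' 1 0 := not_le.mp h
    have : 0 < q * (g 0 1 * g' 1 0) := mul_pos hq h'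
    have e : g 0 1 * (q * g' 1 0) = q * (g 0 1 * g' 1 0) := by ring
    rw [e] at hbc
    omega
  exact lrpd_par_pos_aux (g 0 1) (g' 1 0) q hq hbc'

/-- **(b)** the normaliser of a nontrivial power of `T`: `u T ^ h u⁻¹ = T ^ h'`, `h ≠ 0`
forces `u = ± T ^ k` and `h' = h`. -/
theorem lrpd_par_normalizer (u : SL(2, ℤ)) (h h' : ℤ) (hh : h ≠ 0)
    (e : u * T ^ h * u⁻¹ = T ^ h') : h' = h ∧ ∃ k : ℤ, u = T ^ k ∨ u = -T ^ k := by
  have hdet := lrpd_par_det u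
  obtain ⟨t00, t01, t10, t11⟩ := lrpd_par_T_zpow_entries h
  obtain ⟨s00, s01, s10, s11⟩ := lrpd_par_T_zpow_entries h'
  have e' : u * T ^ h = T ^ h' * u := by rw [← e]; group
  have c11 := congrArg (fun m : SL(2, ℤ) => m 1 1) e'
  have c01 := congrArg (fun m : SL(2, ℤ) => m 0 1) e'
  simp only [Matrix.SpecialLinearGroup.coe_mul, Matrix.mul_apply, Fin.sum_univ_two] at c11 c01
  rw [t01, t11, s10, s11] at c11
  rw [t01, t11, s00, s01] at c01
  have hc : u 1 0 = 0 := by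
    have : u 1 0 * h = 0 := by linarith
    rcases mul_eq_zero.mp this with h1 | h1
    · exact h1
    · exact absurd h1 hh
  rw [hc] at hdet
  have had : u 0 0 * u 1 1 = 1 := by linarith
  rcases Int.eq_one_or_neg_one_of_mul_eq_one' had with ⟨ha, hd⟩ | ⟨ha, hd⟩
  · refine ⟨?_, ⟨u 0 1, Or.inl ?_⟩⟩
    · rw [ha, hd] at c01; linarith
    · obtain ⟨k00, k01, k10, k11⟩ := lrpd_par_T_zpow_entries (u 0 1)
      apply lrpd_par_ext
      · rw [k00, ha]
      · rw [k01]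
      · rw [k10, hc]
      · rw [k11, hd]
  · refine ⟨?_, ⟨-u 0 1, Or.inr ?_⟩⟩
    · rw [ha, hd] at c01; linarith
    · obtain ⟨k00, k01, k10, k11⟩ := lrpd_par_T_zpow_entries (-u 0 1)
      apply lrpd_par_ext
      · rw [Matrix.SpecialLinearGroup.coe_neg, Matrix.neg_apply, k00, ha]
      · rw [Matrix.SpecialLinearGroup.coe_neg, Matrix.neg_apply, k01, neg_neg]
      · rw [Matrix.SpecialLinearGroup.coe_neg, Matrix.neg_apply, k10, hc, neg_zero]
      · rw [Matrix.SpecialLinearGroup.coe_neg, Matrix.neg_apply, k11, hd]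


/-! ### exported shapes (P1)–(P3) of finding #2767 -/

/-- **(P1)** every trace-2 element is `g T ^ n g⁻¹` (`n = 0` iff `π = 1`). -/
theorem lrpd_par_classify (π : SL(2, ℤ)) (htr : π 0 0 + π 1 1 = 2) :
    ∃ (g : SL(2, ℤ)) (n : ℤ), π = g * T ^ n * g⁻¹ := by
  by_cases h1 : π = 1
  · exact ⟨1, 0, by rw [h1]; simp⟩
  · obtain ⟨u, n, _, h⟩ := lrpd_par_conj' π htr h1
    refine ⟨u⁻¹, n, ?_⟩
    rw [← h]; group

/-- **(P1)**, other convention. -/
theorem lrpd_par_classify' (π : SL(2, ℤ)) (htr : π 0 0 + π 1 1 = 2) :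
    ∃ (g : SL(2, ℤ)) (n : ℤ), π = g⁻¹ * T ^ n * g := by
  obtain ⟨g, n, h⟩ := lrpd_par_classify π htr
  exact ⟨g⁻¹, n, by rw [inv_inv]; exact h⟩

theorem lrpd_par_classify_ne (π : SL(2, ℤ)) (htr : π 0 0 + π 1 1 = 2) (h1 : π ≠ 1) :
    ∃ (g : SL(2, ℤ)) (n : ℤ), n ≠ 0 ∧ π = g * T ^ n * g⁻¹ := by
  obtain ⟨u, n, hn, h⟩ := lrpd_par_conj' π htr h1
  refine ⟨u⁻¹, n, hn, ?_⟩
  rw [← h]; group

/-- **(P2)** the entries of `g T ^ n g⁻¹`. -/
theorem lrpd_par_conj_apply (g : SL(2, ℤ)) (n : ℤ) :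
    (g * T ^ n * g⁻¹) 0 0 = 1 - n * g 0 0 * g 1 0 ∧ (g * T ^ n * g⁻¹) 0 1 = n * (g 0 0) ^ 2 ∧
      (g * T ^ n * g⁻¹) 1 0 = -(n * (g 1 0) ^ 2) ∧
      (g * T ^ n * g⁻¹) 1 1 = 1 + n * g 0 0 * g 1 0 := by
  have hdet := lrpd_par_det g
  obtain ⟨t00, t01, t10, t11⟩ := lrpd_par_T_zpow_entries n
  obtain ⟨e00, e01, e10, e11⟩ := lrpd_par_conj_entries g (T ^ n)
  simp only [t00, t01, t10, t11] at e00 e01 e10 e11
  refine ⟨?_, ?_, ?_, ?_⟩
  · rw [e00]; linear_combination hdet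
  · rw [e01]; ring
  · rw [e10]; ring
  · rw [e11]; linear_combination hdet

theorem lrpd_par_tr (g : SL(2, ℤ)) (n : ℤ) :
    (g * T ^ n * g⁻¹) 0 0 + (g * T ^ n * g⁻¹) 1 1 = 2 := by
  obtain ⟨h00, _, _, h11⟩ := lrpd_par_conj_apply g n
  rw [h00, h11]; ring

theorem lrpd_par_col_pos (g : SL(2, ℤ)) : 0 < (g 0 0) ^ 2 + (g 1 0) ^ 2 := by
  have hdet := lrpd_par_det g
  by_contra hneg
  have h1 : (g 0 0) ^ 2 + (g 1 0) ^ 2 = 0 := by
    have := sq_nonneg (g 0 0); have := sq_nonneg (g 1 0); omega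
  have h2 : g 0 0 = 0 := by nlinarith [sq_nonneg (g 0 0), sq_nonneg (g 1 0)]
  have h3 : g 1 0 = 0 := by nlinarith [sq_nonneg (g 0 0), sq_nonneg (g 1 0)]
  rw [h2, h3] at hdet
  simp at hdet

/-- **(P2)** positivity of `g T ^ n g⁻¹` is the sign of `n`. -/
theorem lrpd_par_pos_iff (g : SL(2, ℤ)) (n : ℤ) :
    0 < n ↔ 0 < (g * T ^ n * g⁻¹) 0 1 - (g * T ^ n * g⁻¹) 1 0 := by
  obtain ⟨_, h01, h10, _⟩ := lrpd_par_conj_apply g n
  rw [h01, h10]
  have hpos := lrpd_par_col_pos g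
  have e : n * g 0 0 ^ 2 - -(n * g 1 0 ^ 2) = n * ((g 0 0) ^ 2 + (g 1 0) ^ 2) := by ring
  rw [e]
  constructor
  · intro hn; exact mul_pos hn hpos
  · intro hn
    by_contra h0
    have : n ≤ 0 := not_lt.mp h0
    have := mul_nonpos_of_nonpos_of_nonneg this hpos.le
    omega

/-- **(P2)** for a trace-2 element, `π₀₁ π₁₀ ≤ 0`. -/
theorem lrpd_par_mul_nonpos (π : SL(2, ℤ)) (htr : π 0 0 + π 1 1 = 2) : π 0 1 * π 1 0 ≤ 0 :=
  lrpd_par_bc_nonpos π htr

/-- **(P2)** `Ad(diag(q, 1))` preserves positivity. -/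
theorem lrpd_par_pos_scale (π π' : SL(2, ℤ)) (q : ℤ) (hq : 0 < q)
    (htr : π 0 0 + π 1 1 = 2) (h01 : π' 0 1 = q * π 0 1) (h10 : q * π' 1 0 = π 1 0) :
    0 < π' 0 1 - π' 1 0 ↔ 0 < π 0 1 - π 1 0 :=
  (lrpd_par_pos_diag π π' q hq h01 h10.symm htr).symm

/-- **(P3)** corollary: the width and the cusp of a parabolic element are well defined. -/
theorem lrpd_par_unique (g g' : SL(2, ℤ)) (n n' : ℤ)
    (h : g * T ^ n * g⁻¹ = g' * T ^ n' * g'⁻¹) (hn : n ≠ 0) :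
    n' = n ∧ ∃ k : ℤ, g' = g * T ^ k ∨ g' = -(g * T ^ k) := by
  have e : (g'⁻¹ * g) * T ^ n * (g'⁻¹ * g)⁻¹ = T ^ n' := by
    have : (g'⁻¹ * g) * T ^ n * (g'⁻¹ * g)⁻¹ = g'⁻¹ * (g * T ^ n * g⁻¹) * g' := by group
    rw [this, h]; group
  obtain ⟨hn', k, hk⟩ := lrpd_par_normalizer _ n n' hn e
  refine ⟨hn', -k, ?_⟩
  rcases hk with hk | hk
  · left
    have : g' = g * (g'⁻¹ * g)⁻¹ := by group
    rw [this, hk, _root_.zpow_neg]
  · right
    have : g' = g * (g'⁻¹ * g)⁻¹ := by group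
    rw [this, hk, _root_.zpow_neg]
    have hneg : (-T ^ k : SL(2, ℤ))⁻¹ = -(T ^ k)⁻¹ := by
      rw [eq_comm, ← mul_eq_one_iff_eq_inv, neg_mul_neg, inv_mul_cancel]
    rw [hneg, mul_neg]

/-! ### (c) elliptic elements of order 3 -/

theorem lrpd_par_S_entries :
    (S : SL(2, ℤ)) 0 0 = 0 ∧ (S : SL(2, ℤ)) 0 1 = -1 ∧ (S : SL(2, ℤ)) 1 0 = 1 ∧
      (S : SL(2, ℤ)) 1 1 = 0 := by
  rw [coe_S]; exact ⟨rfl, rfl, rfl, rfl⟩

theorem lrpd_par_t_entries :
    (S⁻¹ * T : SL(2, ℤ)) 0 0 = 0 ∧ (S⁻¹ * T : SL(2, ℤ)) 0 1 = 1 ∧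
      (S⁻¹ * T : SL(2, ℤ)) 1 0 = -1 ∧ (S⁻¹ * T : SL(2, ℤ)) 1 1 = -1 := by
  refine ⟨?_, ?_, ?_, ?_⟩ <;>
  simp [Matrix.SpecialLinearGroup.coe_mul, Matrix.SpecialLinearGroup.coe_inv, coe_S, coe_T,
    Matrix.adjugate_fin_two, Matrix.mul_apply, Fin.sum_univ_two]

theorem lrpd_par_tinv_entries :
    ((S⁻¹ * T)⁻¹ : SL(2, ℤ)) 0 0 = -1 ∧ ((S⁻¹ * T)⁻¹ : SL(2, ℤ)) 0 1 = -1 ∧
      ((S⁻¹ * T)⁻¹ : SL(2, ℤ)) 1 0 = 1 ∧ ((S⁻¹ * T)⁻¹ : SL(2, ℤ)) 1 1 = 0 := by
  obtain ⟨h00, h01, h10, h11⟩ := lrpd_par_t_entries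
  refine ⟨?_, ?_, ?_, ?_⟩
  · rw [Matrix.SpecialLinearGroup.coe_inv, Matrix.adjugate_fin_two]; exact h11
  · rw [Matrix.SpecialLinearGroup.coe_inv, Matrix.adjugate_fin_two]
    show -((S⁻¹ * T : SL(2, ℤ)) 0 1) = -1
    rw [h01]
  · rw [Matrix.SpecialLinearGroup.coe_inv, Matrix.adjugate_fin_two]
    show -((S⁻¹ * T : SL(2, ℤ)) 1 0) = 1
    rw [h10]; rfl
  · rw [Matrix.SpecialLinearGroup.coe_inv, Matrix.adjugate_fin_two]; exact h00

/-- **(c)** an element of trace `-1` is conjugate to `t = S⁻¹ T` or to `t⁻¹`. -/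
theorem lrpd_par_ell3 (g : SL(2, ℤ)) (ht : g 0 0 + g 1 1 = -1) :
    ∃ u : SL(2, ℤ), u * g * u⁻¹ = S⁻¹ * T ∨ u * g * u⁻¹ = (S⁻¹ * T)⁻¹ := by
  -- strong induction on `|g 1 0|`
  suffices H : ∀ n : ℕ, ∀ g : SL(2, ℤ), g 0 0 + g 1 1 = -1 → (g 1 0).natAbs = n →
      ∃ u : SL(2, ℤ), u * g * u⁻¹ = S⁻¹ * T ∨ u * g * u⁻¹ = (S⁻¹ * T)⁻¹ from
    H _ g ht rfl
  intro n
  induction n using Nat.strong_induction_on with
  | _ n ih =>
    intro g ht hn
    have hdet := lrpd_par_det g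
    -- `c ≠ 0`
    have hc : g 1 0 ≠ 0 := by
      intro h0
      rw [h0] at hdet
      have had : g 0 0 * g 1 1 = 1 := by linarith
      rcases Int.eq_one_or_neg_one_of_mul_eq_one' had with ⟨ha, hd⟩ | ⟨ha, hd⟩
      · rw [ha, hd] at ht; omega
      · rw [ha, hd] at ht; omega
    -- normalise `a` by a power of `T`
    set k : ℤ := -(g 0 0 / g 1 0) with hk
    obtain ⟨t00, t01, t10, t11⟩ := lrpd_par_T_zpow_entries k
    obtain ⟨e00, e01, e10, e11⟩ := lrpd_par_conj_entries (T ^ k) g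
    simp only [t00, t01, t10, t11] at e00 e01 e10 e11
    set g' : SL(2, ℤ) := T ^ k * g * (T ^ k)⁻¹ with hg'
    have ha' : g' 0 0 = g 0 0 % g 1 0 := by
      rw [e00, Int.emod_def, hk]; ring
    have hc' : g' 1 0 = g 1 0 := by rw [e10]; ring
    have ht' : g' 0 0 + g' 1 1 = -1 := by rw [e00, e11]; linarith
    have hdet' := lrpd_par_det g'
    have h0a : 0 ≤ g' 0 0 := by rw [ha']; exact Int.emod_nonneg _ hc
    have hac : g' 0 0 < ((g 1 0).natAbs : ℤ) := by rw [ha']; exact Int.emod_lt _ hc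
    have hbc : g' 0 1 * g' 1 0 = -(g' 0 0 * g' 0 0 + g' 0 0 + 1) := by
      have hd : g' 1 1 = -1 - g' 0 0 := by linarith
      rw [hd] at hdet'
      linear_combination (-1 : ℤ) * hdet'
    rcases Nat.lt_or_ge n 2 with hn2 | hn2
    · -- `|c| = 1`
      have hn1 : n = 1 := by
        have : n ≠ 0 := by
          intro h0; rw [h0] at hn; exact hc (Int.natAbs_eq_zero.mp hn)
        omega
      rw [hn, hn1] at hac
      have ha0 : g' 0 0 = 0 := by
        have : g' 0 0 < 1 := by exact_mod_cast hac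
        omega
      have hd0 : g' 1 1 = -1 := by linarith
      rw [ha0] at hbc
      rw [hn1] at hn
      rcases Int.natAbs_eq_iff.mp hn with h1 | h1
      · -- `c = 1`: `g' = [[0, -1], [1, -1]] = S t⁻¹ S⁻¹`
        have hc1 : g' 1 0 = 1 := by rw [hc', h1]; rfl
        have hb1 : g' 0 1 = -1 := by rw [hc1] at hbc; linarith
        refine ⟨S⁻¹ * T ^ k, Or.inr ?_⟩
        have e : S⁻¹ * T ^ k * g * (S⁻¹ * T ^ k)⁻¹ = S⁻¹ * g' * (S⁻¹)⁻¹ := by
          rw [hg']; group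
        rw [e]
        obtain ⟨f00, f01, f10, f11⟩ := lrpd_par_conj_entries S⁻¹ g'
        obtain ⟨s00, s01, s10, s11⟩ := lrpd_par_S_entries
        have i00 : (S⁻¹ : SL(2, ℤ)) 0 0 = 0 := by
          rw [Matrix.SpecialLinearGroup.coe_inv, Matrix.adjugate_fin_two]; exact s11
        have i01 : (S⁻¹ : SL(2, ℤ)) 0 1 = 1 := by
          rw [Matrix.SpecialLinearGroup.coe_inv, Matrix.adjugate_fin_two]
          show -((S : SL(2, ℤ)) 0 1) = 1
          rw [s01]; rfl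
        have i10 : (S⁻¹ : SL(2, ℤ)) 1 0 = -1 := by
          rw [Matrix.SpecialLinearGroup.coe_inv, Matrix.adjugate_fin_two]
          show -((S : SL(2, ℤ)) 1 0) = -1
          rw [s10]
        have i11 : (S⁻¹ : SL(2, ℤ)) 1 1 = 0 := by
          rw [Matrix.SpecialLinearGroup.coe_inv, Matrix.adjugate_fin_two]; exact s00
        simp only [i00, i01, i10, i11, ha0, hb1, hc1, hd0] at f00 f01 f10 f11
        obtain ⟨w00, w01, w10, w11⟩ := lrpd_par_tinv_entries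
        apply lrpd_par_ext
        · rw [f00, w00]; ring
        · rw [f01, w01]; ring
        · rw [f10, w10]; ring
        · rw [f11, w11]; ring
      · -- `c = -1`: `g' = [[0, 1], [-1, -1]] = t`
        have hc1 : g' 1 0 = -1 := by rw [hc', h1]; rfl
        have hb1 : g' 0 1 = 1 := by rw [hc1] at hbc; linarith
        refine ⟨T ^ k, Or.inl ?_⟩
        rw [← hg']
        obtain ⟨w00, w01, w10, w11⟩ := lrpd_par_t_entries
        apply lrpd_par_ext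
        · rw [ha0, w00]
        · rw [hb1, w01]
        · rw [hc1, w10]
        · rw [hd0, w11]
    · -- `|c| ≥ 2`: conjugate by `S` and use the induction hypothesis
      set C : ℤ := ((g 1 0).natAbs : ℤ) with hC
      have hC2 : 2 ≤ C := by rw [hC, hn]; exact_mod_cast hn2
      have hCabs : C = |g' 1 0| := by rw [hc', hC, Int.abs_eq_natAbs]
      set B : ℤ := |g' 0 1| with hB
      have hBC : B * C = g' 0 0 * g' 0 0 + g' 0 0 + 1 := by
        rw [hB, hCabs, ← abs_mul, hbc, abs_neg]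
        apply abs_of_nonneg
        nlinarith
      have hlt : B < C := by
        have h1 : g' 0 0 ≤ C - 1 := by omega
        have h2 : g' 0 0 * g' 0 0 ≤ (C - 1) * (C - 1) := mul_le_mul h1 h1 h0a (by omega)
        have h3 : B * C < C * C := by nlinarith
        exact lt_of_mul_lt_mul_right h3 (by omega)
      obtain ⟨f00, f01, f10, f11⟩ := lrpd_par_conj_entries S g'
      obtain ⟨s00, s01, s10, s11⟩ := lrpd_par_S_entries
      simp only [s00, s01, s10, s11] at f00 f01 f10 f11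
      set g'' : SL(2, ℤ) := S * g' * S⁻¹ with hg''
      have ht'' : g'' 0 0 + g'' 1 1 = -1 := by rw [f00, f11]; linarith
      have hc'' : g'' 1 0 = -g' 0 1 := by rw [f10]; ring
      have hlt' : (g'' 1 0).natAbs < n := by
        rw [hc'', Int.natAbs_neg]
        have : ((g' 0 1).natAbs : ℤ) < (n : ℤ) := by
          rw [← Int.abs_eq_natAbs, ← hB, ← hn, ← hC]; exact hlt
        exact_mod_cast this
      obtain ⟨u, hu⟩ := ih _ hlt' g'' ht'' rfl
      refine ⟨u * S * T ^ k, ?_⟩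
      have e : u * S * T ^ k * g * (u * S * T ^ k)⁻¹ = u * g'' * u⁻¹ := by
        rw [hg'', hg']; group
      rw [e]
      exact hu


/-- the trace `+1` twin of `lrpd_par_ell3` -/
theorem lrpd_par_ell6 (g : SL(2, ℤ)) (ht : g 0 0 + g 1 1 = 1) :
    ∃ u : SL(2, ℤ), u * g * u⁻¹ = -(S⁻¹ * T) ∨ u * g * u⁻¹ = -(S⁻¹ * T)⁻¹ := by
  have ht' : (-g) 0 0 + (-g) 1 1 = -1 := by
    rw [Matrix.SpecialLinearGroup.coe_neg, Matrix.neg_apply, Matrix.neg_apply]; linarith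
  obtain ⟨u, hu⟩ := lrpd_par_ell3 (-g) ht'
  refine ⟨u, ?_⟩
  have e : u * g * u⁻¹ = -(u * -g * u⁻¹) := by
    rw [mul_neg, neg_mul, neg_neg]
  rcases hu with h | h
  · left; rw [e, h]
  · right; rw [e, h]

end Fermat.Agent.LR
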