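/-
LR / cell [PD-CUSP] part 2 (helper9): the orbit system (C2) of finding #2784 (3).

For a finite-index subgroup `Γ ≤ SL(2,ℤ)` containing `-1` and ANY choice of representatives
`rep : lrpc_Orb Γ → SL(2,ℤ)` of the `T`-orbits on `SL(2,ℤ) ⧸ Γ`, the elements
`(rep O)⁻¹ * T ^ width * rep O` form a system of representatives of the `Γ`-conjugacy classes of
primitive positive parabolic elements of `Γ`:

* `lrpc_genAt_isPPP` : `h⁻¹ T ^ w h` is primitive positive parabolic in `Γ`;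
* `lrpc_isSys_of_rep`, `lrpc_orbit_isSys` : the orbit system is a system.

Uses helper26's `LR/PD/Par.lean` (classification of parabolics, sign, normaliser of `T ^ h`).
Prefix `lrpc_`.
-/
import Mathlib
import Fermat.Agent.LR.PD.Cusp
import Fermat.Agent.LR.PD.Par

set_option autoImplicit false

namespace Fermat.Agent.LR

open ModularGroup
open scoped MatrixGroups

section

variable (Γ : Subgroup SL(2,ℤ))

theorem lrpc_conj_pow (u x : SL(2,ℤ)) (k : ℕ) : (u⁻¹ * x * u) ^ k = u⁻¹ * x ^ k * u := by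
  have := conj_pow (a := u⁻¹) (b := x) (i := k)
  rwa [inv_inv] at this

theorem lrpc_neg_conj (x y : SL(2,ℤ)) : (-x)⁻¹ * y * (-x) = x⁻¹ * y * x := by
  have h : (-x : SL(2,ℤ))⁻¹ = -x⁻¹ := by
    rw [eq_comm, ← mul_eq_one_iff_eq_inv, neg_mul_neg, inv_mul_cancel]
  rw [h, neg_mul, neg_mul, mul_neg, neg_neg]

theorem lrpc_genAt_eq_zpow (h : SL(2,ℤ)) :
    lrpc_genAt Γ h = h⁻¹ * T ^ (lrpc_widthAt Γ h : ℤ) * h := by
  rw [lrpc_genAt, zpow_natCast]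

theorem lrpc_genAt_tr (h : SL(2,ℤ)) : (lrpc_genAt Γ h) 0 0 + (lrpc_genAt Γ h) 1 1 = 2 := by
  rw [lrpc_genAt_eq_zpow]
  have := lrpd_par_tr h⁻¹ (lrpc_widthAt Γ h : ℤ)
  rwa [inv_inv] at this

theorem lrpc_genAt_pos [Γ.FiniteIndex] (h : SL(2,ℤ)) :
    0 < (lrpc_genAt Γ h) 0 1 - (lrpc_genAt Γ h) 1 0 := by
  rw [← lrpd_par_sign (lrpc_genAt Γ h) h (lrpc_widthAt Γ h : ℤ) (lrpc_genAt_eq_zpow Γ h)]
  exact_mod_cast lrpc_widthAt_pos Γ h

/-- `h⁻¹ T ^ w h` (`w` the width of the orbit of `h Γ`) is primitive positive parabolic in `Γ`. -/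
theorem lrpc_genAt_isPPP [Γ.FiniteIndex] (h : SL(2,ℤ)) : lrpc_IsPPP Γ (lrpc_genAt Γ h) := by
  have hwpos : (0 : ℤ) < (lrpc_widthAt Γ h : ℤ) := by exact_mod_cast lrpc_widthAt_pos Γ h
  have hpos := lrpc_genAt_pos Γ h
  have hne : lrpc_genAt Γ h ≠ 1 := by
    intro h1
    rw [h1] at hpos
    simp at hpos
  refine ⟨lrpc_genAt_mem Γ h, lrpc_genAt_tr Γ h, hne, hpos, ?_⟩
  intro ρ hρ htr k hk
  have hρ1 : ρ ≠ 1 := by
    intro h1
    rw [h1, one_pow] at hk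
    exact hne hk.symm
  obtain ⟨u, m, hm, hρu⟩ := lrpd_par_conj ρ htr hρ1
  -- `u⁻¹ T ^ (m k) u = h⁻¹ T ^ w h`
  have hk' : u⁻¹ * T ^ (m * (k : ℤ)) * u = h⁻¹ * T ^ (lrpc_widthAt Γ h : ℤ) * h := by
    rw [← lrpc_genAt_eq_zpow, ← hk, hρu, lrpc_conj_pow, zpow_mul, zpow_natCast]
  have e : (u * h⁻¹) * T ^ (lrpc_widthAt Γ h : ℤ) * (u * h⁻¹)⁻¹ = T ^ (m * (k : ℤ)) := by
    have : (u * h⁻¹) * T ^ (lrpc_widthAt Γ h : ℤ) * (u * h⁻¹)⁻¹
        = u * (h⁻¹ * T ^ (lrpc_widthAt Γ h : ℤ) * h) * u⁻¹ := by group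
    rw [this, ← hk']
    group
  obtain ⟨hmk, j, hj⟩ := lrpd_par_normalizer _ _ _ hwpos.ne' e
  -- `ρ = h⁻¹ T ^ m h`
  have hρh : ρ = h⁻¹ * T ^ m * h := by
    rcases hj with hj | hj
    · have hu : u = T ^ j * h := by rw [← hj]; group
      rw [hρu, hu, lrpc_conj_zpow_mul]
    · have hu : u = -(T ^ j * h) := by
        have : u = (u * h⁻¹) * h := by group
        rw [this, hj, neg_mul]
      rw [hρu, hu, lrpc_neg_conj, lrpc_conj_zpow_mul]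
  have hdvd : (lrpc_widthAt Γ h : ℤ) ∣ m := by
    rw [← lrpc_conj_mem_iff, ← hρh]
    exact hρ
  obtain ⟨m', hm'⟩ := hdvd
  -- `w m' k = w`
  have h1 : m' * (k : ℤ) = 1 := by
    have : (lrpc_widthAt Γ h : ℤ) * (m' * (k : ℤ)) = (lrpc_widthAt Γ h : ℤ) * 1 := by
      rw [mul_one, ← mul_assoc, ← hm', hmk]
    exact mul_left_cancel₀ hwpos.ne' this
  have h2 : (k : ℤ) = 1 ∨ (k : ℤ) = -1 := Int.eq_one_or_neg_one_of_mul_eq_one' h1 |>.elim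
    (fun h => Or.inl h.2) (fun h => Or.inr h.2)
  rcases h2 with h2 | h2
  · exact_mod_cast h2
  · omega

/-- **(C2)** For any choice of representatives of the `T`-orbits, the generators form a system. -/
theorem lrpc_isSys_of_rep [Γ.FiniteIndex] (hneg : (-1 : SL(2,ℤ)) ∈ Γ)
    (rep : lrpc_Orb Γ → SL(2,ℤ))
    (hrep : ∀ O, (Quotient.mk'' ((rep O : SL(2,ℤ)) : SL(2,ℤ) ⧸ Γ) : lrpc_Orb Γ) = O) :
    lrpc_IsSys Γ (fun O => lrpc_genAt Γ (rep O)) := by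
  refine ⟨fun O => lrpc_genAt_isPPP Γ (rep O), ?_, ?_⟩
  · -- completeness
    rintro ρ ⟨hρ, htr, hρ1, hpos, hprim⟩
    obtain ⟨u, m, hm, hρu⟩ := lrpd_par_conj ρ htr hρ1
    have hmpos : 0 < m := (lrpd_par_sign ρ u m hρu).2 hpos
    set O : lrpc_Orb Γ := Quotient.mk'' ((u : SL(2,ℤ)) : SL(2,ℤ) ⧸ Γ) with hO
    obtain ⟨j, γ₀, hγ₀, hh⟩ := (lrpc_orb_eq_iff Γ (rep O) u).1 (hrep O)
    have hgen : lrpc_genAt Γ (rep O) = γ₀⁻¹ * lrpc_genAt Γ u * γ₀ := by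
      rw [hh, lrpc_genAt_mul_mem Γ _ hγ₀, lrpc_genAt_zpow_mul]
    have hwpos : (0 : ℤ) < (lrpc_widthAt Γ u : ℤ) := by exact_mod_cast lrpc_widthAt_pos Γ u
    have hdvd : (lrpc_widthAt Γ u : ℤ) ∣ m := by
      rw [← lrpc_conj_mem_iff, ← hρu]
      exact hρ
    obtain ⟨m', hm'⟩ := hdvd
    have hm'pos : 0 < m' := by
      by_contra hcon
      have : m' ≤ 0 := not_lt.mp hcon
      have := mul_nonpos_of_nonneg_of_nonpos hwpos.le this
      omega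
    have hpow : (lrpc_genAt Γ u) ^ m'.toNat = ρ := by
      rw [lrpc_genAt_eq_zpow, lrpc_conj_pow, ← zpow_natCast, ← zpow_mul,
        Int.toNat_of_nonneg hm'pos.le, ← hm', ← hρu]
    have h1 : m'.toNat = 1 := hprim _ (lrpc_genAt_mem Γ u) (lrpc_genAt_tr Γ u) _ hpow
    rw [h1, pow_one] at hpow
    refine ⟨O, γ₀, hγ₀, ?_⟩
    rw [hgen, ← hpow]
    group
  · -- irredundancy
    rintro O O' ⟨γ, hγ, hconj⟩
    have hw'pos : (0 : ℤ) < (lrpc_widthAt Γ (rep O') : ℤ) := by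
      exact_mod_cast lrpc_widthAt_pos Γ (rep O')
    rw [lrpc_genAt_eq_zpow, lrpc_genAt_eq_zpow] at hconj
    have e : (rep O * γ * (rep O')⁻¹) * T ^ (lrpc_widthAt Γ (rep O') : ℤ)
        * (rep O * γ * (rep O')⁻¹)⁻¹ = T ^ (lrpc_widthAt Γ (rep O) : ℤ) := by
      have : (rep O * γ * (rep O')⁻¹) * T ^ (lrpc_widthAt Γ (rep O') : ℤ)
          * (rep O * γ * (rep O')⁻¹)⁻¹
          = rep O * (γ * ((rep O')⁻¹ * T ^ (lrpc_widthAt Γ (rep O') : ℤ) * rep O') * γ⁻¹)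
            * (rep O)⁻¹ := by group
      rw [this, ← hconj]
      group
    obtain ⟨-, k, hk⟩ := lrpd_par_normalizer _ _ _ hw'pos.ne' e
    rw [← hrep O, ← hrep O', lrpc_orb_eq_iff]
    rcases hk with hk | hk
    · refine ⟨k, γ⁻¹, Γ.inv_mem hγ, ?_⟩
      rw [← hk]
      group
    · refine ⟨k, -γ⁻¹, ?_, ?_⟩
      · have : (-γ⁻¹ : SL(2,ℤ)) = (-1) * γ⁻¹ := by rw [neg_mul, one_mul]
        rw [this]
        exact Γ.mul_mem hneg (Γ.inv_mem hγ)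
      · have h1 : T ^ k = -(rep O * γ * (rep O')⁻¹) := by rw [hk, neg_neg]
        rw [h1, neg_mul, neg_mul, mul_neg, neg_neg]
        group

/-- **(C2)** The orbit system for the chosen representatives `lrpc_rep`. -/
theorem lrpc_orbit_isSys [Γ.FiniteIndex] (hneg : (-1 : SL(2,ℤ)) ∈ Γ) :
    lrpc_IsSys Γ (lrpc_gen Γ) :=
  lrpc_isSys_of_rep Γ hneg (lrpc_rep Γ) (lrpc_rep_spec Γ)

end

end Fermat.Agent.LR
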