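import Mathlib
import Fermat.Agent.LR.PD.OmS
import Fermat.Agent.LR.PD.CuspSys
import Fermat.Agent.LR.PD.Ell2
import Fermat.Agent.LR.PD.Model.Cup
import Fermat.Agent.LR.PD.Fib

/-!
# LR / node [PD], cell (S4): transport of the pairing `lrpd_OmS` (helper26, prefix `lrpd_tp_`)

For finite-index subgroups `Γ₁, Γ₂ ≤ SL(2, ℤ)` containing `-1` and an isomorphism `θ : Γ₁ ≃* Γ₂`
preserving traces and the orientation of the parabolic elements,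
`lrpd_OmS Γ₁ (x ∘ θ) (y ∘ θ) = lrpd_OmS Γ₂ x y` (field `transport` of `lrpd_SFam`, with
`Om := lrpd_OmS`), given the INTRINSIC THEOREM (cusp-sum formula for every normalised cup-primitive)
as an explicit hypothesis `hintr`.

Route: a normalised cup-primitive `β₂` of `(x, y)` on `Γ₂` (`lrpdm_cup_main` + `lrpd_ell_norm_of_kills`);
`β₁ := β₂ ∘ θ` is a normalised cup-primitive of the pull-backs (`θ (-1) = -1` because an involution of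
trace `-2` is `-1`); `hintr` on both sides; the two cusp sums agree by `lrpc_sum_eq` applied to the
transported orbit system `lrpc_transport θ … (lrpc_orbit_isSys Γ₁ _)` and to `lrpc_orbit_isSys Γ₂ _`,
the class function being `β₂` (`lrpd_cup_conj`).
-/

set_option autoImplicit false

open Matrix ModularGroup
open scoped MatrixGroups

noncomputable section

namespace Fermat.Agent.LR

/-- an involution of trace `-2` in `SL(2, ℤ)` is `-1` -/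
theorem lrpd_tp_eq_neg_one (g : SL(2, ℤ)) (hsq : g * g = 1) (htr : g 0 0 + g 1 1 = -2) :
    g = -1 := by
  have h01 : (g * g) 0 1 = (1 : SL(2, ℤ)) 0 1 := by rw [hsq]
  have h10 : (g * g) 1 0 = (1 : SL(2, ℤ)) 1 0 := by rw [hsq]
  have h00 : (g * g) 0 0 = (1 : SL(2, ℤ)) 0 0 := by rw [hsq]
  have h11 : (g * g) 1 1 = (1 : SL(2, ℤ)) 1 1 := by rw [hsq]
  simp only [Matrix.SpecialLinearGroup.coe_mul, Matrix.SpecialLinearGroup.coe_one,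
    Matrix.mul_apply, Fin.sum_univ_two, Matrix.one_apply_eq, Matrix.one_apply_ne,
    ne_eq, zero_ne_one, one_ne_zero, not_false_eq_true] at h00 h01 h10 h11
  have hb : g 0 1 = 0 := by
    have : g 0 1 * (g 0 0 + g 1 1) = 0 := by linear_combination h01
    rw [htr] at this
    have h2 : (-2 : ℤ) ≠ 0 := by norm_num
    exact (mul_eq_zero.mp this).resolve_right h2
  have hc : g 1 0 = 0 := by
    have : g 1 0 * (g 0 0 + g 1 1) = 0 := by linear_combination h10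
    rw [htr] at this
    have h2 : (-2 : ℤ) ≠ 0 := by norm_num
    exact (mul_eq_zero.mp this).resolve_right h2
  rw [hb, hc] at h00 h11
  have hsum : (g 0 0 + 1) ^ 2 + (g 1 1 + 1) ^ 2 = 0 := by
    linear_combination h00 + h11 + 2 * htr
  have ha : g 0 0 = -1 := by
    have h1 := sq_nonneg (g 0 0 + 1)
    have h2 := sq_nonneg (g 1 1 + 1)
    have : (g 0 0 + 1) ^ 2 = 0 := by linarith
    have := pow_eq_zero_iff (n := 2) (by norm_num) |>.mp this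
    linarith
  have hd : g 1 1 = -1 := by linarith
  refine lrpd_par_ext ?_ ?_ ?_ ?_
  · rw [ha]; decide
  · rw [hb]; decide
  · rw [hc]; decide
  · rw [hd]; decide

/-- **(S4), transport** of the pairing along a trace- and orientation-preserving isomorphism,
from the intrinsic theorem `hintr`. -/
theorem lrpd_tp_transport {k : Type*} [Field k] (h2 : (2 : k) ≠ 0)
    (hintr : ∀ (Γ : Subgroup SL(2, ℤ)) [Γ.FiniteIndex] [Fintype (lrpc_Orb Γ)],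
      (-1 : SL(2, ℤ)) ∈ Γ → ∀ (x x' : Additive Γ →+ k), lrpd_PE Γ x → lrpd_PE Γ x' →
      ∀ β : Γ → k, lrpd_IsCup (lrpdm_ev Γ x) (lrpdm_ev Γ x') β →
      (∀ γ : Γ, (lrpd_tr (γ : SL(2, ℤ)) ^ 2 < 4 ∨ (γ : SL(2, ℤ)) = -1) → β γ = 0) →
      ∑ O : lrpc_Orb Γ, β ⟨lrpc_gen Γ O, lrpc_gen_mem Γ O⟩ = lrpd_OmS Γ x x')
    (Γ₁ Γ₂ : Subgroup SL(2, ℤ)) [Γ₁.FiniteIndex] [Γ₂.FiniteIndex]
    (hneg₁ : (-1 : SL(2, ℤ)) ∈ Γ₁) (hneg₂ : (-1 : SL(2, ℤ)) ∈ Γ₂) (θ : Γ₁ ≃* Γ₂)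
    (htr : ∀ γ : Γ₁, lrpd_tr (θ γ : SL(2, ℤ)) = lrpd_tr (γ : SL(2, ℤ)))
    (hpos : ∀ γ : Γ₁, lrpd_tr (γ : SL(2, ℤ)) = 2 →
      (lrpd_posi (θ γ : SL(2, ℤ)) ↔ lrpd_posi (γ : SL(2, ℤ))))
    (x y : Additive Γ₂ →+ k) (hx : lrpd_PE Γ₂ x) (hy : lrpd_PE Γ₂ y) :
    lrpd_OmS Γ₁ (lrpd_pull θ.toMonoidHom x) (lrpd_pull θ.toMonoidHom y) = lrpd_OmS Γ₂ x y := by
  classical
  have : Finite (SL(2, ℤ) ⧸ Γ₁) := Subgroup.finite_quotient_of_finiteIndex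
  have : Finite (SL(2, ℤ) ⧸ Γ₂) := Subgroup.finite_quotient_of_finiteIndex
  let _ : Fintype (lrpc_Orb Γ₁) := Fintype.ofFinite _
  let _ : Fintype (lrpc_Orb Γ₂) := Fintype.ofFinite _
  -- the pulled-back characters kill the elements with `tr² ≤ 4`
  have hx₁ : lrpd_PE Γ₁ (lrpd_pull θ.toMonoidHom x) := by
    intro γ hγ
    show x (Additive.ofMul (θ γ)) = 0
    exact hx (θ γ) (by rw [htr]; exact hγ)
  have hy₁ : lrpd_PE Γ₁ (lrpd_pull θ.toMonoidHom y) := by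
    intro γ hγ
    show y (Additive.ofMul (θ γ)) = 0
    exact hy (θ γ) (by rw [htr]; exact hγ)
  -- a normalised cup-primitive of `(x, y)` on `Γ₂`
  obtain ⟨β₂, hmul, hS, hU, -⟩ := lrpdm_cup_main h2 (lrpd_PU hx) (lrpd_CT hx) (lrpd_PU hy)
    (lrpd_CT hy) (lrpd_PU_prim hx) (lrpd_CT_prim hx) (lrpd_PU_prim hy) (lrpd_CT_prim hy)
    (lrpd_PU_inv hx) (lrpd_CT_inv hx) (lrpd_PU_inv hy) (lrpd_CT_inv hy)
  have hN₂ : ∀ γ : Γ₂, (lrpd_tr (γ : SL(2, ℤ)) ^ 2 < 4 ∨ (γ : SL(2, ℤ)) = -1) → β₂ γ = 0 := by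
    intro γ hγ
    refine lrpd_ell_norm_of_kills Γ₂ β₂ ?_ ?_ γ hγ
    · intro h n hm
      have hm' : h⁻¹ * S ^ (n : ℤ) * h ∈ Γ₂ := by rw [zpow_natCast]; exact hm
      have h0 := hS h (n : ℤ) hm'
      have e : (⟨_, hm'⟩ : Γ₂) = ⟨_, hm⟩ :=
        Subtype.ext (by show h⁻¹ * S ^ (n : ℤ) * h = h⁻¹ * S ^ n * h; rw [zpow_natCast])
      rwa [e] at h0
    · intro h n hm
      have hm' : h⁻¹ * lrpdm_U ^ (n : ℤ) * h ∈ Γ₂ := by rw [zpow_natCast]; exact hm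
      have h0 := hU h (n : ℤ) hm'
      have e : (⟨_, hm'⟩ : Γ₂) = ⟨_, hm⟩ :=
        Subtype.ext (by
          show h⁻¹ * lrpdm_U ^ (n : ℤ) * h = h⁻¹ * (S * T) ^ n * h; rw [zpow_natCast])
      rwa [e] at h0
  -- its pull-back
  have hcup₁ : lrpd_IsCup (lrpdm_ev Γ₁ (lrpd_pull θ.toMonoidHom x))
      (lrpdm_ev Γ₁ (lrpd_pull θ.toMonoidHom y)) (fun γ => β₂ (θ γ)) := by
    intro γ γ'
    show β₂ (θ (γ * γ')) = β₂ (θ γ) + β₂ (θ γ') + lrpdm_ev Γ₂ x (θ γ) * lrpdm_ev Γ₂ y (θ γ')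
    rw [map_mul, hmul]
  have hθneg : ((θ ⟨-1, hneg₁⟩ : Γ₂) : SL(2, ℤ)) = -1 := by
    apply lrpd_tp_eq_neg_one
    · have h1 : (⟨-1, hneg₁⟩ : Γ₁) * ⟨-1, hneg₁⟩ = 1 :=
        Subtype.ext (by show (-1 : SL(2, ℤ)) * -1 = 1; decide)
      have h3 := congrArg θ h1
      rw [map_mul, map_one] at h3
      have h4 := congrArg Subtype.val h3
      simpa using h4
    · have h1 := htr ⟨-1, hneg₁⟩
      unfold lrpd_tr at h1
      rw [h1]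
      show (-1 : SL(2, ℤ)) 0 0 + (-1 : SL(2, ℤ)) 1 1 = -2
      decide
  have hN₁ : ∀ γ : Γ₁, (lrpd_tr (γ : SL(2, ℤ)) ^ 2 < 4 ∨ (γ : SL(2, ℤ)) = -1) →
      (fun γ => β₂ (θ γ)) γ = 0 := by
    intro γ hγ
    show β₂ (θ γ) = 0
    apply hN₂
    rcases hγ with hγ | hγ
    · left; rw [htr]; exact hγ
    · right
      have e : γ = ⟨-1, hneg₁⟩ := Subtype.ext hγ
      rw [e]; exact hθneg
  -- the intrinsic theorem on both sides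
  have e₁ := hintr Γ₁ hneg₁ _ _ hx₁ hy₁ (fun γ => β₂ (θ γ)) hcup₁ hN₁
  have e₂ := hintr Γ₂ hneg₂ x y hx hy β₂ (fun γ γ' => hmul γ γ') hN₂
  rw [← e₁, ← e₂]
  -- comparison of the two cusp sums
  have hsys₁ := lrpc_orbit_isSys Γ₁ hneg₁
  have hsys₂ := lrpc_orbit_isSys Γ₂ hneg₂
  have hsysT := lrpc_transport θ (fun γ => htr γ) (fun γ h => hpos γ h) hsys₁
  let κ : SL(2, ℤ) → k := fun g => if h : g ∈ Γ₂ then β₂ ⟨g, h⟩ else 0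
  have hκ : ∀ ρ, lrpc_IsPPP Γ₂ ρ → ∀ γ ∈ Γ₂, κ (γ * ρ * γ⁻¹) = κ ρ := by
    intro ρ hρ γ hγ
    have hmem : γ * ρ * γ⁻¹ ∈ Γ₂ := Γ₂.mul_mem (Γ₂.mul_mem hγ hρ.1) (Γ₂.inv_mem hγ)
    show (if h : γ * ρ * γ⁻¹ ∈ Γ₂ then β₂ ⟨_, h⟩ else 0) = (if h : ρ ∈ Γ₂ then β₂ ⟨ρ, h⟩ else 0)
    rw [dif_pos hmem, dif_pos hρ.1]
    have hρPE : lrpd_tr ρ ^ 2 ≤ 4 := by
      unfold lrpd_tr
      rw [hρ.2.1]
      norm_num
    have hconj := lrpd_cup_conj (x := lrpdm_ev Γ₂ x) (x' := lrpdm_ev Γ₂ y) (β := β₂)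
      (lrpdm_ev_mul Γ₂ x) (lrpdm_ev_mul Γ₂ y) (fun a b => hmul a b) ⟨γ, hγ⟩ ⟨ρ, hρ.1⟩
      (hx ⟨ρ, hρ.1⟩ hρPE) (hy ⟨ρ, hρ.1⟩ hρPE)
    have e : (⟨γ * ρ * γ⁻¹, hmem⟩ : Γ₂) = ⟨γ, hγ⟩ * ⟨ρ, hρ.1⟩ * ⟨γ, hγ⟩⁻¹ := Subtype.ext rfl
    rw [e]
    exact hconj
  have hsum := lrpc_sum_eq hsysT hsys₂ κ hκ
  calc ∑ O : lrpc_Orb Γ₁, (fun γ => β₂ (θ γ)) ⟨lrpc_gen Γ₁ O, lrpc_gen_mem Γ₁ O⟩
      = ∑ O : lrpc_Orb Γ₁, κ ((θ ⟨lrpc_gen Γ₁ O, (hsys₁.mem O).1⟩ : Γ₂) : SL(2, ℤ)) := by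
        refine Finset.sum_congr rfl fun O _ => ?_
        show β₂ (θ ⟨lrpc_gen Γ₁ O, lrpc_gen_mem Γ₁ O⟩)
          = (if h : ((θ ⟨lrpc_gen Γ₁ O, (hsys₁.mem O).1⟩ : Γ₂) : SL(2, ℤ)) ∈ Γ₂
              then β₂ ⟨_, h⟩ else 0)
        rw [dif_pos (θ ⟨lrpc_gen Γ₁ O, (hsys₁.mem O).1⟩).2]
    _ = ∑ O' : lrpc_Orb Γ₂, κ (lrpc_gen Γ₂ O') := hsum
    _ = ∑ O' : lrpc_Orb Γ₂, β₂ ⟨lrpc_gen Γ₂ O', lrpc_gen_mem Γ₂ O'⟩ := by
        refine Finset.sum_congr rfl fun O _ => ?_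
        show (if h : lrpc_gen Γ₂ O ∈ Γ₂ then β₂ ⟨_, h⟩ else 0) = _
        rw [dif_pos (lrpc_gen_mem Γ₂ O)]

end Fermat.Agent.LR

end
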