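import Fermat.Agent.LR.PD.Final
import Fermat.Agent.LR.PD.Intr
import Fermat.Agent.LR.PD.Transport
import Fermat.Agent.LR.PD.Cores

/-!
# LR / node [PD]: CLOSED (helper4, prefix `lrpd_`)

`lrpd_closed : lrtop_PD_stmt` — the duality package consumed by [TOP], with no hypotheses.
(S1)–(S3): `OmS.lean`; (S4): helper26's `lrpd_tp_transport` + `lrpd_intrinsic`; (S5): helper28's
`lrpdm_cores_adj`; bridge to pairs and to `gh_H`: helper1's `Pairs.lean`, `Adapt.lean`.
-/

set_option autoImplicit false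

open Matrix ModularGroup
open scoped MatrixGroups

noncomputable section

namespace Fermat.Agent.LR

/-- (S4), closed -/
theorem lrpd_S4_closed (k : Type) [Field k] (h2 : (2 : k) ≠ 0) : lrpd_S4 k :=
  fun Γ₁ Γ₂ _ _ h1 h2' θ htr hpos x y hx hy =>
    lrpd_tp_transport h2 (fun _ _ _ _ _ _ hx hx' β hβ hN => lrpd_intrinsic h2 hx hx' β hβ hN)
      Γ₁ Γ₂ h1 h2' θ htr hpos x y hx hy

/-- (S5), closed -/
theorem lrpd_S5_closed (k : Type) [Field k] : lrpd_S5 k :=
  fun Γ Γ' _ _ hle hneg _ _ ρ hρ hbij x z c hx hz hc hcores =>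
    lrpdm_cores_adj Γ Γ' hle hneg ρ hρ hbij x z c hx hz hc hcores

/-- the closed family (S1)–(S5) over any field with `2 ≠ 0` -/
def lrpd_sfam_closed (k : Type) [Field k] (h2 : (2 : k) ≠ 0) : lrpd_SFam k :=
  lrpd_sfam k h2 (lrpd_S4_closed k h2) (lrpd_S5_closed k)

/-- **[PD] is closed.** -/
theorem lrpd_closed : lrtop_PD_stmt :=
  lrpd_PD_of (fun p _ hp2 => lrpd_S4_closed (ZMod p) (lrpd_two_ne_zero p hp2))
    (fun p _ _ => lrpd_S5_closed (ZMod p))

end Fermat.Agent.LR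

end
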