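/-
LR / cell [PD-CUSP] part 3 (helper9): cusp sums of functions on `Γ` (subtype form), ready for the
TRANSPORT step (S4) of `LR/PD/SLevel.lean`.

For `β : Γ → F` which is conjugation invariant on the primitive positive parabolic elements of `Γ`
(e.g. a cup-primitive of two characters killing the parabolic elements):

* `lrpc_sum_gen_eq` : `∑ O, β ⟨(rep O)⁻¹ T ^ w (rep O), _⟩` does not depend on the representatives;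
* `lrpc_sum_gen_transport` : for `θ : Γ₁ ≃* Γ₂` preserving traces and the orientation of the
  trace-2 elements, `∑ O₁, β (θ (gen O₁)) = ∑ O₂, β (gen O₂)`.

Combination of (C1), (C2), (C4) of `Cusp.lean` / `CuspSys.lean`.  Prefix `lrpc_`.
-/
import Mathlib
import Fermat.Agent.LR.PD.CuspSys

set_option autoImplicit false

namespace Fermat.Agent.LR

open ModularGroup
open scoped MatrixGroups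

/-- Extension by zero of a function on `Γ` to `SL(2,ℤ)`. -/
noncomputable def lrpc_ext {F : Type*} [Zero F] (Γ : Subgroup SL(2,ℤ)) (β : Γ → F) (g : SL(2,ℤ)) : F :=
  open Classical in if h : g ∈ Γ then β ⟨g, h⟩ else 0

theorem lrpc_ext_of_mem {F : Type*} [Zero F] (Γ : Subgroup SL(2,ℤ)) (β : Γ → F) {g : SL(2,ℤ)}
    (h : g ∈ Γ) : lrpc_ext Γ β g = β ⟨g, h⟩ := by
  rw [lrpc_ext, dif_pos h]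

theorem lrpc_ext_conj {F : Type*} [Zero F] (Γ : Subgroup SL(2,ℤ)) (β : Γ → F)
    (hβ : ∀ ρ γ : Γ, lrpc_IsPPP Γ (ρ : SL(2,ℤ)) → β (γ * ρ * γ⁻¹) = β ρ)
    (ρ : SL(2,ℤ)) (hρ : lrpc_IsPPP Γ ρ) (γ : SL(2,ℤ)) (hγ : γ ∈ Γ) :
    lrpc_ext Γ β (γ * ρ * γ⁻¹) = lrpc_ext Γ β ρ := by
  rw [lrpc_ext_of_mem Γ β (Γ.mul_mem (Γ.mul_mem hγ hρ.1) (Γ.inv_mem hγ)),
    lrpc_ext_of_mem Γ β hρ.1]
  exact hβ ⟨ρ, hρ.1⟩ ⟨γ, hγ⟩ hρ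

/-- The cusp sum of a class function does not depend on the representatives of the orbits. -/
theorem lrpc_sum_gen_eq {F : Type*} [AddCommMonoid F] (Γ : Subgroup SL(2,ℤ)) [Γ.FiniteIndex]
    (hneg : (-1 : SL(2,ℤ)) ∈ Γ) [Fintype (lrpc_Orb Γ)] (β : Γ → F)
    (hβ : ∀ ρ γ : Γ, lrpc_IsPPP Γ (ρ : SL(2,ℤ)) → β (γ * ρ * γ⁻¹) = β ρ)
    (rep rep' : lrpc_Orb Γ → SL(2,ℤ))
    (hrep : ∀ O, (Quotient.mk'' ((rep O : SL(2,ℤ)) : SL(2,ℤ) ⧸ Γ) : lrpc_Orb Γ) = O)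
    (hrep' : ∀ O, (Quotient.mk'' ((rep' O : SL(2,ℤ)) : SL(2,ℤ) ⧸ Γ) : lrpc_Orb Γ) = O) :
    ∑ O, β ⟨lrpc_genAt Γ (rep O), lrpc_genAt_mem Γ _⟩
      = ∑ O, β ⟨lrpc_genAt Γ (rep' O), lrpc_genAt_mem Γ _⟩ := by
  have h := lrpc_sum_eq (lrpc_isSys_of_rep Γ hneg rep hrep) (lrpc_isSys_of_rep Γ hneg rep' hrep')
    (lrpc_ext Γ β) (lrpc_ext_conj Γ β hβ)
  simpa only [lrpc_ext_of_mem Γ β (lrpc_genAt_mem Γ _)] using h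

/-- **Transport of cusp sums** along an isomorphism preserving traces and the orientation of the
trace-2 elements. -/
theorem lrpc_sum_gen_transport {F : Type*} [AddCommMonoid F] (Γ₁ Γ₂ : Subgroup SL(2,ℤ))
    [Γ₁.FiniteIndex] [Γ₂.FiniteIndex] (hneg₁ : (-1 : SL(2,ℤ)) ∈ Γ₁) (hneg₂ : (-1 : SL(2,ℤ)) ∈ Γ₂)
    [Fintype (lrpc_Orb Γ₁)] [Fintype (lrpc_Orb Γ₂)] (θ : Γ₁ ≃* Γ₂)
    (htr : ∀ γ : Γ₁, (θ γ : SL(2,ℤ)) 0 0 + (θ γ : SL(2,ℤ)) 1 1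
      = (γ : SL(2,ℤ)) 0 0 + (γ : SL(2,ℤ)) 1 1)
    (hpos : ∀ γ : Γ₁, (γ : SL(2,ℤ)) 0 0 + (γ : SL(2,ℤ)) 1 1 = 2 →
      (0 < (θ γ : SL(2,ℤ)) 0 1 - (θ γ : SL(2,ℤ)) 1 0 ↔ 0 < (γ : SL(2,ℤ)) 0 1 - (γ : SL(2,ℤ)) 1 0))
    (β : Γ₂ → F)
    (hβ : ∀ ρ γ : Γ₂, lrpc_IsPPP Γ₂ (ρ : SL(2,ℤ)) → β (γ * ρ * γ⁻¹) = β ρ)
    (rep₁ : lrpc_Orb Γ₁ → SL(2,ℤ))
    (hrep₁ : ∀ O, (Quotient.mk'' ((rep₁ O : SL(2,ℤ)) : SL(2,ℤ) ⧸ Γ₁) : lrpc_Orb Γ₁) = O)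
    (rep₂ : lrpc_Orb Γ₂ → SL(2,ℤ))
    (hrep₂ : ∀ O, (Quotient.mk'' ((rep₂ O : SL(2,ℤ)) : SL(2,ℤ) ⧸ Γ₂) : lrpc_Orb Γ₂) = O) :
    ∑ O, β (θ ⟨lrpc_genAt Γ₁ (rep₁ O), lrpc_genAt_mem Γ₁ _⟩)
      = ∑ O, β ⟨lrpc_genAt Γ₂ (rep₂ O), lrpc_genAt_mem Γ₂ _⟩ := by
  have hsys₁ := lrpc_isSys_of_rep Γ₁ hneg₁ rep₁ hrep₁
  have h := lrpc_sum_eq (lrpc_transport θ htr hpos hsys₁) (lrpc_isSys_of_rep Γ₂ hneg₂ rep₂ hrep₂)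
    (lrpc_ext Γ₂ β) (lrpc_ext_conj Γ₂ β hβ)
  simp only [lrpc_ext_of_mem Γ₂ β (lrpc_genAt_mem Γ₂ _)] at h
  rw [← h]
  refine Finset.sum_congr rfl fun O _ => ?_
  rw [lrpc_ext_of_mem Γ₂ β (θ ⟨lrpc_genAt Γ₁ (rep₁ O), lrpc_genAt_mem Γ₁ _⟩).2]

end Fermat.Agent.LR
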