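import Mathlib

/-!
# LR / node [PD]: the subgroup-level interface (helper4, prefix `lrpd_`)

For finite-index subgroups `Γ ≤ SL(2, ℤ)` containing `-1` and a field `F` with `2 ≠ 0`, the
Poincaré pairing `Om Γ` on the additive characters of `Γ` killing all elements with `tr² ≤ 4`.
This file only fixes the *shape* of the five theorems (S1)–(S5) as a structure `lrpd_SFam F`;
`LR/PD/Final*.lean` constructs a term of it, `LR/PD/Pairs.lean` turns it into helper1's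
pair interface (O1)–(O5).
-/

set_option autoImplicit false

open Matrix ModularGroup
open scoped MatrixGroups

namespace Fermat.Agent.LR

/-- the trace of an element of `SL(2, ℤ)` -/
def lrpd_tr (g : SL(2, ℤ)) : ℤ := g 0 0 + g 1 1

/-- orientation of a parabolic element: `u T^n u⁻¹` is positive iff `n > 0`. -/
def lrpd_posi (g : SL(2, ℤ)) : Prop := 0 < g 0 1 - g 1 0

/-- characters killing every element with `tr² ≤ 4` (parabolic, elliptic, `± 1`). -/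
def lrpd_PE {F : Type*} [AddCommGroup F] (Γ : Subgroup SL(2, ℤ)) (x : Additive Γ →+ F) : Prop :=
  ∀ γ : Γ, lrpd_tr (γ : SL(2, ℤ)) ^ 2 ≤ 4 → x (Additive.ofMul γ) = 0

/-- pull-back of an additive character along a group homomorphism -/
def lrpd_pull {H K : Type*} [Group H] [Group K] {F : Type*} [AddCommGroup F] (f : H →* K)
    (x : Additive K →+ F) : Additive H →+ F :=
  x.comp (MonoidHom.toAdditive f)

@[simp] theorem lrpd_pull_apply {H K : Type*} [Group H] [Group K] {F : Type*} [AddCommGroup F]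
    (f : H →* K) (x : Additive K →+ F) (h : H) :
    lrpd_pull f x (Additive.ofMul h) = x (Additive.ofMul (f h)) := rfl

/-- the transfer formula, for a complete irredundant system `ρ` of LEFT coset representatives of
`Γ'` in `Γ`: `c γ = ∑ᵢ ∑ⱼ [ρⱼ⁻¹ γ ρᵢ ∈ Γ'] z (ρⱼ⁻¹ γ ρᵢ)`. -/
def lrpd_IsCores {F : Type*} [AddCommGroup F] (Γ Γ' : Subgroup SL(2, ℤ)) {ι : Type*} [Fintype ι]
    (ρ : ι → SL(2, ℤ)) (z : Additive Γ' →+ F) (c : Additive Γ →+ F) : Prop :=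
  ∀ γ : Γ, c (Additive.ofMul γ) = ∑ i : ι, ∑ j : ι,
    (open Classical in
      if h : (ρ j)⁻¹ * (γ : SL(2, ℤ)) * ρ i ∈ Γ' then z (Additive.ofMul ⟨_, h⟩) else 0)

/-- **The subgroup-level interface (S1)–(S5).** -/
structure lrpd_SFam (F : Type*) [Field F] where
  /-- the pairing (junk unless `Γ` has finite index, contains `-1`, and both characters kill
  the parabolic and elliptic elements) -/
  Om : ∀ Γ : Subgroup SL(2, ℤ), (Additive Γ →+ F) → (Additive Γ →+ F) → F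
  /-- (S1) additivity in the first variable -/
  add_left : ∀ (Γ : Subgroup SL(2, ℤ)) [Γ.FiniteIndex], (-1 : SL(2, ℤ)) ∈ Γ →
    ∀ x x' y : Additive Γ →+ F, lrpd_PE Γ x → lrpd_PE Γ x' → lrpd_PE Γ y →
      Om Γ (x + x') y = Om Γ x y + Om Γ x' y
  /-- (S1') homogeneity in the first variable -/
  smul_left : ∀ (Γ : Subgroup SL(2, ℤ)) [Γ.FiniteIndex], (-1 : SL(2, ℤ)) ∈ Γ →
    ∀ (a : F) (x y : Additive Γ →+ F), lrpd_PE Γ x → lrpd_PE Γ y →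
      Om Γ (a • x) y = a * Om Γ x y
  /-- (S2) antisymmetry -/
  skew : ∀ (Γ : Subgroup SL(2, ℤ)) [Γ.FiniteIndex], (-1 : SL(2, ℤ)) ∈ Γ →
    ∀ x y : Additive Γ →+ F, lrpd_PE Γ x → lrpd_PE Γ y → Om Γ x y = - Om Γ y x
  /-- (S3) non-degeneracy -/
  nondeg : ∀ (Γ : Subgroup SL(2, ℤ)) [Γ.FiniteIndex], (-1 : SL(2, ℤ)) ∈ Γ →
    ∀ x : Additive Γ →+ F, lrpd_PE Γ x →
      (∀ y : Additive Γ →+ F, lrpd_PE Γ y → Om Γ x y = 0) → x = 0
  /-- (S4) transport along a trace- and orientation-preserving isomorphism -/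
  transport : ∀ (Γ₁ Γ₂ : Subgroup SL(2, ℤ)) [Γ₁.FiniteIndex] [Γ₂.FiniteIndex],
    (-1 : SL(2, ℤ)) ∈ Γ₁ → (-1 : SL(2, ℤ)) ∈ Γ₂ → ∀ θ : Γ₁ ≃* Γ₂,
    (∀ γ : Γ₁, lrpd_tr (θ γ : SL(2, ℤ)) = lrpd_tr (γ : SL(2, ℤ))) →
    (∀ γ : Γ₁, lrpd_tr (γ : SL(2, ℤ)) = 2 →
      (lrpd_posi (θ γ : SL(2, ℤ)) ↔ lrpd_posi (γ : SL(2, ℤ)))) →
    ∀ x y : Additive Γ₂ →+ F, lrpd_PE Γ₂ x → lrpd_PE Γ₂ y →
      Om Γ₁ (lrpd_pull θ.toMonoidHom x) (lrpd_pull θ.toMonoidHom y) = Om Γ₂ x y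
  /-- (S5) restriction is adjoint to the transfer -/
  adj : ∀ (Γ Γ' : Subgroup SL(2, ℤ)) [Γ.FiniteIndex] [Γ'.FiniteIndex] (hle : Γ' ≤ Γ),
    (-1 : SL(2, ℤ)) ∈ Γ' → ∀ {ι : Type} [Fintype ι] (ρ : ι → SL(2, ℤ)), (∀ i, ρ i ∈ Γ) →
    (∀ γ ∈ Γ, ∃! i, (ρ i)⁻¹ * γ ∈ Γ') →
    ∀ (x : Additive Γ →+ F) (z : Additive Γ' →+ F) (c : Additive Γ →+ F),
      lrpd_PE Γ x → lrpd_PE Γ' z → lrpd_PE Γ c → lrpd_IsCores Γ Γ' ρ z c →
      Om Γ' (lrpd_pull (Subgroup.inclusion hle) x) z = Om Γ x c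

end Fermat.Agent.LR
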