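/-
LR / node [PD]: the formal bridge from the subgroup-level interface `lrpd_SFam F`
(`LR/PD/SLevel.lean`, (S1)–(S5)) to the pair-level interface `lrpd_ad_Theory F Om`
(`LR/PD/Adapt.lean`, (O1)–(O5)).

For a pair `(Γ, ι : Γ →* SL(2,ℤ))` with `ι` injective, `e : Γ ≃* ι.range` and
`Om Γ ι x y := S.Om ι.range (x ∘ e⁻¹) (y ∘ e⁻¹)`  (`lrpd_pa_Om`).
Main result: `lrpd_pa_theory S : lrpd_ad_Theory F (lrpd_pa_Om S)`.
Prefix `lrpd_pa_`.
-/
import Mathlib
import Fermat.Agent.JT3.T2.ParEll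
import Fermat.Agent.LR.PD.SLevel
import Fermat.Agent.LR.PD.Adapt

set_option autoImplicit false

noncomputable section

open CongruenceSubgroup Matrix.SpecialLinearGroup
open scoped MatrixGroups OnePoint
open Fermat.Agent.JT3

namespace Fermat.Agent.LR

/-! ### Traces -/

theorem lrpd_pa_tr (g : SL(2, ℤ)) : (g : Matrix (Fin 2) (Fin 2) ℤ).trace = lrpd_tr g :=
  Matrix.trace_fin_two _

theorem lrpd_pa_trace_conj (a b : SL(2, ℤ)) :
    ((b * a * b⁻¹ : SL(2, ℤ)) : Matrix (Fin 2) (Fin 2) ℤ).trace =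
      (a : Matrix (Fin 2) (Fin 2) ℤ).trace := by
  rw [Matrix.SpecialLinearGroup.coe_mul, Matrix.SpecialLinearGroup.coe_mul,
    Matrix.trace_mul_cycle, ← Matrix.SpecialLinearGroup.coe_mul, inv_mul_cancel,
    Matrix.SpecialLinearGroup.coe_one, one_mul]

/-! ### The canonical isomorphism `Γ ≃* ι.range` and the two pull-backs -/

section iso

variable {Γ : Type*} [Group Γ] {F : Type*} [AddCommGroup F]

/-- `Γ ≃* ι.range` -/
def lrpd_pa_e (ι : Γ →* SL(2, ℤ)) (h : Function.Injective ι) : Γ ≃* ι.range :=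
  MonoidHom.ofInjective h

theorem lrpd_pa_e_coe (ι : Γ →* SL(2, ℤ)) (h : Function.Injective ι) (g : Γ) :
    ((lrpd_pa_e ι h g : ι.range) : SL(2, ℤ)) = ι g := rfl

theorem lrpd_pa_e_symm (ι : Γ →* SL(2, ℤ)) (h : Function.Injective ι) (γ : ι.range) :
    ι ((lrpd_pa_e ι h).symm γ) = (γ : SL(2, ℤ)) := by
  have h1 := lrpd_pa_e_coe ι h ((lrpd_pa_e ι h).symm γ)
  rw [MulEquiv.apply_symm_apply] at h1
  exact h1.symm

theorem lrpd_pa_e_symm_mk (ι : Γ →* SL(2, ℤ)) (h : Function.Injective ι) (g : Γ)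
    (hg : ι g ∈ ι.range) : (lrpd_pa_e ι h).symm ⟨ι g, hg⟩ = g := by
  apply h
  rw [lrpd_pa_e_symm]

/-- characters of `Γ` as characters of `ι.range` -/
def lrpd_pa_dn (ι : Γ →* SL(2, ℤ)) (h : Function.Injective ι) (x : Additive Γ →+ F) :
    Additive ι.range →+ F :=
  lrpd_pull (lrpd_pa_e ι h).symm.toMonoidHom x

/-- characters of `ι.range` as characters of `Γ` -/
def lrpd_pa_up (ι : Γ →* SL(2, ℤ)) (h : Function.Injective ι) (x : Additive ι.range →+ F) :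
    Additive Γ →+ F :=
  lrpd_pull (lrpd_pa_e ι h).toMonoidHom x

theorem lrpd_pa_dn_apply (ι : Γ →* SL(2, ℤ)) (h : Function.Injective ι) (x : Additive Γ →+ F)
    (γ : ι.range) :
    lrpd_pa_dn ι h x (Additive.ofMul γ) = x (Additive.ofMul ((lrpd_pa_e ι h).symm γ)) := rfl

theorem lrpd_pa_up_apply (ι : Γ →* SL(2, ℤ)) (h : Function.Injective ι)
    (x : Additive ι.range →+ F) (g : Γ) :
    lrpd_pa_up ι h x (Additive.ofMul g) = x (Additive.ofMul (lrpd_pa_e ι h g)) := rfl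

theorem lrpd_pa_dn_add (ι : Γ →* SL(2, ℤ)) (h : Function.Injective ι) (x x' : Additive Γ →+ F) :
    lrpd_pa_dn ι h (x + x') = lrpd_pa_dn ι h x + lrpd_pa_dn ι h x' := rfl

theorem lrpd_pa_dn_up (ι : Γ →* SL(2, ℤ)) (h : Function.Injective ι)
    (x : Additive ι.range →+ F) : lrpd_pa_dn ι h (lrpd_pa_up ι h x) = x := by
  refine AddMonoidHom.ext fun γ => ?_
  obtain ⟨γ, rfl⟩ := Additive.ofMul.surjective γ
  rw [lrpd_pa_dn_apply, lrpd_pa_up_apply, MulEquiv.apply_symm_apply]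

theorem lrpd_pa_dn_injective (ι : Γ →* SL(2, ℤ)) (h : Function.Injective ι)
    {x : Additive Γ →+ F} (hx : lrpd_pa_dn ι h x = 0) : x = 0 := by
  refine AddMonoidHom.ext fun g => ?_
  obtain ⟨g, rfl⟩ := Additive.ofMul.surjective g
  have h1 := DFunLike.congr_fun hx (Additive.ofMul (lrpd_pa_e ι h g))
  rw [lrpd_pa_dn_apply, MulEquiv.symm_apply_apply] at h1
  exact h1

theorem lrpd_pa_dn_PE (ι : Γ →* SL(2, ℤ)) (h : Function.Injective ι) {x : Additive Γ →+ F}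
    (hx : x ∈ lrpd_ad_PE ι F) : lrpd_PE ι.range (lrpd_pa_dn ι h x) := by
  intro γ hγ
  rw [lrpd_pa_dn_apply]
  refine hx _ ?_
  unfold lrpd_ad_IsParEll
  rw [lrpd_pa_e_symm, lrpd_pa_tr]
  exact hγ

theorem lrpd_pa_up_PE (ι : Γ →* SL(2, ℤ)) (h : Function.Injective ι)
    {x : Additive ι.range →+ F} (hx : lrpd_PE ι.range x) : lrpd_pa_up ι h x ∈ lrpd_ad_PE ι F := by
  intro g hg
  rw [lrpd_pa_up_apply]
  refine hx _ ?_
  unfold lrpd_ad_IsParEll at hg
  rw [lrpd_pa_e_coe, ← lrpd_pa_tr]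
  exact hg

end iso

/-! ### The pair-level form -/

variable {F : Type} [Field F]

/-- the pair-level family of forms attached to a subgroup-level family -/
def lrpd_pa_Om (S : lrpd_SFam F) : lrpd_ad_Form F := fun _ _ ι x y =>
  open Classical in
  if h : Function.Injective ι then S.Om ι.range (lrpd_pa_dn ι h x) (lrpd_pa_dn ι h y) else 0

theorem lrpd_pa_Om_eq (S : lrpd_SFam F) {Γ : Type} [Group Γ] (ι : Γ →* SL(2, ℤ))
    (h : Function.Injective ι) (x y : Additive Γ →+ F) :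
    lrpd_pa_Om S Γ ι x y = S.Om ι.range (lrpd_pa_dn ι h x) (lrpd_pa_dn ι h y) := by
  unfold lrpd_pa_Om
  rw [dif_pos h]

/-! ### (S5) ⟹ (O5): the transfer `lrt_cor` is `lrpd_IsCores` -/

section adj

variable {Γ X : Type} [Group Γ] [Fintype X] (ι : Γ →* SL(2, ℤ)) (D : lrt_Data Γ X) (x₀ : X)
  (r : X → Γ) (hr : ∀ x, D.act (r x) x₀ = x)

omit [Fintype X] in
theorem lrpd_pa_range_le : (ι.comp (lrt_stab D x₀).subtype).range ≤ ι.range := by
  rintro _ ⟨s, rfl⟩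
  exact ⟨(s : Γ), rfl⟩

omit [Fintype X] in
theorem lrpd_pa_mem_range_iff (hι : Function.Injective ι) (k : Γ) :
    ι k ∈ (ι.comp (lrt_stab D x₀).subtype).range ↔ k ∈ lrt_stab D x₀ := by
  constructor
  · rintro ⟨s, hs⟩
    have : (s : Γ) = k := hι hs
    rw [← this]
    exact s.2
  · intro hk
    exact ⟨⟨k, hk⟩, rfl⟩

omit [Fintype X] in
include hr in
theorem lrpd_pa_mem_stab_iff (i j : X) (g : Γ) :
    r j * g * (r i)⁻¹ ∈ lrt_stab D x₀ ↔ i = D.act g j := by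
  rw [lrt_mem_stab, D.act_mul, D.act_mul, hr]
  constructor
  · intro h
    have h1 := congrArg (D.act (r i)) h
    rw [lrt_act_inv', hr] at h1
    exact h1.symm
  · intro h
    rw [← h]
    have h1 := lrt_act_inv D (r i) x₀
    rwa [hr] at h1

omit [Fintype X] in
include hr in
theorem lrpd_pa_mem_stab_iff' (i : X) (g : Γ) :
    r i * g ∈ lrt_stab D x₀ ↔ i = D.act g⁻¹ x₀ := by
  rw [lrt_mem_stab, D.act_mul, hr]
  constructor
  · intro h
    have h1 := congrArg (D.act g⁻¹) h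
    rw [lrt_act_inv] at h1
    exact h1
  · intro h
    rw [h, lrt_act_inv']

/-- the transfer of a `PE` character is `PE` -/
theorem lrpd_pa_cor_PE {A : Type*} [AddCommGroup A] (z : Additive (lrt_stab D x₀) →+ A)
    (hz : z ∈ lrpd_ad_PE (ι.comp (lrt_stab D x₀).subtype) A) :
    lrt_cor D x₀ r hr z ∈ lrpd_ad_PE ι A := by
  intro γ hγ
  refine lrh_cor_kills D x₀ r hr (lrpd_ad_IsParEll ι) ?_ ?_ z ?_ γ hγ
  · intro g n hg
    unfold lrpd_ad_IsParEll at hg ⊢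
    rw [map_pow]
    exact t2e_trace_pow_sq_le _ hg n
  · intro g k hg
    unfold lrpd_ad_IsParEll at hg ⊢
    rw [map_mul, map_mul, map_inv, lrpd_pa_trace_conj]
    exact hg
  · intro s hs
    exact hz s hs

end adj

/-! ### The theorem -/

theorem lrpd_pa_theory (S : lrpd_SFam F) : lrpd_ad_Theory F (lrpd_pa_Om S) where
  add_left := by
    intro Γ _ ι hA x x' y hx hx' hy
    have := hA.fin
    rw [lrpd_pa_Om_eq S ι hA.inj, lrpd_pa_Om_eq S ι hA.inj, lrpd_pa_Om_eq S ι hA.inj,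
      lrpd_pa_dn_add]
    exact S.add_left ι.range hA.neg _ _ _ (lrpd_pa_dn_PE ι hA.inj hx) (lrpd_pa_dn_PE ι hA.inj hx')
      (lrpd_pa_dn_PE ι hA.inj hy)
  skew := by
    intro Γ _ ι hA x y hx hy
    have := hA.fin
    rw [lrpd_pa_Om_eq S ι hA.inj, lrpd_pa_Om_eq S ι hA.inj]
    exact S.skew ι.range hA.neg _ _ (lrpd_pa_dn_PE ι hA.inj hx) (lrpd_pa_dn_PE ι hA.inj hy)
  nondeg := by
    intro Γ _ ι hA x hx h
    have := hA.fin
    apply lrpd_pa_dn_injective ι hA.inj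
    refine S.nondeg ι.range hA.neg _ (lrpd_pa_dn_PE ι hA.inj hx) ?_
    intro y' hy'
    have h1 := h (lrpd_pa_up ι hA.inj y') (lrpd_pa_up_PE ι hA.inj hy')
    rw [lrpd_pa_Om_eq S ι hA.inj, lrpd_pa_dn_up] at h1
    exact h1
  transport := by
    intro Γ₁ Γ₂ _ _ ι₁ ι₂ θ hA₁ hA₂ htr hpos x y hx hy
    have := hA₁.fin
    have := hA₂.fin
    rw [lrpd_pa_Om_eq S ι₁ hA₁.inj, lrpd_pa_Om_eq S ι₂ hA₂.inj]
    set e₁ := lrpd_pa_e ι₁ hA₁.inj with he₁
    set e₂ := lrpd_pa_e ι₂ hA₂.inj with he₂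
    let φ : ι₁.range ≃* ι₂.range := (e₁.symm.trans θ).trans e₂
    have hφ : ∀ γ : ι₁.range, ((φ γ : ι₂.range) : SL(2, ℤ)) = ι₂ (θ (e₁.symm γ)) := fun γ => rfl
    have h1 := S.transport ι₁.range ι₂.range hA₁.neg hA₂.neg φ
      (by
        intro γ
        rw [hφ, ← lrpd_pa_tr, ← lrpd_pa_tr, htr, lrpd_pa_e_symm])
      (by
        intro γ hγ
        have h2 := hpos (e₁.symm γ) (by rw [lrpd_pa_e_symm, lrpd_pa_tr]; exact hγ)
        rw [lrpd_pa_e_symm] at h2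
        rw [hφ]
        exact h2.symm)
      (lrpd_pa_dn ι₂ hA₂.inj x) (lrpd_pa_dn ι₂ hA₂.inj y) (lrpd_pa_dn_PE ι₂ hA₂.inj hx)
      (lrpd_pa_dn_PE ι₂ hA₂.inj hy)
    have h3 : ∀ w : Additive Γ₂ →+ F, lrpd_pull φ.toMonoidHom (lrpd_pa_dn ι₂ hA₂.inj w) =
        lrpd_pa_dn ι₁ hA₁.inj (lrm_pull θ.toMonoidHom w) := by
      intro w
      refine AddMonoidHom.ext fun γ => ?_
      obtain ⟨γ, rfl⟩ := Additive.ofMul.surjective γ
      show w (Additive.ofMul (e₂.symm (φ γ))) = w (Additive.ofMul (θ (e₁.symm γ)))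
      have : e₂.symm (φ γ) = θ (e₁.symm γ) := by
        show e₂.symm (e₂ (θ (e₁.symm γ))) = _
        rw [MulEquiv.symm_apply_apply]
      rw [this]
    rw [h3, h3] at h1
    exact h1
  adj := by
    intro Γ X _ _ ι D x₀ r hr hA hA'
    have := hA.fin
    have := hA'.fin
    set St := lrt_stab D x₀ with hSt
    set ι' := ι.comp St.subtype with hι'
    set e := lrpd_pa_e ι hA.inj with he
    set e' := lrpd_pa_e ι' hA'.inj with he'
    intro x z hx hz
    rw [lrpd_pa_Om_eq S _ hA'.inj, lrpd_pa_Om_eq S ι hA.inj]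
    have hle : ι'.range ≤ ι.range := lrpd_pa_range_le ι D x₀
    let ρ : X → SL(2, ℤ) := fun i => ι (r i)⁻¹
    have hρ : ∀ i, ρ i ∈ ι.range := fun i => ⟨(r i)⁻¹, rfl⟩
    have hbij : ∀ γ ∈ ι.range, ∃! i, (ρ i)⁻¹ * γ ∈ ι'.range := by
      rintro _ ⟨g, rfl⟩
      have key : ∀ i, (ρ i)⁻¹ * ι g ∈ ι'.range ↔ i = D.act g⁻¹ x₀ := by
        intro i
        have h1 : (ρ i)⁻¹ * ι g = ι (r i * g) := by
          show (ι (r i)⁻¹)⁻¹ * ι g = _
          rw [map_inv, inv_inv, map_mul]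
        rw [h1, lrpd_pa_mem_range_iff ι D x₀ hA.inj, lrpd_pa_mem_stab_iff' D x₀ r hr]
      exact ⟨D.act g⁻¹ x₀, (key _).mpr rfl, fun i hi => (key i).mp hi⟩
    have hcores : lrpd_IsCores ι.range ι'.range ρ (lrpd_pa_dn ι' hA'.inj z)
        (lrpd_pa_dn ι hA.inj (lrt_cor D x₀ r hr z)) := by
      intro γ
      set g := e.symm γ with hg
      have hγ : (γ : SL(2, ℤ)) = ι g := (lrpd_pa_e_symm ι hA.inj γ).symm
      have key : ∀ i j, (ρ j)⁻¹ * (γ : SL(2, ℤ)) * ρ i = ι (r j * g * (r i)⁻¹) := by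
        intro i j
        show (ι (r j)⁻¹)⁻¹ * (γ : SL(2, ℤ)) * ι (r i)⁻¹ = _
        rw [hγ, map_inv, inv_inv, map_mul, map_mul, map_inv]
      have hmem : ∀ i j, (ρ j)⁻¹ * (γ : SL(2, ℤ)) * ρ i ∈ ι'.range ↔ i = D.act g j := by
        intro i j
        rw [key, lrpd_pa_mem_range_iff ι D x₀ hA.inj, lrpd_pa_mem_stab_iff D x₀ r hr]
      rw [lrpd_pa_dn_apply, Finset.sum_comm]
      have h1 : (lrt_cor D x₀ r hr z) (Additive.ofMul g) =
          ∑ j : X, lrt_ev z (lrt_a D x₀ r hr j g) := lrt_cor_ev D x₀ r hr z g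
      rw [h1]
      refine Finset.sum_congr rfl fun j _ => ?_
      rw [Finset.sum_eq_single (D.act g j)]
      · rw [dif_pos ((hmem _ j).mpr rfl)]
        rw [lrpd_pa_dn_apply]
        have h2 : e'.symm ⟨(ρ j)⁻¹ * (γ : SL(2, ℤ)) * ρ (D.act g j), (hmem _ j).mpr rfl⟩ =
            lrt_a D x₀ r hr j g := by
          apply hA'.inj
          rw [lrpd_pa_e_symm]
          show (ρ j)⁻¹ * (γ : SL(2, ℤ)) * ρ (D.act g j) = ι ((lrt_a D x₀ r hr j g : St) : Γ)
          rw [key, lrt_a_coe]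
        rw [h2]
        rfl
      · intro i _ hi
        rw [dif_neg]
        intro hcon
        exact hi ((hmem i j).mp hcon)
      · intro hcon
        exact absurd (Finset.mem_univ _) hcon
    have h1 := S.adj ι.range ι'.range hle hA'.neg ρ hρ hbij (lrpd_pa_dn ι hA.inj x)
      (lrpd_pa_dn ι' hA'.inj z) (lrpd_pa_dn ι hA.inj (lrt_cor D x₀ r hr z))
      (lrpd_pa_dn_PE ι hA.inj hx) (lrpd_pa_dn_PE ι' hA'.inj hz)
      (lrpd_pa_dn_PE ι hA.inj (lrpd_pa_cor_PE ι D x₀ r hr z hz)) hcores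
    have h2 : lrpd_pa_dn ι' hA'.inj (lrm_pull St.subtype x) =
        lrpd_pull (Subgroup.inclusion hle) (lrpd_pa_dn ι hA.inj x) := by
      refine AddMonoidHom.ext fun γ => ?_
      obtain ⟨γ, rfl⟩ := Additive.ofMul.surjective γ
      show x (Additive.ofMul ((e'.symm γ : St) : Γ)) =
        x (Additive.ofMul (e.symm (Subgroup.inclusion hle γ)))
      have : ((e'.symm γ : St) : Γ) = e.symm (Subgroup.inclusion hle γ) := by
        apply hA.inj
        rw [lrpd_pa_e_symm]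
        have h3 := lrpd_pa_e_symm ι' hA'.inj γ
        exact h3
      rw [this]
    rw [h2]
    exact h1

end Fermat.Agent.LR
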