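import Fermat.Agent.LR.PD.OmS
import Fermat.Agent.LR.PD.Pairs
import Fermat.Agent.LR.Top.Seams

/-!
# LR / node [PD]: the final assembly (helper4, prefix `lrpd_`)

`lrpd_PD_of : (∀ odd p, lrpd_S4 (ZMod p)) → (∀ odd p, lrpd_S5 (ZMod p)) → lrtop_PD_stmt`:
the duality package consumed by [TOP] follows from the two remaining subgroup-level theorems,
(S4) transport and (S5) restriction ⊣ transfer, for the pairing `lrpd_OmS` of `OmS.lean`.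
Chain: `lrpd_SFam` term ((S1)–(S3) from `OmS.lean`) → helper1's `lrpd_pa_theory` (`Pairs.lean`)
→ helper1's `lrpd_ad_Om_*` (`Adapt.lean`) → `lrtop_PD_stmt` (helper21's `Top/Seams.lean`).
-/

set_option autoImplicit false

open Matrix ModularGroup CongruenceSubgroup
open scoped MatrixGroups
open Fermat.Agent.JT3

noncomputable section

namespace Fermat.Agent.LR

/-- (S4) for `lrpd_OmS`: transport along a trace- and orientation-preserving isomorphism -/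
def lrpd_S4 (k : Type) [Field k] : Prop :=
  ∀ (Γ₁ Γ₂ : Subgroup SL(2, ℤ)) [Γ₁.FiniteIndex] [Γ₂.FiniteIndex],
    (-1 : SL(2, ℤ)) ∈ Γ₁ → (-1 : SL(2, ℤ)) ∈ Γ₂ → ∀ θ : Γ₁ ≃* Γ₂,
    (∀ γ : Γ₁, lrpd_tr (θ γ : SL(2, ℤ)) = lrpd_tr (γ : SL(2, ℤ))) →
    (∀ γ : Γ₁, lrpd_tr (γ : SL(2, ℤ)) = 2 →
      (lrpd_posi (θ γ : SL(2, ℤ)) ↔ lrpd_posi (γ : SL(2, ℤ)))) →
    ∀ x y : Additive Γ₂ →+ k, lrpd_PE Γ₂ x → lrpd_PE Γ₂ y →
      lrpd_OmS Γ₁ (lrpd_pull θ.toMonoidHom x) (lrpd_pull θ.toMonoidHom y) = lrpd_OmS Γ₂ x y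

/-- (S5) for `lrpd_OmS`: restriction is adjoint to the transfer -/
def lrpd_S5 (k : Type) [Field k] : Prop :=
  ∀ (Γ Γ' : Subgroup SL(2, ℤ)) [Γ.FiniteIndex] [Γ'.FiniteIndex] (hle : Γ' ≤ Γ),
    (-1 : SL(2, ℤ)) ∈ Γ' → ∀ {ι : Type} [Fintype ι] (ρ : ι → SL(2, ℤ)), (∀ i, ρ i ∈ Γ) →
    (∀ γ ∈ Γ, ∃! i, (ρ i)⁻¹ * γ ∈ Γ') →
    ∀ (x : Additive Γ →+ k) (z : Additive Γ' →+ k) (c : Additive Γ →+ k),
      lrpd_PE Γ x → lrpd_PE Γ' z → lrpd_PE Γ c → lrpd_IsCores Γ Γ' ρ z c →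
      lrpd_OmS Γ' (lrpd_pull (Subgroup.inclusion hle) x) z = lrpd_OmS Γ x c

/-- the family (S1)–(S5), given (S4) and (S5) -/
def lrpd_sfam (k : Type) [Field k] (h2 : (2 : k) ≠ 0) (h4 : lrpd_S4 k) (h5 : lrpd_S5 k) :
    lrpd_SFam k where
  Om := fun Γ x y => lrpd_OmS Γ x y
  add_left := fun _ _ _ _ _ _ hx hx' hy => lrpd_OmS_add_left hx hx' hy
  smul_left := fun _ _ _ a _ _ hx hy => lrpd_OmS_smul_left a hx hy
  skew := fun _ _ _ _ _ hx hy => lrpd_OmS_skew hx hy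
  nondeg := fun _ _ hneg _ hx h => lrpd_OmS_nondeg hneg h2 hx h
  transport := fun Γ₁ Γ₂ _ _ h1 h2' θ htr hpos x y hx hy => h4 Γ₁ Γ₂ h1 h2' θ htr hpos x y hx hy
  adj := fun Γ Γ' _ _ hle hneg _ _ ρ hρ hbij x z c hx hz hc hcores =>
    h5 Γ Γ' hle hneg ρ hρ hbij x z c hx hz hc hcores

theorem lrpd_two_ne_zero (p : ℕ) [Fact p.Prime] (hp2 : p ≠ 2) : (2 : ZMod p) ≠ 0 := by
  intro h
  have h1 : ((2 : ℕ) : ZMod p) = 0 := by exact_mod_cast h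
  rw [ZMod.natCast_eq_zero_iff] at h1
  have hp : p.Prime := Fact.out
  rcases (Nat.dvd_prime Nat.prime_two).mp h1 with h3 | h3
  · exact hp.one_lt.ne' h3
  · exact hp2 h3

/-- the biadditive packaging of helper1's bilinear form -/
def lrpd_OmAdd {p : ℕ} {Om : lrpd_ad_Form (ZMod p)} (hOm : lrpd_ad_Theory (ZMod p) Om) (M : ℕ) :
    (gh_H M →+ ZMod p) →+ (gh_H M →+ ZMod p) →+ ZMod p :=
  AddMonoidHom.mk' (fun x => (lrpd_ad_Om hOm M x).toAddMonoidHom) (fun x y => by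
    ext z
    simp)

@[simp] theorem lrpd_OmAdd_apply {p : ℕ} {Om : lrpd_ad_Form (ZMod p)}
    (hOm : lrpd_ad_Theory (ZMod p) Om) (M : ℕ) (x y : gh_H M →+ ZMod p) :
    lrpd_OmAdd hOm M x y = lrpd_ad_Om hOm M x y := rfl

/-- **[PD] from a pair theory** at every odd prime -/
theorem lrpd_PD_of_theory
    (h : ∀ p : ℕ, p.Prime → p ≠ 2 → ∃ Om : lrpd_ad_Form (ZMod p), lrpd_ad_Theory (ZMod p) Om) :
    lrtop_PD_stmt := by
  intro p hp hp2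
  obtain ⟨Om, hOm⟩ := h p hp hp2
  refine ⟨fun M => lrpd_OmAdd hOm M, ?_, ?_, ?_, ?_⟩
  · intro M _ x hx
    exact lrpd_ad_Om_nondeg hOm M x hx
  · intro M _ x y
    exact lrpd_ad_Om_skew hOm M x y
  · intro M r _ _ hrM ψ z
    exact lrpd_ad_Om_adj_A hOm M r hrM ψ z
  · intro M r _ _ hrM ψ z
    exact lrpd_ad_Om_adj_B hOm M r hrM ψ z

/-- **[PD] from (S4) and (S5)** -/
theorem lrpd_PD_of (h4 : ∀ (p : ℕ) [Fact p.Prime], p ≠ 2 → lrpd_S4 (ZMod p))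
    (h5 : ∀ (p : ℕ) [Fact p.Prime], p ≠ 2 → lrpd_S5 (ZMod p)) : lrtop_PD_stmt := by
  refine lrpd_PD_of_theory fun p hp hp2 => ?_
  have : Fact p.Prime := ⟨hp⟩
  exact ⟨_, lrpd_pa_theory (lrpd_sfam (ZMod p) (lrpd_two_ne_zero p hp2) (h4 p hp2) (h5 p hp2))⟩

end Fermat.Agent.LR

end
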