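/-
LR / node [PD], cell [PD-PARBETA] (ruling #2771 (R2), plan #2784 (4)):
`β = Ad diag(q, 1) : Γ₀(Nq) → Γ₀(N)` as a MulEquiv onto its image, with trace and positivity.

* `lrpd_betaEquivStab hqN : Γ₀(Nq) ≃* Stab(0)` (`Stab(0) = lrt_stab (lrm_data hqN) 0 ≤ Γ₀(N)`),
  `g ↦ β g`, inverse `lrm_gamZero hqN`;
* `lrpd_betaImage hqN : Subgroup SL(2, ℤ)` (`= Γ₀(N) ∩ Γ⁰(q)`, `lrpd_mem_betaImage_iff`),
  `lrpd_betaEquiv hqN : Γ₀(Nq) ≃* lrpd_betaImage hqN`, `lrpd_betaEquiv_coe`;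
* `lrpd_betaEquiv_tr` (trace preserved), `lrpd_betaEquiv_pos` (positivity of trace-`2` elements
  preserved), `lrpd_betaEquiv_symm_tr`, `lrpd_betaEquiv_symm_pos`;
* `lrpd_neg_one_mem_betaImage`, `lrpd_betaImage_finiteIndex`, `lrpd_pb_neg_one_mem_Gamma0`.
Prefix `lrpd_`.
-/
import Mathlib
import Fermat.Agent.LR.MTX.EquivCor
import Fermat.Agent.LR.PD.Par

set_option autoImplicit false

noncomputable section

open CongruenceSubgroup Matrix.SpecialLinearGroup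
open P2MW.S_ModularForm_heckeT_slash_eq_self_of_mem_Gamma0.ModularForm.HeckeSlashInvariance
open scoped MatrixGroups OnePoint
open Fermat.Agent.JT3

namespace Fermat.Agent.LR

variable {N : ℕ} {q : ℕ} [Fact q.Prime]

theorem lrpd_pb_gamZero_beta (hqN : ¬ q ∣ N) (g : Gamma0 (N * q)) :
    lrm_gamZero hqN ⟨lrm_beta hqN g, lre_beta_mem_stab_zero hqN g⟩ = g := by
  have hq : (q : ℤ) ≠ 0 := by exact_mod_cast (Fact.out : q.Prime).ne_zero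
  obtain ⟨a1, a2, a3, a4⟩ := lrm_beta_entries hqN g
  obtain ⟨b1, b2, b3, b4⟩ := lrm_gamZero_entries hqN ⟨lrm_beta hqN g, lre_beta_mem_stab_zero hqN g⟩
  apply Subtype.ext
  apply Subtype.ext
  ext i j
  fin_cases i <;> fin_cases j
  · exact b1.trans a1
  · exact mul_left_cancel₀ hq (b2.trans a2)
  · refine mul_left_cancel₀ hq ?_
    show (q : ℤ) * _ = (q : ℤ) * (g : SL(2, ℤ)) 1 0
    rw [← a3]
    exact congrArg _ b3
  · exact b4.trans a4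

/-- `β : Γ₀(Nq) ≃* Stab(0) ≤ Γ₀(N)`, with inverse `lrm_gamZero` -/
def lrpd_betaEquivStab (hqN : ¬ q ∣ N) :
    Gamma0 (N * q) ≃* lrt_stab (lrm_data hqN) ((0 : ZMod q) : OnePoint (ZMod q)) where
  toFun g := ⟨lrm_beta hqN g, lre_beta_mem_stab_zero hqN g⟩
  invFun := lrm_gamZero hqN
  left_inv g := lrpd_pb_gamZero_beta hqN g
  right_inv s := Subtype.ext (lrm_beta_gamZero hqN s)
  map_mul' g h := Subtype.ext (map_mul (lrm_beta hqN) g h)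

theorem lrpd_betaEquivStab_coe (hqN : ¬ q ∣ N) (g : Gamma0 (N * q)) :
    ((lrpd_betaEquivStab hqN g : lrt_stab (lrm_data hqN) ((0 : ZMod q) : OnePoint (ZMod q))) :
      Gamma0 N) = lrm_beta hqN g := rfl

theorem lrpd_betaEquivStab_symm (hqN : ¬ q ∣ N)
    (s : lrt_stab (lrm_data hqN) ((0 : ZMod q) : OnePoint (ZMod q))) :
    (lrpd_betaEquivStab hqN).symm s = lrm_gamZero hqN s := rfl

/-- the image of `β` as a subgroup of `SL(2, ℤ)`: `Γ₀(N) ∩ Γ⁰(q)` -/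
def lrpd_betaImage (hqN : ¬ q ∣ N) : Subgroup SL(2, ℤ) :=
  (lrt_stab (lrm_data hqN) ((0 : ZMod q) : OnePoint (ZMod q))).map (Gamma0 N).subtype

theorem lrpd_mem_betaImage_iff (hqN : ¬ q ∣ N) (g : SL(2, ℤ)) :
    g ∈ lrpd_betaImage hqN ↔ g ∈ Gamma0 N ∧ (q : ℤ) ∣ g 0 1 := by
  constructor
  · rintro ⟨s, hs, rfl⟩
    refine ⟨s.2, ?_⟩
    exact (lrm_act_zero _).mp hs
  · rintro ⟨h1, h2⟩
    exact ⟨⟨g, h1⟩, (lrm_act_zero _).mpr h2, rfl⟩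

theorem lrpd_betaImage_le (hqN : ¬ q ∣ N) : lrpd_betaImage hqN ≤ Gamma0 N := fun g hg =>
  ((lrpd_mem_betaImage_iff hqN g).mp hg).1

/-- `β : Γ₀(Nq) ≃* Γ₀(N) ∩ Γ⁰(q)`, both sides subgroups of `SL(2, ℤ)` -/
def lrpd_betaEquiv (hqN : ¬ q ∣ N) : Gamma0 (N * q) ≃* lrpd_betaImage hqN :=
  (lrpd_betaEquivStab hqN).trans
    ((lrt_stab (lrm_data hqN) ((0 : ZMod q) : OnePoint (ZMod q))).equivMapOfInjective
      (Gamma0 N).subtype Subtype.coe_injective)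

theorem lrpd_betaEquiv_coe (hqN : ¬ q ∣ N) (g : Gamma0 (N * q)) :
    ((lrpd_betaEquiv hqN g : lrpd_betaImage hqN) : SL(2, ℤ)) =
      ((lrm_beta hqN g : Gamma0 N) : SL(2, ℤ)) := rfl

/-- the entries of `β g` -/
theorem lrpd_betaEquiv_entries (hqN : ¬ q ∣ N) (g : Gamma0 (N * q)) :
    ((lrpd_betaEquiv hqN g : lrpd_betaImage hqN) : SL(2, ℤ)) 0 0 = (g : SL(2, ℤ)) 0 0 ∧
    ((lrpd_betaEquiv hqN g : lrpd_betaImage hqN) : SL(2, ℤ)) 0 1 = q * (g : SL(2, ℤ)) 0 1 ∧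
    (q : ℤ) * ((lrpd_betaEquiv hqN g : lrpd_betaImage hqN) : SL(2, ℤ)) 1 0 = (g : SL(2, ℤ)) 1 0 ∧
    ((lrpd_betaEquiv hqN g : lrpd_betaImage hqN) : SL(2, ℤ)) 1 1 = (g : SL(2, ℤ)) 1 1 := by
  rw [lrpd_betaEquiv_coe]
  exact lrm_beta_entries hqN g

/-- `β` PRESERVES THE TRACE -/
theorem lrpd_betaEquiv_tr (hqN : ¬ q ∣ N) (g : Gamma0 (N * q)) :
    ((lrpd_betaEquiv hqN g : lrpd_betaImage hqN) : SL(2, ℤ)) 0 0 +
      ((lrpd_betaEquiv hqN g : lrpd_betaImage hqN) : SL(2, ℤ)) 1 1 =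
    (g : SL(2, ℤ)) 0 0 + (g : SL(2, ℤ)) 1 1 := by
  obtain ⟨a1, -, -, a4⟩ := lrpd_betaEquiv_entries hqN g
  rw [a1, a4]

/-- `β` PRESERVES POSITIVITY of the elements of trace `2` -/
theorem lrpd_betaEquiv_pos (hqN : ¬ q ∣ N) (g : Gamma0 (N * q))
    (htr : (g : SL(2, ℤ)) 0 0 + (g : SL(2, ℤ)) 1 1 = 2) :
    0 < ((lrpd_betaEquiv hqN g : lrpd_betaImage hqN) : SL(2, ℤ)) 0 1 -
        ((lrpd_betaEquiv hqN g : lrpd_betaImage hqN) : SL(2, ℤ)) 1 0 ↔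
    0 < (g : SL(2, ℤ)) 0 1 - (g : SL(2, ℤ)) 1 0 := by
  obtain ⟨-, a2, a3, -⟩ := lrpd_betaEquiv_entries hqN g
  have hq : (0 : ℤ) < q := by exact_mod_cast (Fact.out : q.Prime).pos
  exact lrpd_par_pos_scale _ _ (q : ℤ) hq htr a2 a3

/-- the inverse of `β` preserves the trace -/
theorem lrpd_betaEquiv_symm_tr (hqN : ¬ q ∣ N) (s : lrpd_betaImage hqN) :
    (((lrpd_betaEquiv hqN).symm s : Gamma0 (N * q)) : SL(2, ℤ)) 0 0 +
      (((lrpd_betaEquiv hqN).symm s : Gamma0 (N * q)) : SL(2, ℤ)) 1 1 =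
    (s : SL(2, ℤ)) 0 0 + (s : SL(2, ℤ)) 1 1 := by
  have h := lrpd_betaEquiv_tr hqN ((lrpd_betaEquiv hqN).symm s)
  rw [MulEquiv.apply_symm_apply] at h
  exact h.symm

/-- the inverse of `β` preserves positivity of the elements of trace `2` -/
theorem lrpd_betaEquiv_symm_pos (hqN : ¬ q ∣ N) (s : lrpd_betaImage hqN)
    (htr : (s : SL(2, ℤ)) 0 0 + (s : SL(2, ℤ)) 1 1 = 2) :
    0 < (((lrpd_betaEquiv hqN).symm s : Gamma0 (N * q)) : SL(2, ℤ)) 0 1 -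
        (((lrpd_betaEquiv hqN).symm s : Gamma0 (N * q)) : SL(2, ℤ)) 1 0 ↔
    0 < (s : SL(2, ℤ)) 0 1 - (s : SL(2, ℤ)) 1 0 := by
  have h := lrpd_betaEquiv_pos hqN ((lrpd_betaEquiv hqN).symm s)
    (by rw [lrpd_betaEquiv_symm_tr]; exact htr)
  rw [MulEquiv.apply_symm_apply] at h
  exact h.symm

/-! ### `-1` and finite index -/

theorem lrpd_pb_neg_one_mem_Gamma0 (M : ℕ) : (-1 : SL(2, ℤ)) ∈ Gamma0 M := by
  refine t2c_mem_of_dvd ?_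
  rw [Matrix.SpecialLinearGroup.coe_neg, Matrix.neg_apply, Matrix.SpecialLinearGroup.coe_one,
    Matrix.one_apply_ne (by decide), neg_zero]
  exact dvd_zero _

theorem lrpd_neg_one_mem_betaImage (hqN : ¬ q ∣ N) : (-1 : SL(2, ℤ)) ∈ lrpd_betaImage hqN := by
  rw [lrpd_mem_betaImage_iff]
  refine ⟨lrpd_pb_neg_one_mem_Gamma0 N, ?_⟩
  rw [Matrix.SpecialLinearGroup.coe_neg, Matrix.neg_apply, Matrix.SpecialLinearGroup.coe_one,
    Matrix.one_apply_ne (by decide), neg_zero]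
  exact dvd_zero _

theorem lrpd_pb_Gamma_le_betaImage (hqN : ¬ q ∣ N) : Gamma (N * q) ≤ lrpd_betaImage hqN := by
  intro g hg
  rw [Gamma_mem] at hg
  obtain ⟨-, h01, h10, -⟩ := hg
  have d01 : ((N * q : ℕ) : ℤ) ∣ g 0 1 := (ZMod.intCast_zmod_eq_zero_iff_dvd _ _).mp h01
  have d10 : ((N * q : ℕ) : ℤ) ∣ g 1 0 := (ZMod.intCast_zmod_eq_zero_iff_dvd _ _).mp h10
  rw [lrpd_mem_betaImage_iff]
  refine ⟨t2c_mem_of_dvd (dvd_trans ?_ d10), dvd_trans ?_ d01⟩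
  · push_cast
    exact dvd_mul_right _ _
  · push_cast
    exact dvd_mul_left _ _

theorem lrpd_betaImage_finiteIndex [NeZero N] (hqN : ¬ q ∣ N) :
    (lrpd_betaImage hqN).FiniteIndex := by
  have : NeZero (N * q) := ⟨Nat.mul_ne_zero (NeZero.ne N) (Fact.out : q.Prime).ne_zero⟩
  exact Subgroup.finiteIndex_of_le (lrpd_pb_Gamma_le_betaImage hqN)

end Fermat.Agent.LR
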