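/-
LR / node [PD], cell [PD-PROJ] (abstract; no `SL(2, ℤ)` here).  Prefix `lrpj_`.

Cup-primitives ("Heisenberg lifts") of a pair of additive characters, the relational (orbit-free)
cusp sum, and the projection formula `res ⊣ cor` for the cusp-sum pairing.

* `lrpj_IsPrim x z lam` : `lam (g * h) = lam g + lam h + x g * z h`; formal facts
  (`lrpj_prim_one/inv/conj/pow`, difference of two primitives is a character, swap, additivity,
  pull-back);
* `lrpj_IsTr D y₀ ρ hρ τ lam s` : `s` is the sum over the cycles `O` of `τ` on `Y` of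
  `lam (ρ_y τ^{|O|} ρ_y⁻¹)`, expressed through an auxiliary function `c : Y → R` whose sums over
  closed `τ`-paths are the values of `lam`; no orbit type, no representatives
  (`lrpj_isTr_unique`, `lrpj_isTr_hom`, `lrpj_isTr_add/neg/smul/congr/swap`);
* `lrpj_Lam` : the twisted transfer of a primitive; `lrpj_Lam_prim` : it is a primitive of
  `(x, cor z')`; `lrpj_Lam_orbit` : its partial sums along a path;
* `lrpj_prodData` : the product data on `Y × X` for a tower `GG ⊇ Γ ⊇ Γ'`, and `lrpj_isTr_tower` :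
  `IsTr` at the level of `Γ'` implies `IsTr` of the twisted transfer at the level of `Γ`;
* `lrpj_isTr_transport` : change of the finite set / of the representatives.
-/
import Mathlib
import Fermat.Agent.LR.MTX.Homology

set_option autoImplicit false

noncomputable section

namespace Fermat.Agent.LR

/-! ### Cup-primitives -/

section prim

variable {G : Type*} [Group G] {R : Type*} [CommRing R]

/-- `lam` is a cup-primitive of the pair of characters `(x, z)`: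
`lam (g h) = lam g + lam h + x(g) z(h)`. -/
def lrpj_IsPrim (x z : Additive G →+ R) (lam : G → R) : Prop :=
  ∀ g h : G, lam (g * h) = lam g + lam h + lrt_ev x g * lrt_ev z h

theorem lrpj_ev_pow (x : Additive G →+ R) (g : G) (n : ℕ) :
    lrt_ev x (g ^ n) = (n : R) * lrt_ev x g := by
  induction n with
  | zero => simp [lrt_ev_one]
  | succ n ih => rw [pow_succ, lrt_ev_mul, ih]; push_cast; ring

variable {x z : Additive G →+ R} {lam : G → R}

theorem lrpj_prim_one (h : lrpj_IsPrim x z lam) : lam 1 = 0 := by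
  have h1 := h 1 1
  rw [mul_one, lrt_ev_one, zero_mul, add_zero] at h1
  exact left_eq_add.mp h1

theorem lrpj_prim_inv (h : lrpj_IsPrim x z lam) (g : G) :
    lam g⁻¹ = - lam g + lrt_ev x g * lrt_ev z g := by
  have h1 := h g g⁻¹
  rw [mul_inv_cancel, lrpj_prim_one h, lrt_ev_inv] at h1
  linear_combination -h1

theorem lrpj_prim_conj (h : lrpj_IsPrim x z lam) (g k : G) :
    lam (k * g * k⁻¹) = lam g + lrt_ev x k * lrt_ev z g - lrt_ev x g * lrt_ev z k := by
  rw [h (k * g) k⁻¹, h k g, lrpj_prim_inv h k, lrt_ev_mul, lrt_ev_inv]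
  ring

/-- invariance under conjugation at the elements killed by both characters -/
theorem lrpj_prim_conj_of_kills (h : lrpj_IsPrim x z lam) (g k : G) (hx : lrt_ev x g = 0)
    (hz : lrt_ev z g = 0) : lam (k * g * k⁻¹) = lam g := by
  rw [lrpj_prim_conj h, hx, hz]
  ring

theorem lrpj_prim_pow (h : lrpj_IsPrim x z lam) (g : G) (n : ℕ) :
    lam (g ^ n) = (n : R) * lam g + (n.choose 2 : R) * (lrt_ev x g * lrt_ev z g) := by
  induction n with
  | zero => simp [lrpj_prim_one h]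
  | succ n ih =>
    rw [pow_succ, h, ih, lrpj_ev_pow, Nat.choose_succ_succ, Nat.choose_one_right]
    push_cast
    ring

theorem lrpj_prim_pow_of_left (h : lrpj_IsPrim x z lam) (g : G) (n : ℕ) (hx : lrt_ev x g = 0) :
    lam (g ^ n) = (n : R) * lam g := by
  rw [lrpj_prim_pow h, hx]
  ring

theorem lrpj_prim_pow_of_right (h : lrpj_IsPrim x z lam) (g : G) (n : ℕ) (hz : lrt_ev z g = 0) :
    lam (g ^ n) = (n : R) * lam g := by
  rw [lrpj_prim_pow h, hz]
  ring

/-- a primitive plus a character is a primitive -/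
theorem lrpj_prim_add_hom (h : lrpj_IsPrim x z lam) (χ : Additive G →+ R) :
    lrpj_IsPrim x z (fun g => lam g + lrt_ev χ g) := by
  intro g k
  show lam (g * k) + lrt_ev χ (g * k) = _
  rw [h, lrt_ev_mul]
  ring

/-- two primitives of the same pair differ by a character -/
theorem lrpj_prim_sub_hom {lam' : G → R} (h : lrpj_IsPrim x z lam) (h' : lrpj_IsPrim x z lam') :
    ∃ χ : Additive G →+ R, ∀ g, lam' g = lam g + lrt_ev χ g := by
  refine ⟨{ toFun := fun g => lam' (Additive.toMul g) - lam (Additive.toMul g)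
            map_zero' := ?_
            map_add' := ?_ }, ?_⟩
  · show lam' 1 - lam 1 = 0
    rw [lrpj_prim_one h, lrpj_prim_one h', sub_zero]
  · intro g k
    show lam' (Additive.toMul g * Additive.toMul k) - lam (Additive.toMul g * Additive.toMul k) = _
    rw [h, h']
    ring
  · intro g
    show lam' g = lam g + (lam' g - lam g)
    ring

/-- a character is a primitive of `(0, z)` and of `(x, 0)` -/
theorem lrpj_prim_hom_left (χ : Additive G →+ R) (z : Additive G →+ R) :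
    lrpj_IsPrim 0 z (fun g => lrt_ev χ g) := by
  intro g k
  show lrt_ev χ (g * k) = lrt_ev χ g + lrt_ev χ k + lrt_ev (0 : Additive G →+ R) g * lrt_ev z k
  have : lrt_ev (0 : Additive G →+ R) g = 0 := rfl
  rw [lrt_ev_mul, this]
  ring

theorem lrpj_prim_hom_right (χ : Additive G →+ R) (x : Additive G →+ R) :
    lrpj_IsPrim x 0 (fun g => lrt_ev χ g) := by
  intro g k
  show lrt_ev χ (g * k) = lrt_ev χ g + lrt_ev χ k + lrt_ev x g * lrt_ev (0 : Additive G →+ R) k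
  have : lrt_ev (0 : Additive G →+ R) k = 0 := rfl
  rw [lrt_ev_mul, this]
  ring

/-- **swap**: `-lam + x z` is a primitive of `(z, x)` -/
theorem lrpj_prim_swap (h : lrpj_IsPrim x z lam) :
    lrpj_IsPrim z x (fun g => - lam g + lrt_ev x g * lrt_ev z g) := by
  intro g k
  show - lam (g * k) + lrt_ev x (g * k) * lrt_ev z (g * k) = _
  rw [h, lrt_ev_mul, lrt_ev_mul]
  ring

theorem lrpj_prim_add_left {x' : Additive G →+ R} {lam' : G → R} (h : lrpj_IsPrim x z lam)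
    (h' : lrpj_IsPrim x' z lam') : lrpj_IsPrim (x + x') z (fun g => lam g + lam' g) := by
  intro g k
  show lam (g * k) + lam' (g * k) = _
  have : lrt_ev (x + x') g = lrt_ev x g + lrt_ev x' g := rfl
  rw [h, h', this]
  ring

theorem lrpj_prim_add_right {z' : Additive G →+ R} {lam' : G → R} (h : lrpj_IsPrim x z lam)
    (h' : lrpj_IsPrim x z' lam') : lrpj_IsPrim x (z + z') (fun g => lam g + lam' g) := by
  intro g k
  show lam (g * k) + lam' (g * k) = _
  have : lrt_ev (z + z') k = lrt_ev z k + lrt_ev z' k := rfl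
  rw [h, h', this]
  ring

theorem lrpj_prim_neg (h : lrpj_IsPrim x z lam) : lrpj_IsPrim (-x) z (fun g => - lam g) := by
  intro g k
  show - lam (g * k) = _
  have : lrt_ev (-x) g = - lrt_ev x g := rfl
  rw [h, this]
  ring

theorem lrpj_prim_smul_left (c : R) (h : lrpj_IsPrim x z lam) :
    lrpj_IsPrim (c • x) z (fun g => c * lam g) := by
  intro g k
  show c * lam (g * k) = _
  have : lrt_ev (c • x) g = c * lrt_ev x g := rfl
  rw [h, this]
  ring

theorem lrpj_prim_smul_right (c : R) (h : lrpj_IsPrim x z lam) :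
    lrpj_IsPrim x (c • z) (fun g => c * lam g) := by
  intro g k
  show c * lam (g * k) = _
  have : lrt_ev (c • z) k = c * lrt_ev z k := rfl
  rw [h, this]
  ring

/-- pull-back of a primitive along a group homomorphism -/
theorem lrpj_prim_comp {G' : Type*} [Group G'] (θ : G' →* G) (h : lrpj_IsPrim x z lam) :
    lrpj_IsPrim (x.comp (MonoidHom.toAdditive θ)) (z.comp (MonoidHom.toAdditive θ))
      (fun g => lam (θ g)) := by
  intro g k
  show lam (θ (g * k)) = lam (θ g) + lam (θ k) + lrt_ev x (θ g) * lrt_ev z (θ k)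
  rw [map_mul, h]

end prim

/-! ### The relational cusp sum -/

section trace

variable {GG : Type*} [Group GG] {Y : Type*} [Fintype Y] {R : Type*} [CommRing R]
variable (D : lrt_Data GG Y) (y₀ : Y) (ρ : Y → GG) (hρ : ∀ y, D.act (ρ y) y₀ = y)

/-- `s` is the sum, over the cycles `O` of `τ` on `Y`, of `lam (ρ_y τ^{|O|} ρ_y⁻¹)` (`y ∈ O`):
there is `c : Y → R` with `∑ y, c y = s` whose sum along every closed `τ`-path
`y, y τ, …, y τ^n = y` is `lam (a_y (τ ^ n))`. -/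
def lrpj_IsTr (τ : GG) (lam : lrt_stab D y₀ → R) (s : R) : Prop :=
  ∃ c : Y → R,
    (∀ (y : Y) (n : ℕ), 0 < n → ((lrt_perm D τ) ^ n) y = y →
      ∑ i ∈ Finset.range n, c (((lrt_perm D τ) ^ i) y) = lam (lrt_a D y₀ ρ hρ y (τ ^ n))) ∧
    ∑ y, c y = s

variable {D y₀ ρ hρ}
variable {τ : GG} {lam lam' : lrt_stab D y₀ → R} {s s' : R}

/-- the cusp sum of `lam` is unique -/
theorem lrpj_isTr_unique (h : lrpj_IsTr D y₀ ρ hρ τ lam s) (h' : lrpj_IsTr D y₀ ρ hρ τ lam s') :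
    s = s' := by
  obtain ⟨c, hc, rfl⟩ := h
  obtain ⟨c', hc', rfl⟩ := h'
  have h0 : ∑ y, (c y - c' y) = 0 := by
    refine lrh_sum_eq_zero_of_orbits (lrt_perm D τ) (fun y => c y - c' y) ?_
    intro y n hn hy
    rw [Finset.sum_sub_distrib, hc y n hn hy, hc' y n hn hy, sub_self]
  rw [Finset.sum_sub_distrib] at h0
  exact sub_eq_zero.mp h0

/-- only the values at the closed-path elements matter -/
theorem lrpj_isTr_congr
    (hll : ∀ (y : Y) (n : ℕ), 0 < n → ((lrt_perm D τ) ^ n) y = y →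
      lam (lrt_a D y₀ ρ hρ y (τ ^ n)) = lam' (lrt_a D y₀ ρ hρ y (τ ^ n)))
    (h : lrpj_IsTr D y₀ ρ hρ τ lam s) : lrpj_IsTr D y₀ ρ hρ τ lam' s := by
  obtain ⟨c, hc, hs⟩ := h
  exact ⟨c, fun y n hn hy => (hc y n hn hy).trans (hll y n hn hy), hs⟩

/-- the cusp sum of a character is its transfer evaluated at `τ` -/
theorem lrpj_isTr_hom (τ : GG) (χ : Additive (lrt_stab D y₀) →+ R) :
    lrpj_IsTr D y₀ ρ hρ τ (fun γ => lrt_ev χ γ) (lrt_ev (lrt_cor D y₀ ρ hρ χ) τ) := by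
  refine ⟨fun y => lrt_ev χ (lrt_a D y₀ ρ hρ y τ), ?_, ?_⟩
  · intro y n _ _
    exact (lrh_a_pow D y₀ ρ hρ χ y τ n).symm
  · rw [lrt_cor_ev]

theorem lrpj_isTr_add {s₁ s₂ : R} {lam₁ lam₂ : lrt_stab D y₀ → R}
    (h₁ : lrpj_IsTr D y₀ ρ hρ τ lam₁ s₁) (h₂ : lrpj_IsTr D y₀ ρ hρ τ lam₂ s₂) :
    lrpj_IsTr D y₀ ρ hρ τ (fun γ => lam₁ γ + lam₂ γ) (s₁ + s₂) := by
  obtain ⟨c₁, hc₁, rfl⟩ := h₁
  obtain ⟨c₂, hc₂, rfl⟩ := h₂
  refine ⟨fun y => c₁ y + c₂ y, ?_, Finset.sum_add_distrib⟩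
  intro y n hn hy
  rw [Finset.sum_add_distrib, hc₁ y n hn hy, hc₂ y n hn hy]

theorem lrpj_isTr_neg (h : lrpj_IsTr D y₀ ρ hρ τ lam s) :
    lrpj_IsTr D y₀ ρ hρ τ (fun γ => - lam γ) (-s) := by
  obtain ⟨c, hc, rfl⟩ := h
  refine ⟨fun y => - c y, ?_, Finset.sum_neg_distrib _⟩
  intro y n hn hy
  rw [Finset.sum_neg_distrib, hc y n hn hy]

theorem lrpj_isTr_smul (a : R) (h : lrpj_IsTr D y₀ ρ hρ τ lam s) :
    lrpj_IsTr D y₀ ρ hρ τ (fun γ => a * lam γ) (a * s) := by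
  obtain ⟨c, hc, rfl⟩ := h
  refine ⟨fun y => a * c y, ?_, (Finset.mul_sum _ _ _).symm⟩
  intro y n hn hy
  rw [← Finset.mul_sum, hc y n hn hy]

theorem lrpj_isTr_zero : lrpj_IsTr D y₀ ρ hρ τ (fun _ => (0 : R)) 0 :=
  ⟨fun _ => 0, fun _ _ _ _ => Finset.sum_const_zero, Finset.sum_const_zero⟩

/-- adding a character with vanishing transfer at `τ` does not change the cusp sum -/
theorem lrpj_isTr_add_hom (χ : Additive (lrt_stab D y₀) →+ R)
    (hχ : lrt_ev (lrt_cor D y₀ ρ hρ χ) τ = 0) (h : lrpj_IsTr D y₀ ρ hρ τ lam s) :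
    lrpj_IsTr D y₀ ρ hρ τ (fun γ => lam γ + lrt_ev χ γ) s := by
  have h1 := lrpj_isTr_add h (lrpj_isTr_hom (hρ := hρ) τ χ)
  rwa [hχ, add_zero] at h1

/-- **antisymmetry**: the cusp sum of the swapped primitive is the opposite, as soon as `x` (or `z`)
kills the closed-path elements. -/
theorem lrpj_isTr_swap (x z : Additive (lrt_stab D y₀) →+ R)
    (hx : ∀ (y : Y) (n : ℕ), 0 < n → ((lrt_perm D τ) ^ n) y = y →
      lrt_ev x (lrt_a D y₀ ρ hρ y (τ ^ n)) * lrt_ev z (lrt_a D y₀ ρ hρ y (τ ^ n)) = 0)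
    (h : lrpj_IsTr D y₀ ρ hρ τ lam s) :
    lrpj_IsTr D y₀ ρ hρ τ (fun γ => - lam γ + lrt_ev x γ * lrt_ev z γ) (-s) := by
  refine lrpj_isTr_congr ?_ (lrpj_isTr_neg h)
  intro y n hn hy
  show - lam _ = - lam _ + _
  rw [hx y n hn hy, add_zero]

end trace

/-! ### The twisted transfer of a primitive (projection formula) -/

section proj

variable {G : Type*} [Group G] {X : Type*} {R : Type*} [CommRing R]
variable (D : lrt_Data G X) (x₀ : X) (r : X → G) (hr : ∀ i, D.act (r i) x₀ = i)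

/-- restriction of a character to the stabiliser -/
def lrpj_res (x : Additive G →+ R) : Additive (lrt_stab D x₀) →+ R :=
  x.comp (MonoidHom.toAdditive (lrt_stab D x₀).subtype)

theorem lrpj_res_ev (x : Additive G →+ R) (γ : lrt_stab D x₀) :
    lrt_ev (lrpj_res D x₀ x) γ = lrt_ev x (γ : G) := rfl

/-- the value of a character of `G` at the transfer cocycle -/
theorem lrpj_ev_a (x : Additive G →+ R) (i : X) (g : G) :
    lrt_ev x (lrt_a D x₀ r hr i g : G) = lrt_ev x (r i) + lrt_ev x g - lrt_ev x (r (D.act g i)) := by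
  rw [lrt_a_coe, lrt_ev_mul, lrt_ev_mul, lrt_ev_inv, sub_eq_add_neg]

/-- one summand of the twisted transfer -/
def lrpj_term (x : Additive G →+ R) (z' : Additive (lrt_stab D x₀) →+ R)
    (lam' : lrt_stab D x₀ → R) (i : X) (g : G) : R :=
  lam' (lrt_a D x₀ r hr i g) - lrt_ev x (r i) * lrt_ev z' (lrt_a D x₀ r hr i g)

variable {D x₀ r hr}
variable {x : Additive G →+ R} {z' : Additive (lrt_stab D x₀) →+ R} {lam' : lrt_stab D x₀ → R}

theorem lrpj_term_mul (h : lrpj_IsPrim (lrpj_res D x₀ x) z' lam') (i : X) (g k : G) :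
    lrpj_term D x₀ r hr x z' lam' i (g * k) =
      lrpj_term D x₀ r hr x z' lam' i g + lrpj_term D x₀ r hr x z' lam' (D.act g i) k +
        lrt_ev x g * lrt_ev z' (lrt_a D x₀ r hr (D.act g i) k) := by
  unfold lrpj_term
  rw [lrt_a_mul, h, lrt_ev_mul, lrpj_res_ev, lrpj_ev_a]
  ring

variable (D x₀ r hr)

/-- the twisted transfer `Λ(g) = ∑ᵢ (λ'(aᵢ g) − x(rᵢ) z'(aᵢ g))` of a primitive `λ'` of
`(x|Γ', z')` -/
def lrpj_Lam [Fintype X] (x : Additive G →+ R) (z' : Additive (lrt_stab D x₀) →+ R)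
    (lam' : lrt_stab D x₀ → R) (g : G) : R :=
  ∑ i : X, lrpj_term D x₀ r hr x z' lam' i g

variable {D x₀ r hr}

/-- **projection formula**: the twisted transfer of a primitive of `(x|Γ', z')` is a primitive of
`(x, cor z')`. -/
theorem lrpj_Lam_prim [Fintype X] (h : lrpj_IsPrim (lrpj_res D x₀ x) z' lam') :
    lrpj_IsPrim x (lrt_cor D x₀ r hr z') (lrpj_Lam D x₀ r hr x z' lam') := by
  intro g k
  unfold lrpj_Lam
  rw [Finset.sum_congr rfl fun i _ => lrpj_term_mul h i g k, Finset.sum_add_distrib,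
    Finset.sum_add_distrib, ← Finset.mul_sum, lrt_cor_ev]
  have h1 : ∑ i : X, lrpj_term D x₀ r hr x z' lam' (D.act g i) k =
      ∑ i : X, lrpj_term D x₀ r hr x z' lam' i k :=
    Equiv.sum_comp (lrt_perm D g) fun i => lrpj_term D x₀ r hr x z' lam' i k
  have h2 : ∑ i : X, lrt_ev z' (lrt_a D x₀ r hr (D.act g i) k) =
      ∑ i : X, lrt_ev z' (lrt_a D x₀ r hr i k) :=
    Equiv.sum_comp (lrt_perm D g) fun i => lrt_ev z' (lrt_a D x₀ r hr i k)
  rw [h1, h2]

/-- **partial sums of the twisted transfer along a path** `i, i g, …, i g^{n-1}` -/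
theorem lrpj_Lam_orbit (h : lrpj_IsPrim (lrpj_res D x₀ x) z' lam') (g : G) (i : X) (n : ℕ) :
    ∑ k ∈ Finset.range n, lrpj_term D x₀ r hr x z' lam' (((lrt_perm D g) ^ k) i) g =
      lrpj_term D x₀ r hr x z' lam' i (g ^ n) -
        lrt_ev x g * ∑ k ∈ Finset.range n,
          (k : R) * lrt_ev z' (lrt_a D x₀ r hr (((lrt_perm D g) ^ k) i) g) := by
  induction n with
  | zero =>
    simp only [Finset.range_zero, Finset.sum_empty, pow_zero, mul_zero, sub_zero]
    unfold lrpj_term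
    rw [lrt_a_one, lrpj_prim_one h, lrt_ev_one, mul_zero, sub_zero]
  | succ n ih =>
    rw [Finset.sum_range_succ, Finset.sum_range_succ, ih, pow_succ, lrpj_term_mul h, lrpj_ev_pow,
      lrh_perm_pow]
    ring

/-- on a closed path, if `x` kills `g` and `z'` kills the closed-path element, the partial sum is
the value of the primitive at the closed-path element -/
theorem lrpj_Lam_orbit_closed (h : lrpj_IsPrim (lrpj_res D x₀ x) z' lam') (g : G) (i : X) (n : ℕ)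
    (hx : lrt_ev x g = 0) (hz : lrt_ev z' (lrt_a D x₀ r hr i (g ^ n)) = 0) :
    ∑ k ∈ Finset.range n, lrpj_term D x₀ r hr x z' lam' (((lrt_perm D g) ^ k) i) g =
      lam' (lrt_a D x₀ r hr i (g ^ n)) := by
  rw [lrpj_Lam_orbit h, hx, zero_mul, sub_zero]
  unfold lrpj_term
  rw [hz, mul_zero, sub_zero]

end proj

/-! ### Towers: the product data on `Y × X` -/

section tower

variable {GG : Type*} [Group GG] {Y : Type*} {X : Type*} {R : Type*} [CommRing R]
variable (D1 : lrt_Data GG Y) (y₀ : Y) (ρ : Y → GG) (hρ : ∀ y, D1.act (ρ y) y₀ = y)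
variable (D2 : lrt_Data (lrt_stab D1 y₀) X) (x₀ : X) (r : X → lrt_stab D1 y₀)
  (hr : ∀ i, D2.act (r i) x₀ = i)

/-- the action of `GG` on `Y × X ≅ Γ' \ GG`: `(y, i) g = (y g, i · a_y(g))` -/
def lrpj_prodData : lrt_Data GG (Y × X) where
  act g p := (D1.act g p.1, D2.act (lrt_a D1 y₀ ρ hρ p.1 g) p.2)
  act_one p := by
    rw [D1.act_one, lrt_a_one, D2.act_one]
  act_mul g h p := by
    rw [D1.act_mul, lrt_a_mul, D2.act_mul]
  coc _ _ := 1
  coc_one _ := rfl
  coc_mul _ _ _ := (mul_one 1).symm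

theorem lrpj_prodData_act (g : GG) (p : Y × X) :
    (lrpj_prodData D1 y₀ ρ hρ D2).act g p =
      (D1.act g p.1, D2.act (lrt_a D1 y₀ ρ hρ p.1 g) p.2) := rfl

/-- representatives for the product data -/
def lrpj_prodRep (p : Y × X) : GG := (r p.2 : GG) * ρ p.1

variable {D1 y₀ ρ}

theorem lrpj_a_base (hρ0 : ρ y₀ = 1) (γ : lrt_stab D1 y₀) :
    lrt_a D1 y₀ ρ hρ y₀ (γ : GG) = γ := by
  apply Subtype.ext
  rw [lrt_a_coe, (show D1.act (γ : GG) y₀ = y₀ from γ.2), hρ0, one_mul, inv_one, mul_one]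

theorem lrpj_a_rep (hρ0 : ρ y₀ = 1) (y : Y) : lrt_a D1 y₀ ρ hρ y₀ (ρ y) = 1 := by
  apply Subtype.ext
  rw [lrt_a_coe, hρ, hρ0, one_mul, mul_inv_cancel]
  rfl

variable {D2 x₀ r}

include hr in
theorem lrpj_prodRep_spec (hρ0 : ρ y₀ = 1) (p : Y × X) :
    (lrpj_prodData D1 y₀ ρ hρ D2).act (lrpj_prodRep D1 y₀ ρ r p) (y₀, x₀) = p := by
  unfold lrpj_prodRep
  rw [(lrpj_prodData D1 y₀ ρ hρ D2).act_mul, lrpj_prodData_act, lrpj_prodData_act]
  simp only []
  rw [lrpj_a_base hρ hρ0, hr, (show D1.act ((r p.2 : lrt_stab D1 y₀) : GG) y₀ = y₀ from (r p.2).2),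
    hρ, lrpj_a_rep hρ hρ0, D2.act_one]

variable (D2 x₀)

/-- an element of the stabiliser of `(y₀, x₀)` for the product data, seen in `Γ' = Stab(x₀)` -/
def lrpj_down (g : lrt_stab (lrpj_prodData D1 y₀ ρ hρ D2) (y₀, x₀)) : lrt_stab D2 x₀ :=
  ⟨lrt_a D1 y₀ ρ hρ y₀ (g : GG), congrArg Prod.snd g.2⟩

variable {D2 x₀}

theorem lrpj_down_coe (hρ0 : ρ y₀ = 1) (g : lrt_stab (lrpj_prodData D1 y₀ ρ hρ D2) (y₀, x₀)) :
    (((lrpj_down hρ D2 x₀ g : lrt_stab D2 x₀) : lrt_stab D1 y₀) : GG) = (g : GG) := by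
  have h1 : D1.act (g : GG) y₀ = y₀ := congrArg Prod.fst g.2
  show ((lrt_a D1 y₀ ρ hρ y₀ (g : GG) : lrt_stab D1 y₀) : GG) = g
  rw [lrt_a_coe, h1, hρ0, one_mul, inv_one, mul_one]

/-- the transfer cocycle of the product data is the composite of the two transfer cocycles -/
theorem lrpj_down_a (hρ0 : ρ y₀ = 1) (p : Y × X) (g : GG) :
    lrpj_down hρ D2 x₀ (lrt_a (lrpj_prodData D1 y₀ ρ hρ D2) (y₀, x₀) (lrpj_prodRep D1 y₀ ρ r)
      (lrpj_prodRep_spec hρ hr hρ0) p g) =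
      lrt_a D2 x₀ r hr p.2 (lrt_a D1 y₀ ρ hρ p.1 g) := by
  apply Subtype.ext
  apply Subtype.ext
  rw [lrpj_down_coe hρ hρ0, lrt_a_coe, lrt_a_coe, Subgroup.coe_mul, Subgroup.coe_mul,
    Subgroup.coe_inv, lrt_a_coe, lrpj_prodData_act]
  unfold lrpj_prodRep
  simp only []
  group

/-- powers of the permutation of `Y × X` induced by `τ` -/
theorem lrpj_prod_perm_pow (τ : GG) (k : ℕ) (p : Y × X) :
    ((lrt_perm (lrpj_prodData D1 y₀ ρ hρ D2) τ) ^ k) p =
      (((lrt_perm D1 τ) ^ k) p.1, D2.act (lrt_a D1 y₀ ρ hρ p.1 (τ ^ k)) p.2) := by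
  rw [lrh_perm_pow, lrh_perm_pow, lrpj_prodData_act]

/-- on a closed `τ`-path of `Y`, the transfer cocycle of `τ^{n j}` is the `j`-th power of the
closed-path element -/
theorem lrpj_a_pow_closed (τ : GG) (y : Y) (n : ℕ) (hy : D1.act (τ ^ n) y = y) (j : ℕ) :
    D1.act (τ ^ (n * j)) y = y ∧
      lrt_a D1 y₀ ρ hρ y (τ ^ (n * j)) = (lrt_a D1 y₀ ρ hρ y (τ ^ n)) ^ j := by
  induction j with
  | zero =>
    rw [mul_zero, pow_zero, pow_zero]
    exact ⟨D1.act_one y, lrt_a_one D1 y₀ ρ hρ y⟩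
  | succ j ih =>
    rw [mul_add, mul_one, pow_add]
    refine ⟨?_, ?_⟩
    · rw [D1.act_mul, ih.1, hy]
    · rw [lrt_a_mul, ih.1, ih.2, pow_succ]

theorem lrpj_sum_range_mul {A : Type*} [AddCommMonoid A] (f : ℕ → A) (n m : ℕ) :
    ∑ l ∈ Finset.range (n * m), f l =
      ∑ j ∈ Finset.range m, ∑ k ∈ Finset.range n, f (n * j + k) := by
  induction m with
  | zero => simp
  | succ m ih =>
    rw [mul_add, mul_one, Finset.sum_range_add, ih, Finset.sum_range_succ]

/-- **the tower theorem**: a cusp sum at the level of `Γ'` (product data on `Y × X`) is a cusp sum of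
the twisted transfer at the level of `Γ`. -/
theorem lrpj_isTr_tower [Fintype Y] [Fintype X] (hρ0 : ρ y₀ = 1) (τ : GG)
    {x : Additive (lrt_stab D1 y₀) →+ R} {z' : Additive (lrt_stab D2 x₀) →+ R}
    {lam' : lrt_stab D2 x₀ → R} (h : lrpj_IsPrim (lrpj_res D2 x₀ x) z' lam')
    (hx : ∀ (y : Y) (n : ℕ), 0 < n → ((lrt_perm D1 τ) ^ n) y = y →
      lrt_ev x (lrt_a D1 y₀ ρ hρ y (τ ^ n)) = 0)
    (hz : ∀ (y : Y) (n : ℕ), 0 < n → ((lrt_perm D1 τ) ^ n) y = y → ∀ (i : X) (m : ℕ), 0 < m →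
      ((lrt_perm D2 (lrt_a D1 y₀ ρ hρ y (τ ^ n))) ^ m) i = i →
      lrt_ev z' (lrt_a D2 x₀ r hr i ((lrt_a D1 y₀ ρ hρ y (τ ^ n)) ^ m)) = 0)
    {s : R}
    (hs : lrpj_IsTr (lrpj_prodData D1 y₀ ρ hρ D2) (y₀, x₀) (lrpj_prodRep D1 y₀ ρ r)
      (lrpj_prodRep_spec hρ hr hρ0) τ (fun g => lam' (lrpj_down hρ D2 x₀ g)) s) :
    lrpj_IsTr D1 y₀ ρ hρ τ (lrpj_Lam D2 x₀ r hr x z' lam') s := by
  obtain ⟨c', hc', hs'⟩ := hs
  refine ⟨fun y => ∑ i : X, c' (y, i), ?_, ?_⟩
  · intro y n hn hy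
    have hy' : D1.act (τ ^ n) y = y := by rw [← lrh_perm_pow]; exact hy
    set π : lrt_stab D1 y₀ := lrt_a D1 y₀ ρ hρ y (τ ^ n) with hπ
    set σ12 := lrt_perm (lrpj_prodData D1 y₀ ρ hρ D2) τ with hσ12
    -- step 1: rewrite the inner sums through the permutation of `Y × X`
    have h1 : ∀ k : ℕ, ∑ i : X, c' (((lrt_perm D1 τ) ^ k) y, i) = ∑ i : X, c' ((σ12 ^ k) (y, i)) := by
      intro k
      have := Equiv.sum_comp (lrt_perm D2 (lrt_a D1 y₀ ρ hρ y (τ ^ k)))
        (fun i => c' (((lrt_perm D1 τ) ^ k) y, i))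
      rw [← this]
      refine Finset.sum_congr rfl fun i _ => ?_
      rw [hσ12, lrpj_prod_perm_pow]
      rfl
    rw [Finset.sum_congr rfl fun k _ => h1 k, Finset.sum_comm]
    -- step 2: compare the two sums over `X` cycle by cycle of `π`
    unfold lrpj_Lam
    rw [← sub_eq_zero, ← Finset.sum_sub_distrib]
    refine lrh_sum_eq_zero_of_orbits (lrt_perm D2 π) _ ?_
    intro i m hm hi
    have hi' : D2.act (π ^ m) i = i := by rw [← lrh_perm_pow]; exact hi
    rw [Finset.sum_sub_distrib, lrpj_Lam_orbit_closed h π i m (hx y n hn hy) (hz y n hn hy i m hm hi),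
      sub_eq_zero]
    -- the closed path of length `n * m` through `(y, i)`
    have hpt : ∀ j : ℕ, (σ12 ^ (n * j)) (y, i) = (y, ((lrt_perm D2 π) ^ j) i) := by
      intro j
      obtain ⟨e1, e2⟩ := lrpj_a_pow_closed hρ τ y n hy' j
      rw [hσ12, lrpj_prod_perm_pow, lrh_perm_pow, lrh_perm_pow]
      simp only []
      rw [e1, e2]
    have hsum : ∑ j ∈ Finset.range m, ∑ k ∈ Finset.range n, c' ((σ12 ^ k) (y, ((lrt_perm D2 π) ^ j) i)) =
        ∑ l ∈ Finset.range (n * m), c' ((σ12 ^ l) (y, i)) := by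
      rw [lrpj_sum_range_mul]
      refine Finset.sum_congr rfl fun j _ => Finset.sum_congr rfl fun k _ => ?_
      rw [← hpt j, ← Equiv.Perm.mul_apply, ← pow_add, add_comm]
    rw [hsum]
    have hclosed : (σ12 ^ (n * m)) (y, i) = (y, i) := by rw [hpt m, hi]
    rw [hc' (y, i) (n * m) (Nat.mul_pos hn hm) hclosed]
    show lam' (lrpj_down hρ D2 x₀ _) = _
    rw [lrpj_down_a hρ hr hρ0]
    simp only []
    rw [(lrpj_a_pow_closed hρ τ y n hy' m).2]
  · rw [← hs', Fintype.sum_prod_type]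

end tower

/-! ### Transport: change of the finite set and of the representatives -/

section transport

variable {GG : Type*} [Group GG] {Y : Type*} {Y' : Type*} {R : Type*} [CommRing R]
variable (D : lrt_Data GG Y) (y₀ : Y) (ρ : Y → GG) (hρ : ∀ y, D.act (ρ y) y₀ = y)
variable (D' : lrt_Data GG Y') (y₀' : Y') (ρ' : Y' → GG) (hρ' : ∀ y, D'.act (ρ' y) y₀' = y)

/-- the comparison map `Y → Y'`, `y₀ g ↦ y₀' g` -/
def lrpj_cmp (y : Y) : Y' := D'.act (ρ y) y₀'

variable {D y₀ ρ D' y₀' ρ'}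

theorem lrpj_act_eq_of_mul_inv {a b : GG} (h : D.act (a * b⁻¹) y₀ = y₀) :
    D.act a y₀ = D.act b y₀ := by
  rw [D.act_mul] at h
  have h1 := lrt_act_inv' D b (D.act a y₀)
  rw [h] at h1
  exact h1.symm

include hρ in
/-- the comparison map is equivariant -/
theorem lrpj_cmp_act (hstab : ∀ g : GG, D.act g y₀ = y₀ → D'.act g y₀' = y₀') (g : GG) (y : Y) :
    lrpj_cmp ρ D' y₀' (D.act g y) = D'.act g (lrpj_cmp ρ D' y₀' y) := by
  unfold lrpj_cmp
  have h1 : D'.act (ρ y * g * (ρ (D.act g y))⁻¹) y₀' = y₀' :=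
    hstab _ (lrt_a D y₀ ρ hρ y g).2
  rw [← D'.act_mul]
  exact (lrpj_act_eq_of_mul_inv h1).symm

include hρ in
theorem lrpj_cmp_base (hstab : ∀ g : GG, D.act g y₀ = y₀ → D'.act g y₀' = y₀') :
    lrpj_cmp ρ D' y₀' y₀ = y₀' :=
  hstab _ (hρ y₀)

include hρ hρ' in
theorem lrpj_cmp_cmp (hstab' : ∀ g : GG, D'.act g y₀' = y₀' → D.act g y₀ = y₀) (y : Y) :
    lrpj_cmp ρ' D y₀ (lrpj_cmp ρ D' y₀' y) = y := by
  have h1 : lrpj_cmp ρ' D y₀ (lrpj_cmp ρ D' y₀' y) = lrpj_cmp ρ' D y₀ (D'.act (ρ y) y₀') := rfl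
  rw [h1, lrpj_cmp_act hρ' hstab', lrpj_cmp_base hρ' hstab', hρ]

include hρ in
theorem lrpj_cmp_perm_pow (hstab : ∀ g : GG, D.act g y₀ = y₀ → D'.act g y₀' = y₀') (τ : GG) (i : ℕ)
    (y : Y) :
    lrpj_cmp ρ D' y₀' (((lrt_perm D τ) ^ i) y) = ((lrt_perm D' τ) ^ i) (lrpj_cmp ρ D' y₀' y) := by
  rw [lrh_perm_pow, lrh_perm_pow, lrpj_cmp_act hρ hstab]

/-- **transport**: the cusp sum does not depend on the transitive `GG`-set with stabiliser `Γ` nor
on the representatives, for functions invariant under `Γ`-conjugation at the conjugates of the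
powers of `τ` (e.g. primitives of a pair of characters killing these elements). -/
theorem lrpj_isTr_transport [Fintype Y] [Fintype Y']
    (hstab : ∀ g : GG, D.act g y₀ = y₀ ↔ D'.act g y₀' = y₀') (τ : GG)
    {lam : lrt_stab D y₀ → R} {lam' : lrt_stab D' y₀' → R}
    (hll : ∀ (γ : lrt_stab D y₀) (γ' : lrt_stab D' y₀'), (γ : GG) = (γ' : GG) → lam γ = lam' γ')
    (hinv : ∀ (γ κ : lrt_stab D' y₀') (g : GG) (n : ℕ), (γ : GG) = g * τ ^ n * g⁻¹ →
      lam' (κ * γ * κ⁻¹) = lam' γ)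
    {s : R} (h : lrpj_IsTr D y₀ ρ hρ τ lam s) : lrpj_IsTr D' y₀' ρ' hρ' τ lam' s := by
  obtain ⟨c, hc, hs⟩ := h
  have hst1 : ∀ g : GG, D.act g y₀ = y₀ → D'.act g y₀' = y₀' := fun g => (hstab g).mp
  have hst2 : ∀ g : GG, D'.act g y₀' = y₀' → D.act g y₀ = y₀ := fun g => (hstab g).mpr
  -- the comparison bijection `Y' ≃ Y`
  let e : Y' ≃ Y :=
    { toFun := lrpj_cmp ρ' D y₀
      invFun := lrpj_cmp ρ D' y₀'
      left_inv := lrpj_cmp_cmp hρ' hρ hst1
      right_inv := lrpj_cmp_cmp hρ hρ' hst2 }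
  refine ⟨fun y' => c (e y'), ?_, ?_⟩
  · intro y' n hn hy'
    set y : Y := e y' with hy
    have hyy' : lrpj_cmp ρ D' y₀' y = y' := e.left_inv y'
    have hclosed : ((lrt_perm D τ) ^ n) y = y := by
      have := lrpj_cmp_perm_pow hρ' hst2 τ n y'
      rw [hy']  at this
      exact this.symm
    have hsum : ∑ i ∈ Finset.range n, c (e (((lrt_perm D' τ) ^ i) y')) =
        ∑ i ∈ Finset.range n, c (((lrt_perm D τ) ^ i) y) := by
      refine Finset.sum_congr rfl fun i _ => ?_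
      exact congrArg c (lrpj_cmp_perm_pow hρ' hst2 τ i y')
    rw [hsum, hc y n hn hclosed]
    -- the two closed-path elements are conjugate under the stabiliser
    have hcl : D.act (τ ^ n) y = y := by rw [← lrh_perm_pow]; exact hclosed
    have hcl' : D'.act (τ ^ n) y' = y' := by rw [← lrh_perm_pow]; exact hy'
    have hγ : D'.act (ρ y * τ ^ n * (ρ y)⁻¹) y₀' = y₀' := by
      have := (lrt_a D y₀ ρ hρ y (τ ^ n)).2
      rw [lrt_mem_stab, lrt_a_coe, hcl] at this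
      exact hst1 _ this
    have hκ : D'.act (ρ' y' * (ρ y)⁻¹) y₀' = y₀' := by
      rw [D'.act_mul, hρ']
      have h1 : D'.act (ρ y) y₀' = y' := hyy'
      have h2 := lrt_act_inv D' (ρ y) y₀'
      rwa [h1] at h2
    have helt : lrt_a D' y₀' ρ' hρ' y' (τ ^ n) =
        (⟨ρ' y' * (ρ y)⁻¹, hκ⟩ : lrt_stab D' y₀') * ⟨ρ y * τ ^ n * (ρ y)⁻¹, hγ⟩ *
          (⟨ρ' y' * (ρ y)⁻¹, hκ⟩ : lrt_stab D' y₀')⁻¹ := by
      apply Subtype.ext
      rw [lrt_a_coe, hcl', Subgroup.coe_mul, Subgroup.coe_mul, Subgroup.coe_inv]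
      show _ = ρ' y' * (ρ y)⁻¹ * (ρ y * τ ^ n * (ρ y)⁻¹) * (ρ' y' * (ρ y)⁻¹)⁻¹
      group
    rw [helt, hinv _ _ (ρ y) n rfl]
    refine hll _ _ ?_
    rw [lrt_a_coe, hcl]
  · rw [← hs]
    exact Equiv.sum_comp e c

end transport

end Fermat.Agent.LR
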