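/-
LR / node [PD] → [TOP]: the seam `lrtop_PD_stmt` of `LR/Top/Seams.lean` from the subgroup-level
interface `lrpd_SFam (ZMod p)` of `LR/PD/SLevel.lean`, through `LR/PD/Pairs.lean`
(`lrpd_pa_theory`) and `LR/PD/Adapt.lean` (`lrpd_ad_Om_*`).

* `lrpd_tt_PD` : a term of `lrpd_SFam (ZMod p)` for every odd prime `p` ⟹ `lrtop_PD_stmt`;
* `lrpd_tt_sfam`, `lrpd_tt_PD_of` : the same from (S4) transport and (S5) adjointness for the model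
  form `lrpd_OmS` of `LR/PD/OmS.lean` ((S1)–(S3) are `lrpd_OmS_add_left/_smul_left/_skew/_nondeg`).
Prefix `lrpd_tt_`.
-/
import Mathlib
import Fermat.Agent.LR.PD.OmS
import Fermat.Agent.LR.PD.Pairs
import Fermat.Agent.LR.Top.Seams

set_option autoImplicit false

noncomputable section

open Matrix ModularGroup
open scoped MatrixGroups
open Fermat.Agent.JT3

namespace Fermat.Agent.LR

/-- a bilinear map as a biadditive map -/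
def lrpd_tt_biadd {R V : Type*} [CommSemiring R] [AddCommMonoid V] [Module R V]
    (B : V →ₗ[R] V →ₗ[R] R) : V →+ V →+ R where
  toFun x := (B x).toAddMonoidHom
  map_zero' := by
    ext y
    simp
  map_add' a b := by
    ext y
    simp

@[simp] theorem lrpd_tt_biadd_apply {R V : Type*} [CommSemiring R] [AddCommMonoid V] [Module R V]
    (B : V →ₗ[R] V →ₗ[R] R) (x y : V) : lrpd_tt_biadd B x y = B x y := rfl

/-- **[PD] ⟹ the seam of [TOP]**, from a subgroup-level family for every odd prime -/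
theorem lrpd_tt_PD (S : ∀ (p : ℕ) [Fact p.Prime], p ≠ 2 → lrpd_SFam (ZMod p)) : lrtop_PD_stmt := by
  intro p hp hp2
  have : Fact p.Prime := ⟨hp⟩
  have hOm := lrpd_pa_theory (S p hp2)
  refine ⟨fun M => lrpd_tt_biadd (lrpd_ad_Om hOm M), ?_, ?_, ?_, ?_⟩
  · intro M _ x h
    exact lrpd_ad_Om_nondeg hOm M x h
  · intro M _ x y
    exact lrpd_ad_Om_skew hOm M x y
  · intro M r _ _ hrM ψ z
    exact lrpd_ad_Om_adj_A hOm M r hrM ψ z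
  · intro M r _ _ hrM ψ z
    exact lrpd_ad_Om_adj_B hOm M r hrM ψ z

/-- (S4) for the model form `lrpd_OmS` -/
def lrpd_tt_S4 (k : Type) [Field k] : Prop :=
  ∀ (Γ₁ Γ₂ : Subgroup SL(2, ℤ)) [Γ₁.FiniteIndex] [Γ₂.FiniteIndex],
    (-1 : SL(2, ℤ)) ∈ Γ₁ → (-1 : SL(2, ℤ)) ∈ Γ₂ → ∀ θ : Γ₁ ≃* Γ₂,
    (∀ γ : Γ₁, lrpd_tr (θ γ : SL(2, ℤ)) = lrpd_tr (γ : SL(2, ℤ))) →
    (∀ γ : Γ₁, lrpd_tr (γ : SL(2, ℤ)) = 2 →
      (lrpd_posi (θ γ : SL(2, ℤ)) ↔ lrpd_posi (γ : SL(2, ℤ)))) →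
    ∀ x y : Additive Γ₂ →+ k, lrpd_PE Γ₂ x → lrpd_PE Γ₂ y →
      lrpd_OmS Γ₁ (lrpd_pull θ.toMonoidHom x) (lrpd_pull θ.toMonoidHom y) = lrpd_OmS Γ₂ x y

/-- (S5) for the model form `lrpd_OmS` -/
def lrpd_tt_S5 (k : Type) [Field k] : Prop :=
  ∀ (Γ Γ' : Subgroup SL(2, ℤ)) [Γ.FiniteIndex] [Γ'.FiniteIndex] (hle : Γ' ≤ Γ),
    (-1 : SL(2, ℤ)) ∈ Γ' → ∀ {ι : Type} [Fintype ι] (ρ : ι → SL(2, ℤ)), (∀ i, ρ i ∈ Γ) →
    (∀ γ ∈ Γ, ∃! i, (ρ i)⁻¹ * γ ∈ Γ') →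
    ∀ (x : Additive Γ →+ k) (z : Additive Γ' →+ k) (c : Additive Γ →+ k),
      lrpd_PE Γ x → lrpd_PE Γ' z → lrpd_PE Γ c → lrpd_IsCores Γ Γ' ρ z c →
      lrpd_OmS Γ' (lrpd_pull (Subgroup.inclusion hle) x) z = lrpd_OmS Γ x c

/-- the subgroup-level family built on `lrpd_OmS` -/
def lrpd_tt_sfam (k : Type) [Field k] (h2 : (2 : k) ≠ 0) (h4 : lrpd_tt_S4 k) (h5 : lrpd_tt_S5 k) :
    lrpd_SFam k where
  Om := fun Γ x y => lrpd_OmS Γ x y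
  add_left := fun _ _ _ _ _ _ hx hx' hy => lrpd_OmS_add_left hx hx' hy
  smul_left := fun _ _ _ a _ _ hx hy => lrpd_OmS_smul_left a hx hy
  skew := fun _ _ _ _ _ hx hy => lrpd_OmS_skew hx hy
  nondeg := fun _ _ hneg _ hx h => lrpd_OmS_nondeg hneg h2 hx h
  transport := fun Γ₁ Γ₂ _ _ h1 h2' θ htr hpos x y hx hy => h4 Γ₁ Γ₂ h1 h2' θ htr hpos x y hx hy
  adj := fun Γ Γ' _ _ hle hneg _ _ ρ hρ hbij x z c hx hz hc hcores =>
    h5 Γ Γ' hle hneg ρ hρ hbij x z c hx hz hc hcores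

theorem lrpd_tt_two_ne_zero (p : ℕ) [Fact p.Prime] (hp2 : p ≠ 2) : (2 : ZMod p) ≠ 0 := by
  intro h
  have h1 : ((2 : ℕ) : ZMod p) = 0 := by exact_mod_cast h
  rw [ZMod.natCast_eq_zero_iff] at h1
  have hp : p.Prime := Fact.out
  rcases (Nat.dvd_prime Nat.prime_two).mp h1 with h3 | h3
  · exact hp.one_lt.ne' h3
  · exact hp2 h3

/-- **[PD] ⟹ the seam of [TOP]**, from (S4) and (S5) for `lrpd_OmS` over `ZMod p` -/
theorem lrpd_tt_PD_of (h4 : ∀ (p : ℕ) [Fact p.Prime], p ≠ 2 → lrpd_tt_S4 (ZMod p))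
    (h5 : ∀ (p : ℕ) [Fact p.Prime], p ≠ 2 → lrpd_tt_S5 (ZMod p)) : lrtop_PD_stmt :=
  lrpd_tt_PD fun p _ hp2 =>
    lrpd_tt_sfam (ZMod p) (lrpd_tt_two_ne_zero p hp2) (h4 p hp2) (h5 p hp2)

end Fermat.Agent.LR
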