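/-
LR / [PD] cell [TREE] (helper11).  Prefix `lrptd_` (independent second proof of helper6's `lrpt_tree`; height descent, no presentation).  Mathlib only.

The Bass–Serre tree of `PSL(2, ℤ) = C₂ * C₃` in its most elementary disguise: with
`U := S * T` (so `U ^ 3 = -1`), for every function `η : SL(2, ℤ) → A` into an additive commutative
group with `η (-g) = η g` and `η (S * g) = -η g` there is `Q : SL(2, ℤ) → A` with
`Q (-g) = Q g`, `Q (U * g) = Q g` and `Q (S * g) - Q g = η g`.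

Proof: height descent.  For the rows `r₁, r₂` of `g` put `ht g = |r₁|² + |r₂|² + |r₁ + r₂|²`
(invariant under `g ↦ U g` and `g ↦ -g`) and `a g = ⟨r₁, r₂⟩`; then `ht (S g) = ht g - 4 a g`, at most
one of `a g, a (U g), a (U² g)` is positive, and none is positive only for the twelve elements
`± U^k, ± U^k S`.  `Q` is defined by well-founded recursion on `ht`.
-/
import Mathlib

set_option autoImplicit false

open ModularGroup Matrix
open scoped MatrixGroups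

namespace Fermat.Agent.LR

universe u

/-- The inner product of the two rows of `g`. -/
def lrptd_a (g : SL(2, ℤ)) : ℤ := g 0 0 * g 1 0 + g 0 1 * g 1 1

/-- The height `|r₁|² + |r₂|² + |r₁ + r₂|²`. -/
def lrptd_ht (g : SL(2, ℤ)) : ℤ :=
  g 0 0 ^ 2 + g 0 1 ^ 2 + g 1 0 ^ 2 + g 1 1 ^ 2 + (g 0 0 + g 1 0) ^ 2 + (g 0 1 + g 1 1) ^ 2

theorem lrptd_det (g : SL(2, ℤ)) : g 0 0 * g 1 1 - g 0 1 * g 1 0 = 1 := by
  have h := g.det_coe
  rw [Matrix.det_fin_two] at h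
  exact h

theorem lrptd_S_mul_apply (g : SL(2, ℤ)) :
    (S * g) 0 0 = -g 1 0 ∧ (S * g) 0 1 = -g 1 1 ∧ (S * g) 1 0 = g 0 0 ∧ (S * g) 1 1 = g 0 1 := by
  refine ⟨?_, ?_, ?_, ?_⟩ <;>
  simp [Matrix.SpecialLinearGroup.coe_mul, Matrix.mul_apply, Fin.sum_univ_two, ModularGroup.coe_S]

theorem lrptd_U_mul_apply (g : SL(2, ℤ)) :
    (S * T * g) 0 0 = -g 1 0 ∧ (S * T * g) 0 1 = -g 1 1 ∧
      (S * T * g) 1 0 = g 0 0 + g 1 0 ∧ (S * T * g) 1 1 = g 0 1 + g 1 1 := by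
  refine ⟨?_, ?_, ?_, ?_⟩ <;>
  simp [Matrix.SpecialLinearGroup.coe_mul, Matrix.mul_apply, Fin.sum_univ_two, ModularGroup.coe_S,
    ModularGroup.coe_T]

theorem lrptd_neg_apply (g : SL(2, ℤ)) (i j : Fin 2) : (-g) i j = -(g i j) := by
  simp [Matrix.SpecialLinearGroup.coe_neg]


/-! ### The invariants `a` and `ht` -/

theorem lrptd_a_neg (g : SL(2, ℤ)) : lrptd_a (-g) = lrptd_a g := by
  simp only [lrptd_a, lrptd_neg_apply]; ring

theorem lrptd_ht_neg (g : SL(2, ℤ)) : lrptd_ht (-g) = lrptd_ht g := by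
  simp only [lrptd_ht, lrptd_neg_apply]; ring

theorem lrptd_a_S (g : SL(2, ℤ)) : lrptd_a (S * g) = -lrptd_a g := by
  obtain ⟨h1, h2, h3, h4⟩ := lrptd_S_mul_apply g
  simp only [lrptd_a, h1, h2, h3, h4]; ring

theorem lrptd_ht_S (g : SL(2, ℤ)) : lrptd_ht (S * g) = lrptd_ht g - 4 * lrptd_a g := by
  obtain ⟨h1, h2, h3, h4⟩ := lrptd_S_mul_apply g
  simp only [lrptd_ht, lrptd_a, h1, h2, h3, h4]; ring

theorem lrptd_ht_U (g : SL(2, ℤ)) : lrptd_ht (S * T * g) = lrptd_ht g := by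
  obtain ⟨h1, h2, h3, h4⟩ := lrptd_U_mul_apply g
  simp only [lrptd_ht, h1, h2, h3, h4]; ring

theorem lrptd_a_U (g : SL(2, ℤ)) :
    lrptd_a (S * T * g) = -lrptd_a g - (g 1 0 ^ 2 + g 1 1 ^ 2) := by
  obtain ⟨h1, h2, h3, h4⟩ := lrptd_U_mul_apply g
  simp only [lrptd_a, h1, h2, h3, h4]; ring

theorem lrptd_a_UU (g : SL(2, ℤ)) :
    lrptd_a (S * T * (S * T * g)) = -lrptd_a g - (g 0 0 ^ 2 + g 0 1 ^ 2) := by
  obtain ⟨h1, h2, h3, h4⟩ := lrptd_U_mul_apply g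
  rw [lrptd_a_U (S * T * g), lrptd_a_U g, h3, h4]
  simp only [lrptd_a]; ring

theorem lrptd_ht_nonneg (g : SL(2, ℤ)) : 0 ≤ lrptd_ht g := by
  unfold lrptd_ht; positivity

theorem lrptd_U_cube : (S * T) ^ 3 = (-1 : SL(2, ℤ)) := by
  ext i j; fin_cases i <;> fin_cases j <;> decide

theorem lrptd_UUU (g : SL(2, ℤ)) : S * T * (S * T * (S * T * g)) = -g := by
  have h : S * T * (S * T * (S * T * g)) = (S * T) ^ 3 * g := by
    simp only [pow_succ, pow_zero, one_mul, mul_assoc]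
  rw [h, lrptd_U_cube, neg_mul, one_mul]

theorem lrptd_SS (g : SL(2, ℤ)) : S * (S * g) = -g := by
  have h : S * S = (-1 : SL(2, ℤ)) := by
    ext i j; fin_cases i <;> fin_cases j <;> decide
  rw [← mul_assoc, h, neg_mul, one_mul]

theorem lrptd_S_neg (g : SL(2, ℤ)) : S * (-g) = -(S * g) := by
  rw [mul_neg]

theorem lrptd_U_neg (g : SL(2, ℤ)) : S * T * (-g) = -(S * T * g) := by
  rw [mul_neg]


/-- A `U`- and sign-invariant function separating `⟨±U⟩` (value `1`) from `⟨±U⟩ S` (value `-1`):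
the polarisation of the `U`-invariant form `x² + x y + y²` on the columns. -/
def lrptd_b (g : SL(2, ℤ)) : ℤ :=
  2 * (g 0 0 * g 0 1) + g 0 0 * g 1 1 + g 0 1 * g 1 0 + 2 * (g 1 0 * g 1 1)

theorem lrptd_b_neg (g : SL(2, ℤ)) : lrptd_b (-g) = lrptd_b g := by
  simp only [lrptd_b, lrptd_neg_apply]; ring

theorem lrptd_b_U (g : SL(2, ℤ)) : lrptd_b (S * T * g) = lrptd_b g := by
  obtain ⟨h1, h2, h3, h4⟩ := lrptd_U_mul_apply g
  simp only [lrptd_b, h1, h2, h3, h4]; ring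

/-! ### The potential `Q` -/

theorem lrptd_dec0 (g : SL(2, ℤ)) (h : 0 < lrptd_a g) :
    (lrptd_ht (S * g)).toNat < (lrptd_ht g).toNat := by
  have h1 := lrptd_ht_S g
  have h2 := lrptd_ht_nonneg g
  have h3 := lrptd_ht_nonneg (S * g)
  omega

theorem lrptd_dec1 (g : SL(2, ℤ)) (h : 0 < lrptd_a (S * T * g)) :
    (lrptd_ht (S * (S * T * g))).toNat < (lrptd_ht g).toNat := by
  have h := lrptd_dec0 (S * T * g) h
  rwa [lrptd_ht_U g] at h

theorem lrptd_dec2 (g : SL(2, ℤ)) (h : 0 < lrptd_a (S * T * (S * T * g))) :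
    (lrptd_ht (S * (S * T * (S * T * g)))).toNat < (lrptd_ht g).toNat := by
  have h := lrptd_dec0 (S * T * (S * T * g)) h
  rwa [lrptd_ht_U, lrptd_ht_U g] at h

/-- The potential, by descent on the height. -/
noncomputable def lrptd_Q {A : Type u} [AddCommGroup A] (η : SL(2, ℤ) → A) (g : SL(2, ℤ)) : A :=
  if h0 : 0 < lrptd_a g then lrptd_Q η (S * g) - η g
  else if h1 : 0 < lrptd_a (S * T * g) then lrptd_Q η (S * (S * T * g)) - η (S * T * g)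
  else if h2 : 0 < lrptd_a (S * T * (S * T * g)) then
    lrptd_Q η (S * (S * T * (S * T * g))) - η (S * T * (S * T * g))
  else if lrptd_b g = 1 then 0 else η 1
termination_by (lrptd_ht g).toNat
decreasing_by
  · exact lrptd_dec0 g h0
  · exact lrptd_dec1 g h1
  · exact lrptd_dec2 g h2


section
variable {A : Type u} [AddCommGroup A] (η : SL(2, ℤ) → A)

theorem lrptd_Q_pos0 (g : SL(2, ℤ)) (h0 : 0 < lrptd_a g) :
    lrptd_Q η g = lrptd_Q η (S * g) - η g := by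
  rw [lrptd_Q.eq_1 η g, dif_pos h0]

theorem lrptd_Q_pos1 (g : SL(2, ℤ)) (h0 : ¬ 0 < lrptd_a g) (h1 : 0 < lrptd_a (S * T * g)) :
    lrptd_Q η g = lrptd_Q η (S * (S * T * g)) - η (S * T * g) := by
  rw [lrptd_Q.eq_1 η g, dif_neg h0, dif_pos h1]

theorem lrptd_Q_pos2 (g : SL(2, ℤ)) (h0 : ¬ 0 < lrptd_a g) (h1 : ¬ 0 < lrptd_a (S * T * g))
    (h2 : 0 < lrptd_a (S * T * (S * T * g))) :
    lrptd_Q η g = lrptd_Q η (S * (S * T * (S * T * g))) - η (S * T * (S * T * g)) := by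
  rw [lrptd_Q.eq_1 η g, dif_neg h0, dif_neg h1, dif_pos h2]

theorem lrptd_Q_base (g : SL(2, ℤ)) (h0 : ¬ 0 < lrptd_a g) (h1 : ¬ 0 < lrptd_a (S * T * g))
    (h2 : ¬ 0 < lrptd_a (S * T * (S * T * g))) :
    lrptd_Q η g = if lrptd_b g = 1 then 0 else η 1 := by
  rw [lrptd_Q.eq_1 η g, dif_neg h0, dif_neg h1, dif_neg h2]

/-- Sign invariance. -/
theorem lrptd_Q_neg (hη : ∀ g, η (-g) = η g) (g : SL(2, ℤ)) : lrptd_Q η (-g) = lrptd_Q η g := by
  induction' hn : (lrptd_ht g).toNat using Nat.strong_induction_on with n ih generalizing g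
  have e0 : lrptd_a (-g) = lrptd_a g := lrptd_a_neg g
  have e1 : lrptd_a (S * T * (-g)) = lrptd_a (S * T * g) := by
    rw [lrptd_U_neg, lrptd_a_neg]
  have e2 : lrptd_a (S * T * (S * T * (-g))) = lrptd_a (S * T * (S * T * g)) := by
    rw [lrptd_U_neg, lrptd_U_neg, lrptd_a_neg]
  by_cases h0 : 0 < lrptd_a g
  · rw [lrptd_Q_pos0 η g h0, lrptd_Q_pos0 η (-g) (by rw [e0]; exact h0), lrptd_S_neg, hη,
      ih _ (by rw [← hn]; exact lrptd_dec0 g h0) (S * g) rfl]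
  · by_cases h1 : 0 < lrptd_a (S * T * g)
    · rw [lrptd_Q_pos1 η g h0 h1,
        lrptd_Q_pos1 η (-g) (by rw [e0]; exact h0) (by rw [e1]; exact h1), lrptd_U_neg, lrptd_S_neg,
        hη, ih _ (by rw [← hn]; exact lrptd_dec1 g h1) (S * (S * T * g)) rfl]
    · by_cases h2 : 0 < lrptd_a (S * T * (S * T * g))
      · rw [lrptd_Q_pos2 η g h0 h1 h2,
          lrptd_Q_pos2 η (-g) (by rw [e0]; exact h0) (by rw [e1]; exact h1)
            (by rw [e2]; exact h2), lrptd_U_neg, lrptd_U_neg, lrptd_S_neg,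
          hη, ih _ (by rw [← hn]; exact lrptd_dec2 g h2) (S * (S * T * (S * T * g))) rfl]
      · rw [lrptd_Q_base η g h0 h1 h2,
          lrptd_Q_base η (-g) (by rw [e0]; exact h0) (by rw [e1]; exact h1)
            (by rw [e2]; exact h2), lrptd_b_neg]


theorem lrptd_sq_pos_row0 (g : SL(2, ℤ)) : 0 < g 0 0 ^ 2 + g 0 1 ^ 2 := by
  have hd := lrptd_det g
  rcases eq_or_ne (g 0 0) 0 with h | h
  · rcases eq_or_ne (g 0 1) 0 with h' | h'
    · rw [h, h'] at hd; simp at hd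
    · positivity
  · positivity

theorem lrptd_sq_pos_row1 (g : SL(2, ℤ)) : 0 < g 1 0 ^ 2 + g 1 1 ^ 2 := by
  have hd := lrptd_det g
  rcases eq_or_ne (g 1 0) 0 with h | h
  · rcases eq_or_ne (g 1 1) 0 with h' | h'
    · rw [h, h'] at hd; simp at hd
    · positivity
  · positivity

/-- `U`-invariance. -/
theorem lrptd_Q_U (hη : ∀ g, η (-g) = η g) (g : SL(2, ℤ)) :
    lrptd_Q η (S * T * g) = lrptd_Q η g := by
  have eU := lrptd_a_U g
  have eUU := lrptd_a_UU g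
  have r0 := lrptd_sq_pos_row0 g
  have r1 := lrptd_sq_pos_row1 g
  have e3 : lrptd_a (S * T * (S * T * (S * T * g))) = lrptd_a g := by
    rw [lrptd_UUU, lrptd_a_neg]
  by_cases h0 : 0 < lrptd_a g
  · -- `g` is in branch 0, `U g` in branch 2
    have n1 : ¬ 0 < lrptd_a (S * T * g) := by omega
    have n2 : ¬ 0 < lrptd_a (S * T * (S * T * g)) := by omega
    rw [lrptd_Q_pos0 η g h0, lrptd_Q_pos2 η (S * T * g) n1 n2 (by rw [e3]; exact h0), lrptd_UUU,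
      lrptd_S_neg, lrptd_Q_neg η hη, hη]
  · by_cases h1 : 0 < lrptd_a (S * T * g)
    · rw [lrptd_Q_pos1 η g h0 h1, lrptd_Q_pos0 η (S * T * g) h1]
    · by_cases h2 : 0 < lrptd_a (S * T * (S * T * g))
      · rw [lrptd_Q_pos2 η g h0 h1 h2, lrptd_Q_pos1 η (S * T * g) h1 h2]
      · rw [lrptd_Q_base η g h0 h1 h2,
          lrptd_Q_base η (S * T * g) h1 h2 (by rw [e3]; exact h0), lrptd_b_U]


/-- The elements with orthogonal rows. -/
theorem lrptd_eq_of_a_eq_zero (g : SL(2, ℤ)) (h : lrptd_a g = 0) :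
    g = 1 ∨ g = -1 ∨ g = S ∨ g = -S := by
  have hd := lrptd_det g
  unfold lrptd_a at h
  have key : (g 0 0 ^ 2 + g 0 1 ^ 2) * (g 1 0 ^ 2 + g 1 1 ^ 2) = 1 := by
    have : (g 0 0 ^ 2 + g 0 1 ^ 2) * (g 1 0 ^ 2 + g 1 1 ^ 2) =
        (g 0 0 * g 1 0 + g 0 1 * g 1 1) ^ 2 + (g 0 0 * g 1 1 - g 0 1 * g 1 0) ^ 2 := by ring
    rw [this, h, hd]; norm_num
  have p0 := lrptd_sq_pos_row0 g
  have p1 := lrptd_sq_pos_row1 g
  have q0 : g 0 0 ^ 2 + g 0 1 ^ 2 = 1 := by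
    have := Int.eq_one_or_neg_one_of_mul_eq_one key  -- placeholder
    omega
  have q1 : g 1 0 ^ 2 + g 1 1 ^ 2 = 1 := by
    rw [q0, one_mul] at key; exact key
  have b00 : g 0 0 ^ 2 ≤ 1 := by nlinarith [sq_nonneg (g 0 1)]
  have b01 : g 0 1 ^ 2 ≤ 1 := by nlinarith [sq_nonneg (g 0 0)]
  have b10 : g 1 0 ^ 2 ≤ 1 := by nlinarith [sq_nonneg (g 1 1)]
  have b11 : g 1 1 ^ 2 ≤ 1 := by nlinarith [sq_nonneg (g 1 0)]
  have c00 : -1 ≤ g 0 0 ∧ g 0 0 ≤ 1 := by constructor <;> nlinarith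
  have c01 : -1 ≤ g 0 1 ∧ g 0 1 ≤ 1 := by constructor <;> nlinarith
  have c10 : -1 ≤ g 1 0 ∧ g 1 0 ≤ 1 := by constructor <;> nlinarith
  have c11 : -1 ≤ g 1 1 ∧ g 1 1 ≤ 1 := by constructor <;> nlinarith
  obtain ⟨l00, u00⟩ := c00
  obtain ⟨l01, u01⟩ := c01
  obtain ⟨l10, u10⟩ := c10
  obtain ⟨l11, u11⟩ := c11
  have ext4 : ∀ k : SL(2, ℤ), g 0 0 = k 0 0 → g 0 1 = k 0 1 → g 1 0 = k 1 0 → g 1 1 = k 1 1 →
      g = k := by
    intro k e1 e2 e3 e4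
    ext i j
    fin_cases i <;> fin_cases j <;> assumption
  have v1 : ((1 : SL(2, ℤ)) 0 0 = 1 ∧ (1 : SL(2, ℤ)) 0 1 = 0) ∧
      ((1 : SL(2, ℤ)) 1 0 = 0 ∧ (1 : SL(2, ℤ)) 1 1 = 1) := by
    simp
  have vS : ((S : SL(2, ℤ)) 0 0 = 0 ∧ (S : SL(2, ℤ)) 0 1 = -1) ∧
      ((S : SL(2, ℤ)) 1 0 = 1 ∧ (S : SL(2, ℤ)) 1 1 = 0) := by
    simp [ModularGroup.coe_S]
  interval_cases h00 : g 0 0 <;> interval_cases h01 : g 0 1 <;>
    interval_cases h10 : g 1 0 <;> interval_cases h11 : g 1 1 <;>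
    simp at h hd q0 q1
  · exact Or.inr (Or.inl (ext4 (-1) (by simp [Matrix.SpecialLinearGroup.coe_neg])
      (by simp [Matrix.SpecialLinearGroup.coe_neg]) (by simp [Matrix.SpecialLinearGroup.coe_neg])
      (by simp [Matrix.SpecialLinearGroup.coe_neg])))
  · exact Or.inr (Or.inr (Or.inl (ext4 S (by simp [ModularGroup.coe_S])
      (by simp [ModularGroup.coe_S]) (by simp [ModularGroup.coe_S])
      (by simp [ModularGroup.coe_S]))))
  · exact Or.inr (Or.inr (Or.inr (ext4 (-S)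
      (by simp [ModularGroup.coe_S, Matrix.SpecialLinearGroup.coe_neg])
      (by simp [ModularGroup.coe_S, Matrix.SpecialLinearGroup.coe_neg])
      (by simp [ModularGroup.coe_S, Matrix.SpecialLinearGroup.coe_neg])
      (by simp [ModularGroup.coe_S, Matrix.SpecialLinearGroup.coe_neg]))))
  · exact Or.inl (ext4 1 (by simp) (by simp) (by simp) (by simp))


theorem lrptd_Q_one : lrptd_Q η 1 = 0 := by
  have a0 : lrptd_a (1 : SL(2, ℤ)) = 0 := by simp [lrptd_a]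
  have a1 : lrptd_a (S * T * (1 : SL(2, ℤ))) = -1 := by rw [lrptd_a_U, a0]; simp
  have a2 : lrptd_a (S * T * (S * T * (1 : SL(2, ℤ)))) = -1 := by rw [lrptd_a_UU, a0]; simp
  rw [lrptd_Q_base η 1 (by rw [a0]; decide) (by rw [a1]; decide) (by rw [a2]; decide)]
  have b : lrptd_b (1 : SL(2, ℤ)) = 1 := by simp [lrptd_b]
  rw [if_pos b]

theorem lrptd_Q_S : lrptd_Q η S = η 1 := by
  have a0 : lrptd_a (S : SL(2, ℤ)) = 0 := by simp [lrptd_a, ModularGroup.coe_S]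
  have a1 : lrptd_a (S * T * (S : SL(2, ℤ))) = -1 := by
    rw [lrptd_a_U, a0]; simp [ModularGroup.coe_S]
  have a2 : lrptd_a (S * T * (S * T * (S : SL(2, ℤ)))) = -1 := by
    rw [lrptd_a_UU, a0]; simp [ModularGroup.coe_S]
  rw [lrptd_Q_base η S (by rw [a0]; decide) (by rw [a1]; decide) (by rw [a2]; decide)]
  have b : lrptd_b (S : SL(2, ℤ)) ≠ 1 := by simp [lrptd_b, ModularGroup.coe_S]
  rw [if_neg b]

/-- The `S`-relation. -/
theorem lrptd_Q_S_mul (hη : ∀ g, η (-g) = η g) (hS : ∀ g, η (S * g) = -η g) (g : SL(2, ℤ)) :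
    lrptd_Q η (S * g) - lrptd_Q η g = η g := by
  rcases lt_trichotomy 0 (lrptd_a g) with h | h | h
  · rw [lrptd_Q_pos0 η g h]; abel
  · have hS1 : η S = -η 1 := by have := hS 1; rwa [mul_one] at this
    rcases lrptd_eq_of_a_eq_zero g h.symm with rfl | rfl | rfl | rfl
    · rw [mul_one, lrptd_Q_S, lrptd_Q_one, sub_zero]
    · rw [lrptd_S_neg, mul_one, lrptd_Q_neg η hη, lrptd_Q_neg η hη, lrptd_Q_S, lrptd_Q_one, sub_zero,
        hη]
    · have hSS : S * S = (-1 : SL(2, ℤ)) := by have := lrptd_SS 1; rwa [mul_one] at this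
      rw [hSS, lrptd_Q_neg η hη, lrptd_Q_S, lrptd_Q_one, zero_sub, hS1]
    · have hSS : S * S = (-1 : SL(2, ℤ)) := by have := lrptd_SS 1; rwa [mul_one] at this
      rw [lrptd_S_neg, hSS, neg_neg, lrptd_Q_neg η hη, lrptd_Q_S, lrptd_Q_one, zero_sub, hη, hS1]
  · have h' : 0 < lrptd_a (S * g) := by rw [lrptd_a_S]; omega
    rw [lrptd_Q_pos0 η (S * g) h', lrptd_SS, lrptd_Q_neg η hη, hS]; abel

end

/-- **[TREE]**: the statement. -/
def lrptd_Tree_stmt : Prop :=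
  ∀ (A : Type u) [AddCommGroup A] (η : SL(2, ℤ) → A), (∀ g, η (-g) = η g) →
    (∀ g, η (S * g) = -η g) →
    ∃ Q : SL(2, ℤ) → A, (∀ g, Q (-g) = Q g) ∧ (∀ g, Q (S * T * g) = Q g) ∧
      (∀ g, Q (S * g) - Q g = η g)

/-- **[TREE]**, with the normalisation `Q 1 = 0`. -/
theorem lrptd_tree_normalised (A : Type u) [AddCommGroup A] (η : SL(2, ℤ) → A)
    (hη : ∀ g, η (-g) = η g) (hS : ∀ g, η (S * g) = -η g) :
    ∃ Q : SL(2, ℤ) → A, Q 1 = 0 ∧ (∀ g, Q (-g) = Q g) ∧ (∀ g, Q (S * T * g) = Q g) ∧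
      (∀ g, Q (S * g) - Q g = η g) :=
  ⟨lrptd_Q η, lrptd_Q_one η, lrptd_Q_neg η hη, lrptd_Q_U η hη, lrptd_Q_S_mul η hη hS⟩

/-- **[TREE]**. -/
theorem lrptd_tree : lrptd_Tree_stmt.{u} := by
  intro A _ η hη hS
  obtain ⟨Q, -, h1, h2, h3⟩ := lrptd_tree_normalised A η hη hS
  exact ⟨Q, h1, h2, h3⟩

end Fermat.Agent.LR
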